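/-
Programme S32x (S32), chapter R3b(i) (helper4): **the coefficient ring `T` of a Hecke–Galois datum is
reduced.**

Abstract core `isReduced_of_adjoin`: `𝒪` a domain of characteristic zero with fraction field `F`, `T` a
finite free commutative `𝒪`-algebra generated over `𝒪` by the image of a ring homomorphism
`π : 𝕋 → T` from a reduced commutative ring all of whose elements are integral over `ℤ`.  Then `T` is
reduced: in the finite dimensional `F`-algebra `F ⊗ T` multiplication by `1 ⊗ π h` is killed by the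
image of the (squarefree) minimal polynomial over `ℚ` of `h ⊗ 1 ∈ 𝕋 ⊗ ℚ` (a localisation of `𝕋`, hence
reduced), so it is a semisimple endomorphism; commuting semisimple endomorphisms over a perfect field
generate an algebra of semisimple endomorphisms, and a nilpotent semisimple endomorphism vanishes.
-/
import Mathlib
import Fermat.Prelude.Def_CuspForm_HeckeGaloisRepDatum
import Fermat.Agent.S22
import Fermat.Agent.ES.PET.PetFinal21

set_option autoImplicit false
set_option linter.style.haveILetI false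

open TensorProduct Polynomial

namespace Fermat.Agent.S32x.Reduced4

section Semisimple

variable {F : Type*} [Field F] [PerfectField F]
variable {A : Type*} [CommRing A] [Algebra F A] [FiniteDimensional F A]

/-- the elements of a finite dimensional commutative algebra acting semisimply by multiplication. -/
def ssSubalgebra (F : Type*) [Field F] [PerfectField F] (A : Type*) [CommRing A] [Algebra F A]
    [FiniteDimensional F A] : Subalgebra F A where
  carrier := {a | (Algebra.lmul F A a).IsSemisimple}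
  mul_mem' {a b} ha hb := by
    show (Algebra.lmul F A (a * b)).IsSemisimple
    rw [map_mul]
    exact Module.End.IsSemisimple.mul_of_commute
      (by rw [Commute, SemiconjBy, ← map_mul, ← map_mul, mul_comm]) ha hb
  add_mem' {a b} ha hb := by
    show (Algebra.lmul F A (a + b)).IsSemisimple
    rw [map_add]
    exact Module.End.IsSemisimple.add_of_commute
      (by rw [Commute, SemiconjBy, ← map_mul, ← map_mul, mul_comm]) ha hb
  algebraMap_mem' c := by
    show (Algebra.lmul F A (algebraMap F A c)).IsSemisimple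
    rw [AlgHom.commutes, Algebra.algebraMap_eq_smul_one]
    exact Module.End.IsSemisimple_smul c Module.End.isSemisimple_id

theorem mem_ssSubalgebra {a : A} :
    a ∈ ssSubalgebra F A ↔ (Algebra.lmul F A a).IsSemisimple := Iff.rfl

/-- an element killed by a squarefree polynomial acts semisimply. -/
theorem mem_ssSubalgebra_of_squarefree {a : A} {q : F[X]} (hq : Squarefree q)
    (hqa : aeval a q = 0) : a ∈ ssSubalgebra F A := by
  rw [mem_ssSubalgebra]
  refine Module.End.isSemisimple_of_squarefree_aeval_eq_zero hq ?_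
  rw [aeval_algHom_apply, hqa, map_zero]

/-- if all elements act semisimply the algebra is reduced. -/
theorem isReduced_of_ssSubalgebra_eq_top (h : ssSubalgebra F A = ⊤) : IsReduced A := by
  refine ⟨fun a ha => ?_⟩
  have h1 : (Algebra.lmul F A a).IsSemisimple := by
    rw [← mem_ssSubalgebra, h]
    exact Algebra.mem_top
  have h2 : IsNilpotent (Algebra.lmul F A a) := ha.map _
  have h3 := Module.End.eq_zero_of_isNilpotent_isSemisimple h2 h1
  exact Algebra.lmul_injective (R := F) (by rw [h3, map_zero])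

end Semisimple

section Minpoly

variable {𝕋 : Type*} [CommRing 𝕋] [IsReduced 𝕋]

/-- an element of a reduced ring which is integral over `ℤ` becomes, in any commutative ring `B`
containing `ℚ`, a root of a separable polynomial over `ℚ`. -/
theorem exists_separable_eval₂_eq_zero (h : 𝕋) (hint : IsIntegral ℤ h) :
    ∃ μ : ℚ[X], μ.Separable ∧ ∀ {B : Type*} [CommRing B] (φ : 𝕋 →+* B) (ι : ℚ →+* B),
      eval₂ ι (φ h) μ = 0 := by
  letI : Algebra ℚ (𝕋 ⊗[ℤ] ℚ) := Algebra.TensorProduct.rightAlgebra
  have hred : IsReduced (𝕋 ⊗[ℤ] ℚ) :=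
    isReduced_localizationPreserves (Algebra.algebraMapSubmonoid 𝕋 (nonZeroDivisors ℤ))
      (𝕋 ⊗[ℤ] ℚ) inferInstance
  set a : 𝕋 ⊗[ℤ] ℚ := h ⊗ₜ 1 with ha
  have hinta : IsIntegral ℤ a :=
    hint.map (Algebra.TensorProduct.includeLeft : 𝕋 →ₐ[ℤ] 𝕋 ⊗[ℤ] ℚ)
  have hintQ : IsIntegral ℚ a := hinta.tower_top
  have hrad : IsRadical (minpoly ℚ a) := minpoly.isRadical ℚ a
  have hsq : Squarefree (minpoly ℚ a) := hrad.squarefree (minpoly.ne_zero hintQ)
  refine ⟨minpoly ℚ a, PerfectField.separable_iff_squarefree.2 hsq, ?_⟩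
  intro B _ φ ι
  let ψ : 𝕋 ⊗[ℤ] ℚ →+* B :=
    (Algebra.TensorProduct.productMap φ.toIntAlgHom ι.toIntAlgHom).toRingHom
  have hψa : ψ a = φ h := by
    show Algebra.TensorProduct.productMap φ.toIntAlgHom ι.toIntAlgHom (h ⊗ₜ 1) = _
    rw [Algebra.TensorProduct.productMap_apply_tmul, map_one, mul_one]
    rfl
  have h1 : aeval a (minpoly ℚ a) = 0 := minpoly.aeval ℚ a
  have h2 := congrArg ψ h1
  rw [map_zero, aeval_def, hom_eval₂, hψa] at h2
  have h3 : ψ.comp (algebraMap ℚ (𝕋 ⊗[ℤ] ℚ)) = ι := RingHom.ext_rat _ _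
  rw [h3] at h2
  exact h2

end Minpoly

section Core

variable {𝒪 : Type*} [CommRing 𝒪] [IsDomain 𝒪] [CharZero 𝒪]
variable {T : Type*} [CommRing T] [Algebra 𝒪 T] [Module.Finite 𝒪 T] [Module.Free 𝒪 T]
variable {𝕋 : Type*} [CommRing 𝕋] [IsReduced 𝕋]

/-- **abstract core**: a finite free algebra over a domain of characteristic zero, generated by the
image of a reduced ring integral over `ℤ`, is reduced. -/
theorem isReduced_of_adjoin (π : 𝕋 →+* T) (hint : ∀ h : 𝕋, IsIntegral ℤ h)
    (hgen : Algebra.adjoin 𝒪 (Set.range π) = ⊤) : IsReduced T := by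
  set F := FractionRing 𝒪 with hF
  set TF := F ⊗[𝒪] T with hTF
  have hincl : Function.Injective
      (Algebra.TensorProduct.includeRight : T →ₐ[𝒪] TF) :=
    Algebra.TensorProduct.includeRight_injective (IsFractionRing.injective 𝒪 F)
  -- the generators act semisimply
  have hgenmem : ∀ h : 𝕋, (1 : F) ⊗ₜ[𝒪] π h ∈ ssSubalgebra F TF := by
    intro h
    obtain ⟨μ, hμ, hμ0⟩ := exists_separable_eval₂_eq_zero h (hint h)
    have h1 := hμ0 ((Algebra.TensorProduct.includeRight : T →ₐ[𝒪] TF).toRingHom.comp π)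
      ((algebraMap F TF).comp (algebraMap ℚ F))
    rw [← eval₂_map] at h1
    exact mem_ssSubalgebra_of_squarefree (hμ.map (f := algebraMap ℚ F)).squarefree
      (by rw [aeval_def]; exact h1)
  -- all `1 ⊗ t` act semisimply
  have hT : ∀ t : T, (1 : F) ⊗ₜ[𝒪] t ∈ ssSubalgebra F TF := by
    intro t
    have ht : t ∈ Algebra.adjoin 𝒪 (Set.range π) := by rw [hgen]; exact Algebra.mem_top
    induction ht using Algebra.adjoin_induction with
    | mem x hx =>
      obtain ⟨h, rfl⟩ := hx
      exact hgenmem h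
    | algebraMap c =>
      have : (1 : F) ⊗ₜ[𝒪] algebraMap 𝒪 T c = algebraMap F TF (algebraMap 𝒪 F c) := by
        rw [Algebra.TensorProduct.algebraMap_apply, Algebra.algebraMap_eq_smul_one c,
          Algebra.algebraMap_eq_smul_one c, TensorProduct.tmul_smul, TensorProduct.smul_tmul']
        rfl
      rw [this]
      exact Subalgebra.algebraMap_mem _ _
    | add x y _ _ hx hy =>
      rw [TensorProduct.tmul_add]
      exact Subalgebra.add_mem _ hx hy
    | mul x y _ _ hx hy =>
      have : (1 : F) ⊗ₜ[𝒪] (x * y) = ((1 : F) ⊗ₜ[𝒪] x) * ((1 : F) ⊗ₜ[𝒪] y) := by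
        rw [Algebra.TensorProduct.tmul_mul_tmul, mul_one]
      rw [this]
      exact Subalgebra.mul_mem _ hx hy
  have hall : ∀ x : TF, x ∈ ssSubalgebra F TF := by
    intro x
    induction x using TensorProduct.induction_on with
    | zero => exact Subalgebra.zero_mem _
    | tmul c t =>
      have : c ⊗ₜ[𝒪] t = c • ((1 : F) ⊗ₜ[𝒪] t) := by
        rw [TensorProduct.smul_tmul', smul_eq_mul, mul_one]
      rw [this]
      exact Subalgebra.smul_mem _ (hT t) c
    | add x y hx hy => exact Subalgebra.add_mem _ hx hy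
  have htop : ssSubalgebra F TF = ⊤ := eq_top_iff.2 fun x _ => hall x
  have hredTF : IsReduced TF := isReduced_of_ssSubalgebra_eq_top htop
  exact isReduced_of_injective (Algebra.TensorProduct.includeRight : T →ₐ[𝒪] TF) hincl

end Core

section Datum

variable {p : ℕ} {N : ℕ} [NeZero N] {S : Finset ℕ}
  {𝒪 : Type} [CommRing 𝒪] [IsDomain 𝒪] [IsDiscreteValuationRing 𝒪]
  [IsAdicComplete (IsLocalRing.maximalIdeal 𝒪) 𝒪]
  {θ : CuspForm.heckeAlgebra N 2 (↑S : Set ℕ) →+* IsLocalRing.ResidueField 𝒪}
  {T : Type} [CommRing T] [IsLocalRing T] [IsNoetherianRing T]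
  [IsAdicComplete (IsLocalRing.maximalIdeal T) T] [Algebra 𝒪 T] [IsLocalHom (algebraMap 𝒪 T)]
  [Module.Finite 𝒪 T] [Module.Free 𝒪 T]

/-- **the coefficient ring of a Hecke–Galois datum is reduced.** -/
theorem isReduced_T [CharZero 𝒪] (hNS : ∀ q : ℕ, q.Prime → q ∣ N → q ∈ S)
    (H : CuspForm.HeckeGaloisRepDatum N (↑S : Set ℕ) 𝒪 θ T) : IsReduced T := by
  haveI : IsReduced (CuspForm.heckeAlgebra N 2 (↑S : Set ℕ)) :=
    Fermat.Agent.ES.PET.PetFinal21.isReduced_heckeAlgebra N (↑S : Set ℕ)
      (fun q hq hqN => Finset.mem_coe.2 (hNS q hq hqN))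
  haveI : Module.Finite ℤ (CuspForm.heckeAlgebra N 2 (↑S : Set ℕ)) :=
    Fermat.Agent.S22.result N 2 (↑S : Set ℕ)
  exact isReduced_of_adjoin H.π (fun h => IsIntegral.of_finite ℤ h) H.adjoin_range_π

end Datum

end Fermat.Agent.S32x.Reduced4
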