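/-
Programme S32x (S32), chapter R4a(i) (helper7): **local algebra for the datum `H`**.

* `span_range_eq_top` : for a monoid representation `ρ : G →* End_A V` on a free module of rank two
  over a local ring `A` whose reduction spans `End_k (k ⊗ V)`, the `A`-span of `ρ(G)` is `End_A V`
  (lifting of the residual span + Nakayama);
* `span_range_rho_eq_top` : the same for a residually absolutely irreducible `GaloisRepAdic`
  (input `hspan` of `MoritaA.exists_embedding_of_basis`);
* `basisV` : a basis `Fin 2` of `ρ.V`;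
* `isUnit_two` : `2` is a unit of a local ring with `p ∈ 𝔪`, `p` odd;
* `natCast_mem_maximalIdeal` : `p ∈ 𝔪_T` from `p ∈ 𝔪_𝒪` (re-export);
* `exists_pow_mem_of_finite_quotient` : if `T ⧸ I` is finite and `a ∈ 𝔪_T` then `a ^ k ∈ I` for some `k`.
-/
import Mathlib
import Fermat.Prelude.Def_CuspForm_HeckeGaloisRepDatum
import Fermat.Agent.ES.ALG31.TraceRigid13
import Fermat.Agent.ES.ALG31.PseudoChar9

set_option autoImplicit false
set_option linter.unusedSectionVars false

namespace Fermat.Agent.S32x.Alg7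

open Module IsLocalRing TensorProduct

section Local

variable {A : Type*} [CommRing A] [IsLocalRing A] {V : Type*} [AddCommGroup V] [Module A V]
  {G : Type*} [Monoid G] (ρ : G →* End A V)

/-- a vector whose image in `k ⊗ V` vanishes lies in `𝔪 V` (free case, via a basis). -/
theorem mem_smul_top_of_tmul_eq_zero {ι : Type*} [Fintype ι] (b : Basis ι A V) (v : V)
    (hv : (1 : ResidueField A) ⊗ₜ[A] v = 0) :
    v ∈ maximalIdeal A • (⊤ : Submodule A V) := by
  classical
  have hrepr : ∀ i, b.repr v i ∈ maximalIdeal A := by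
    intro i
    have h1 := congrArg (fun w => (Algebra.TensorProduct.basis (ResidueField A) b).repr w i) hv
    simp only [Algebra.TensorProduct.basis_repr_tmul, map_zero, Finsupp.coe_zero, Pi.zero_apply,
      one_smul, Finsupp.mapRange_apply] at h1
    exact (residue_eq_zero_iff _).mp h1
  rw [← b.sum_repr v]
  exact Submodule.sum_mem _ fun i _ => Submodule.smul_mem_smul (hrepr i) Submodule.mem_top

/-- an endomorphism with zero reduction lies in `𝔪 • End_A V`. -/
theorem mem_smul_top_of_baseChange_eq_zero {ι : Type*} [Fintype ι] (b : Basis ι A V)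
    (Y : End A V) (hY : Y.baseChange (ResidueField A) = 0) :
    Y ∈ maximalIdeal A • (⊤ : Submodule A (End A V)) := by
  have : Module.Free A V := Module.Free.of_basis b
  have : Module.Finite A V := Module.Finite.of_basis b
  have h := Fermat.Agent.ES.ALG31.PseudoChar9.sub_mem_smul_top_of_endCongr (maximalIdeal A)
    (X := Y) (Y := 0) (fun v => by
      rw [LinearMap.zero_apply, sub_zero]
      refine mem_smul_top_of_tmul_eq_zero b (Y v) ?_
      have := LinearMap.congr_fun hY ((1 : ResidueField A) ⊗ₜ[A] v)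
      rwa [LinearMap.baseChange_tmul, LinearMap.zero_apply] at this)
  rwa [sub_zero] at h

/-- **lifting the residual span + Nakayama.** -/
theorem span_range_eq_top {ι : Type*} [Fintype ι] (b : Basis ι A V)
    (hspan : Submodule.span (ResidueField A)
      (Set.range fun g => (ρ g).baseChange (ResidueField A)) = ⊤) :
    Submodule.span A (Set.range ρ) = ⊤ := by
  have : Module.Free A V := Module.Free.of_basis b
  have : Module.Finite A V := Module.Finite.of_basis b
  have : Module.Finite A (End A V) := Module.Finite.linearMap A A V V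
  rw [eq_top_iff]
  refine Submodule.le_of_le_smul_of_le_jacobson_bot (I := maximalIdeal A) Module.Finite.fg_top
    (maximalIdeal_le_jacobson ⊥) ?_
  intro E _
  obtain ⟨X, hX, hXE⟩ := Fermat.Agent.ES.ALG31.TraceRigid13.exists_lift_of_mem_span ρ
    (E := E.baseChange (ResidueField A)) (by rw [hspan]; exact Submodule.mem_top)
  have h1 : E - X ∈ maximalIdeal A • (⊤ : Submodule A (End A V)) := by
    refine mem_smul_top_of_baseChange_eq_zero b _ ?_
    rw [LinearMap.baseChange_sub]
    refine LinearMap.ext fun w => ?_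
    rw [LinearMap.sub_apply, hXE, sub_self, LinearMap.zero_apply]
  have h2 : E = X + (E - X) := by abel
  rw [h2]
  exact Submodule.add_mem_sup hX h1

/-- `2` is a unit when an odd prime lies in the maximal ideal. -/
theorem isUnit_two {p : ℕ} (hp : p.Prime) (hp2 : p ≠ 2) (hpA : (p : A) ∈ maximalIdeal A) :
    IsUnit (2 : A) := by
  have hcop : Nat.Coprime 2 p := (Nat.coprime_primes Nat.prime_two hp).mpr (Ne.symm hp2)
  have hcopZ : IsCoprime (2 : ℤ) (p : ℤ) := by
    have := Nat.isCoprime_iff_coprime.mpr hcop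
    simpa using this
  obtain ⟨a, c, hac⟩ := hcopZ
  have h1 : ((a : ℤ) : A) * 2 = 1 - (c : A) * (p : A) := by
    have := congrArg (fun z : ℤ => (z : A)) hac
    push_cast at this
    rw [← this]; ring
  have h2 : IsUnit (1 - (c : A) * (p : A)) := by
    by_contra hnu
    have hmem : 1 - (c : A) * (p : A) ∈ maximalIdeal A := (mem_maximalIdeal _).mpr hnu
    have hcp : (c : A) * (p : A) ∈ maximalIdeal A := Ideal.mul_mem_left _ _ hpA
    have h1' : (1 : A) ∈ maximalIdeal A := by
      have := Ideal.add_mem _ hmem hcp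
      simp at this
    exact (Ideal.ne_top_iff_one _).mp (maximalIdeal.isMaximal A).ne_top h1'
  rw [← h1] at h2
  exact isUnit_of_mul_isUnit_right h2

/-- if `A ⧸ I` is finite and `a ∈ 𝔪` then some power of `a` lies in `I`. -/
theorem exists_pow_mem_of_finite_quotient (I : Ideal A) [Finite (A ⧸ I)] {a : A}
    (ha : a ∈ maximalIdeal A) : ∃ k : ℕ, a ^ k ∈ I := by
  obtain ⟨m, n, hmn, h⟩ := Finite.exists_ne_map_eq_of_infinite
    (fun k : ℕ => (Ideal.Quotient.mk I (a ^ k)))
  wlog hlt : m < n generalizing m n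
  · exact this n m (Ne.symm hmn) h.symm (lt_of_le_of_ne (not_lt.mp hlt) (Ne.symm hmn))
  obtain ⟨d, rfl⟩ := Nat.exists_eq_add_of_lt hlt
  -- `a^m (1 - a^(d+1)) ∈ I`
  have h1 : a ^ m * (1 - a ^ (d + 1)) ∈ I := by
    have : a ^ m - a ^ (m + d + 1) ∈ I := by
      rw [← Ideal.Quotient.eq_zero_iff_mem, map_sub, sub_eq_zero]
      exact h
    have e : a ^ m * (1 - a ^ (d + 1)) = a ^ m - a ^ (m + d + 1) := by ring
    rw [e]; exact this
  have h2 : IsUnit (1 - a ^ (d + 1)) := by
    by_contra hnu
    have hmem : 1 - a ^ (d + 1) ∈ maximalIdeal A := (mem_maximalIdeal _).mpr hnu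
    have hcp : a ^ (d + 1) ∈ maximalIdeal A := Ideal.pow_mem_of_mem _ ha _ (Nat.succ_pos d)
    have h1' : (1 : A) ∈ maximalIdeal A := by
      have := Ideal.add_mem _ hmem hcp
      simp at this
    exact (Ideal.ne_top_iff_one _).mp (maximalIdeal.isMaximal A).ne_top h1'
  obtain ⟨u, hu⟩ := h2
  refine ⟨m, ?_⟩
  have := Ideal.mul_mem_right (↑u⁻¹ : A) I h1
  rwa [← hu, mul_assoc, Units.mul_inv, mul_one] at this

end Local

section Adic

variable {A : Type} [CommRing A] [IsLocalRing A]

/-- a basis of the underlying module of a `GaloisRepAdic`. -/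
noncomputable def basisV (ρ : GaloisRepAdic A) : Basis (Fin 2) A ρ.V :=
  Module.finBasisOfFinrankEq A ρ.V ρ.finrank_eq

/-- **the image of a residually absolutely irreducible representation spans `End_A V`.** -/
theorem span_range_rho_eq_top (ρ : GaloisRepAdic A)
    (habs : ρ.residual.IsAbsolutelyIrreducible) :
    Submodule.span A (Set.range ρ.ρ) = ⊤ :=
  span_range_eq_top ρ.ρ (basisV ρ)
    (Fermat.Agent.ES.ALG31.TraceRigid13.residual_span_eq_top ρ habs)

end Adic

section Datum

variable {p : ℕ} {N : ℕ} [NeZero N] {S : Finset ℕ}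
  {𝒪 : Type} [CommRing 𝒪] [IsDomain 𝒪] [IsDiscreteValuationRing 𝒪]
  [IsAdicComplete (IsLocalRing.maximalIdeal 𝒪) 𝒪]
  {θ : CuspForm.heckeAlgebra N 2 (↑S : Set ℕ) →+* IsLocalRing.ResidueField 𝒪}
  {T : Type} [CommRing T] [IsLocalRing T] [IsNoetherianRing T]
  [IsAdicComplete (IsLocalRing.maximalIdeal T) T] [Algebra 𝒪 T] [IsLocalHom (algebraMap 𝒪 T)]
  [Module.Finite 𝒪 T] [Module.Free 𝒪 T]

/-- `p ∈ 𝔪_T` from `p ∈ 𝔪_𝒪`. -/
theorem natCast_mem_maximalIdeal (hp𝒪 : (p : 𝒪) ∈ IsLocalRing.maximalIdeal 𝒪) :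
    (p : T) ∈ IsLocalRing.maximalIdeal T := by
  rw [IsLocalRing.mem_maximalIdeal, mem_nonunits_iff] at hp𝒪 ⊢
  intro h
  apply hp𝒪
  have : IsUnit (algebraMap 𝒪 T (p : 𝒪)) := by rwa [map_natCast]
  exact isUnit_of_map_unit (algebraMap 𝒪 T) _ this

/-- the three algebraic inputs of `MoritaA.exists_embedding_of_basis` for the datum `H`. -/
theorem datum_inputs (hp : p.Prime) (hp2 : p ≠ 2)
    (hp𝒪 : (p : 𝒪) ∈ IsLocalRing.maximalIdeal 𝒪)
    (H : CuspForm.HeckeGaloisRepDatum N (↑S : Set ℕ) 𝒪 θ T) :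
    Submodule.span T (Set.range H.ρ.ρ) = ⊤ ∧ IsUnit (2 : T) ∧
      (p : T) ∈ IsLocalRing.maximalIdeal T :=
  ⟨span_range_rho_eq_top H.ρ H.residual_absIrr,
    isUnit_two hp hp2 (natCast_mem_maximalIdeal hp𝒪), natCast_mem_maximalIdeal hp𝒪⟩

end Datum

end Fermat.Agent.S32x.Alg7
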