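/-
Programme S32x (S32), chapter R4a(ii) (helper7): **the Artin–Rees step**.

`T` a noetherian ring, `Φ : V →ₗ[T] Y` injective, `Y` finitely generated.

* `exists_shift_of_injective a Φ hΦ : ∃ c, ∀ n v, Φ v ∈ a ^ (n + c) • ⊤ → ∃ v', v = a ^ n • v'`;
* `exists_level` : `T` local, `a ∈ 𝔪_T`, `T ⧸ I` finite, `Φ : V →ₗ[T] (Fin m → X)` injective:
  `∃ n, ∀ v, (∀ i, Φ v i ∈ a ^ n • ⊤) → v ∈ I • ⊤`  (`a ^ n • ⊤` the pointwise multiple of `⊤`);
* `exists_level_span` : the same with `Ideal.span {a ^ n} • ⊤`.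
-/
import Mathlib
import Fermat.Agent.S32x.Alg7A

set_option autoImplicit false
set_option linter.unusedSectionVars false

namespace Fermat.Agent.S32x.Alg7

open Module IsLocalRing Pointwise

section ArtinRees

variable {T : Type*} [CommRing T] [IsNoetherianRing T]
  {V : Type*} [AddCommGroup V] [Module T V]

/-- **Artin–Rees for an injective linear map** into a finitely generated module. -/
theorem exists_shift_of_injective {Y : Type*} [AddCommGroup Y] [Module T Y] [Module.Finite T Y]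
    (a : T) (Φ : V →ₗ[T] Y) (hΦ : Function.Injective Φ) :
    ∃ c : ℕ, ∀ (n : ℕ) (v : V), Φ v ∈ a ^ (n + c) • (⊤ : Submodule T Y) →
      ∃ v' : V, v = a ^ n • v' := by
  set I₀ : Ideal T := Ideal.span {a} with hI₀
  set N : Submodule T Y := LinearMap.range Φ with hN
  obtain ⟨k, hk⟩ := Ideal.exists_pow_inf_eq_pow_smul I₀ N
  refine ⟨k, fun n v hv => ?_⟩
  have h1 : Φ v ∈ I₀ ^ (n + k) • (⊤ : Submodule T Y) ⊓ N := by
    refine ⟨?_, ⟨v, rfl⟩⟩
    rw [hI₀, Ideal.span_singleton_pow, Submodule.ideal_span_singleton_smul]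
    exact hv
  rw [hk (n + k) (Nat.le_add_left k n), Nat.add_sub_cancel] at h1
  have h2 : Φ v ∈ I₀ ^ n • N := Submodule.smul_mono le_rfl inf_le_right h1
  rw [hI₀, Ideal.span_singleton_pow, Submodule.ideal_span_singleton_smul] at h2
  obtain ⟨y, hy, hy'⟩ := h2
  obtain ⟨v', rfl⟩ := hy
  refine ⟨v', hΦ ?_⟩
  rw [map_smul]
  exact hy'.symm

/-- membership in `a • ⊤` of a finite power, coordinatewise. -/
theorem pi_mem_smul_top {X : Type*} [AddCommGroup X] [Module T X] {m : ℕ} (a : T)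
    (y : Fin m → X) (hy : ∀ i, y i ∈ a • (⊤ : Submodule T X)) :
    y ∈ a • (⊤ : Submodule T (Fin m → X)) := by
  choose z _ hz using hy
  exact ⟨z, Submodule.mem_top, funext fun i => hz i⟩

end ArtinRees

section Level

variable {T : Type*} [CommRing T] [IsNoetherianRing T] [IsLocalRing T]
  {V : Type*} [AddCommGroup V] [Module T V]
  {X : Type*} [AddCommGroup X] [Module T X] [Module.Finite T X]

/-- **the Artin–Rees step of S32** (pointwise form). -/
theorem exists_level {a : T} (ha : a ∈ maximalIdeal T) (I : Ideal T) [Finite (T ⧸ I)] {m : ℕ}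
    (Φ : V →ₗ[T] (Fin m → X)) (hΦ : Function.Injective Φ) :
    ∃ n : ℕ, ∀ v : V, (∀ i, Φ v i ∈ a ^ n • (⊤ : Submodule T X)) →
      v ∈ I • (⊤ : Submodule T V) := by
  obtain ⟨k, hk⟩ := exists_pow_mem_of_finite_quotient I ha
  obtain ⟨c, hc⟩ := exists_shift_of_injective a Φ hΦ
  refine ⟨k + c, fun v hv => ?_⟩
  obtain ⟨v', rfl⟩ := hc k v (pi_mem_smul_top _ _ hv)
  exact Submodule.smul_mem_smul hk Submodule.mem_top

/-- **the Artin–Rees step of S32** (ideal form). -/
theorem exists_level_span {a : T} (ha : a ∈ maximalIdeal T) (I : Ideal T) [Finite (T ⧸ I)]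
    {m : ℕ} (Φ : V →ₗ[T] (Fin m → X)) (hΦ : Function.Injective Φ) :
    ∃ n : ℕ, ∀ v : V, (∀ i, Φ v i ∈ Ideal.span {a ^ n} • (⊤ : Submodule T X)) →
      v ∈ I • (⊤ : Submodule T V) := by
  obtain ⟨n, hn⟩ := exists_level ha I Φ hΦ
  refine ⟨n, fun v hv => hn v fun i => ?_⟩
  have := hv i
  rwa [Submodule.ideal_span_singleton_smul] at this

/-- monotonicity in `n`: the statement of `exists_level` holds for every larger `n`. -/
theorem exists_level_ge {a : T} (ha : a ∈ maximalIdeal T) (I : Ideal T) [Finite (T ⧸ I)]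
    {m : ℕ} (Φ : V →ₗ[T] (Fin m → X)) (hΦ : Function.Injective Φ) :
    ∃ n₀ : ℕ, ∀ n, n₀ ≤ n → ∀ v : V, (∀ i, Φ v i ∈ Ideal.span {a ^ n} • (⊤ : Submodule T X)) →
      v ∈ I • (⊤ : Submodule T V) := by
  obtain ⟨n₀, hn₀⟩ := exists_level_span ha I Φ hΦ
  refine ⟨n₀, fun n hn v hv => hn₀ v fun i => ?_⟩
  refine Submodule.smul_mono ?_ le_rfl (hv i)
  rw [Ideal.span_singleton_le_span_singleton]
  exact pow_dvd_pow a hn

end Level

end Fermat.Agent.S32x.Alg7
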