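/-
S32 preparation, chapter R1 (helper2): **closure of Hopf orders under equivariant isomorphisms and
finite products.**

For `SubOrd1.IsHopfOrder Γ H` (`H ⊆ (M → K̄)` finite over `R`, equivariant, separating, generated by
functions with a coproduct in `H`):
* `isHopfOrder_comap_equiv` : transport along an equivariant additive isomorphism;
* `prodOrder H₁ H₂ := (H₁ ∘ fst) ⊔ (H₂ ∘ snd) ⊆ (M₁ × M₂ → K̄)` and `isHopfOrder_prod`;
* `piOrder H := ⨆ i, (H i ∘ eval i) ⊆ ((∀ i, M i) → K̄)` for a finite index type and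
  `isHopfOrder_pi` (in particular finite powers `Fin r → M`).
-/
import Mathlib
import Fermat.Agent.FF.SubOrd1

set_option autoImplicit false
set_option linter.style.haveILetI false
set_option linter.unusedSectionVars false

namespace Fermat.Agent.S32x.OrdProd2

open Fermat.Agent.FF.HopfOrd1 Fermat.Agent.FF.HopfOrderB Fermat.Agent.FF.HopfOrderC
open Fermat.Agent.FF.SubOrd1

section Equivariant

variable {R : Type*} [CommRing R] {Kbar : Type*} [Field Kbar] [Algebra R Kbar]
variable {Γ : Type*} [Group Γ] [MulSemiringAction Γ Kbar]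

/-- the subalgebra of equivariant functions, when the scalars from `R` are fixed by `Γ`. -/
def equivariantSubalgebra
    (hR : ∀ (σ : Γ) (r : R), σ • algebraMap R Kbar r = algebraMap R Kbar r)
    (M : Type*) [MulAction Γ M] : Subalgebra R (M → Kbar) where
  carrier := {f | IsEquivariantFun Γ f}
  mul_mem' := by
    intro f g hf hg σ m
    show f (σ • m) * g (σ • m) = σ • (f m * g m)
    rw [hf σ m, hg σ m, smul_mul']
  add_mem' := by
    intro f g hf hg σ m
    show f (σ • m) + g (σ • m) = σ • (f m + g m)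
    rw [hf σ m, hg σ m, smul_add]
  algebraMap_mem' := by
    intro r σ m
    show algebraMap R Kbar r = σ • algebraMap R Kbar r
    rw [hR]

theorem mem_equivariantSubalgebra
    {hR : ∀ (σ : Γ) (r : R), σ • algebraMap R Kbar r = algebraMap R Kbar r}
    {M : Type*} [MulAction Γ M] {f : M → Kbar} :
    f ∈ equivariantSubalgebra hR M ↔ IsEquivariantFun Γ f := Iff.rfl

/-- the scalars from `R` are fixed by `Γ` as soon as there is one Hopf order. -/
theorem smul_algebraMap_of_isHopfOrder {M : Type*} [AddCommGroup M] [DistribMulAction Γ M]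
    {H : Subalgebra R (M → Kbar)} (hH : IsHopfOrder Γ H) (σ : Γ) (r : R) :
    σ • algebraMap R Kbar r = algebraMap R Kbar r := by
  have h := hH.equivariant _ (H.algebraMap_mem r) σ 0
  simpa [Pi.algebraMap_apply] using h.symm

end Equivariant

section Iso

variable {R : Type*} [CommRing R] {Kbar : Type*} [Field Kbar] [Algebra R Kbar]
variable {Γ : Type*} [Group Γ] [MulSemiringAction Γ Kbar]
variable {M M' : Type*} [AddCommGroup M] [DistribMulAction Γ M] [AddCommGroup M']
  [DistribMulAction Γ M']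

/-- **transport of a Hopf order along an equivariant isomorphism.** -/
theorem isHopfOrder_comap_equiv {H : Subalgebra R (M → Kbar)} (hH : IsHopfOrder Γ H)
    (e : M' ≃+ M) (he : ∀ (σ : Γ) (z : M'), e (σ • z) = σ • e z) :
    IsHopfOrder Γ (comapOrder H (e : M' → M)) :=
  hH.comap e.toAddMonoidHom e.injective he

end Iso

section Prod

variable {R : Type*} [CommRing R] {Kbar : Type*} [Field Kbar] [Algebra R Kbar]
variable {Γ : Type*} [Group Γ] [MulSemiringAction Γ Kbar]
variable {M₁ M₂ : Type*} [AddCommGroup M₁] [DistribMulAction Γ M₁] [AddCommGroup M₂]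
  [DistribMulAction Γ M₂]

/-- the product order `H₁ ⊠ H₂` on `M₁ × M₂`: generated by the `h₁ ∘ fst` and the `h₂ ∘ snd`. -/
noncomputable def prodOrder (H₁ : Subalgebra R (M₁ → Kbar)) (H₂ : Subalgebra R (M₂ → Kbar)) :
    Subalgebra R (M₁ × M₂ → Kbar) :=
  comapOrder H₁ (Prod.fst : M₁ × M₂ → M₁) ⊔ comapOrder H₂ (Prod.snd : M₁ × M₂ → M₂)

theorem comp_fst_mem_prodOrder {H₁ : Subalgebra R (M₁ → Kbar)} (H₂ : Subalgebra R (M₂ → Kbar))
    {h : M₁ → Kbar} (hh : h ∈ H₁) : (fun z : M₁ × M₂ => h z.1) ∈ prodOrder H₁ H₂ :=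
  (le_sup_left : comapOrder H₁ _ ≤ prodOrder H₁ H₂) (comp_mem_comapOrder Prod.fst hh)

theorem comp_snd_mem_prodOrder (H₁ : Subalgebra R (M₁ → Kbar)) {H₂ : Subalgebra R (M₂ → Kbar)}
    {h : M₂ → Kbar} (hh : h ∈ H₂) : (fun z : M₁ × M₂ => h z.2) ∈ prodOrder H₁ H₂ :=
  (le_sup_right : comapOrder H₂ _ ≤ prodOrder H₁ H₂) (comp_mem_comapOrder Prod.snd hh)

/-- the elementary tensors `(z₁, z₂) ↦ h₁ z₁ * h₂ z₂` lie in the product order. -/
theorem mul_mem_prodOrder {H₁ : Subalgebra R (M₁ → Kbar)} {H₂ : Subalgebra R (M₂ → Kbar)}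
    {h₁ : M₁ → Kbar} {h₂ : M₂ → Kbar} (hh₁ : h₁ ∈ H₁) (hh₂ : h₂ ∈ H₂) :
    (fun z : M₁ × M₂ => h₁ z.1 * h₂ z.2) ∈ prodOrder H₁ H₂ :=
  (prodOrder H₁ H₂).mul_mem (comp_fst_mem_prodOrder H₂ hh₁) (comp_snd_mem_prodOrder H₁ hh₂)

/-- **the product of two Hopf orders is a Hopf order.** -/
theorem isHopfOrder_prod {H₁ : Subalgebra R (M₁ → Kbar)} {H₂ : Subalgebra R (M₂ → Kbar)}
    (h₁ : IsHopfOrder Γ H₁) (h₂ : IsHopfOrder Γ H₂) : IsHopfOrder Γ (prodOrder H₁ H₂) := by
  have hR := smul_algebraMap_of_isHopfOrder (R := R) h₁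
  haveI := h₁.finite
  haveI := h₂.finite
  haveI := finite_comapOrder H₁ (Prod.fst : M₁ × M₂ → M₁)
  haveI := finite_comapOrder H₂ (Prod.snd : M₁ × M₂ → M₂)
  refine ⟨Subalgebra.finite_sup _ _, ?_, ?_, ?_⟩
  · -- equivariance
    have hle : prodOrder H₁ H₂ ≤ equivariantSubalgebra hR (M₁ × M₂) := by
      refine sup_le ?_ ?_
      · rintro _ ⟨h, hh, rfl⟩ σ z
        show h (σ • z).1 = σ • h z.1
        rw [Prod.smul_fst, h₁.equivariant h hh]
      · rintro _ ⟨h, hh, rfl⟩ σ z
        show h (σ • z).2 = σ • h z.2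
        rw [Prod.smul_snd, h₂.equivariant h hh]
    exact fun h hh => hle hh
  · -- separation
    intro z z' hzz'
    refine Prod.ext ?_ ?_
    · exact h₁.separates _ _ fun h hh => hzz' _ (comp_fst_mem_prodOrder H₂ hh)
    · exact h₂.separates _ _ fun h hh => hzz' _ (comp_snd_mem_prodOrder H₁ hh)
  · -- coproduct
    obtain ⟨S₁, hS₁, hΔ₁⟩ := h₁.coprod
    obtain ⟨S₂, hS₂, hΔ₂⟩ := h₂.coprod
    refine ⟨(pull R Kbar (Prod.fst : M₁ × M₂ → M₁)) '' S₁ ∪
      (pull R Kbar (Prod.snd : M₁ × M₂ → M₂)) '' S₂, ?_, ?_⟩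
    · rw [Algebra.adjoin_union, ← AlgHom.map_adjoin, ← AlgHom.map_adjoin, ← hS₁, ← hS₂]
      rfl
    · rintro _ (⟨s, hs, rfl⟩ | ⟨s, hs, rfl⟩)
      · obtain ⟨κ, _, a, b, ha, hb, hab⟩ := hΔ₁ s hs
        refine ⟨κ, inferInstance, fun i z => a i z.1, fun i z => b i z.1,
          fun i => comp_fst_mem_prodOrder H₂ (ha i), fun i => comp_fst_mem_prodOrder H₂ (hb i),
          fun z z' => ?_⟩
        show s (z + z').1 = ∑ i, a i z.1 * b i z'.1
        rw [Prod.fst_add, hab]
      · obtain ⟨κ, _, a, b, ha, hb, hab⟩ := hΔ₂ s hs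
        refine ⟨κ, inferInstance, fun i z => a i z.2, fun i z => b i z.2,
          fun i => comp_snd_mem_prodOrder H₁ (ha i), fun i => comp_snd_mem_prodOrder H₁ (hb i),
          fun z z' => ?_⟩
        show s (z + z').2 = ∑ i, a i z.2 * b i z'.2
        rw [Prod.snd_add, hab]

end Prod

section Pi

variable {R : Type*} [CommRing R] {Kbar : Type*} [Field Kbar] [Algebra R Kbar]
variable {Γ : Type*} [Group Γ] [MulSemiringAction Γ Kbar]
variable {ι : Type*} {M : ι → Type*} [∀ i, AddCommGroup (M i)] [∀ i, DistribMulAction Γ (M i)]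

/-- a finite supremum of finite subalgebras of a commutative algebra is finite. -/
theorem finite_iSup_subalgebra {A : Type*} [CommRing A] [Algebra R A] [Finite ι]
    (S : ι → Subalgebra R A) (hS : ∀ i, Module.Finite R (S i)) :
    Module.Finite R ↥(⨆ i, S i) := by
  classical
  have : Fintype ι := Fintype.ofFinite ι
  have key : ∀ s : Finset ι, Module.Finite R ↥(⨆ i ∈ s, S i) := by
    intro s
    induction s using Finset.induction_on with
    | empty =>
      have e : (⨆ i ∈ (∅ : Finset ι), S i) = ⊥ := by simp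
      rw [e]
      exact Subalgebra.finite_bot
    | insert a s _ ih =>
      rw [Finset.iSup_insert]
      haveI := hS a
      haveI := ih
      exact Subalgebra.finite_sup _ _
  have e : (⨆ i ∈ (Finset.univ : Finset ι), S i) = ⨆ i, S i := by simp
  rw [← e]
  exact key Finset.univ

/-- the product order on `∀ i, M i`: generated by the `h ∘ eval i`, `h ∈ H i`. -/
noncomputable def piOrder (H : ∀ i, Subalgebra R (M i → Kbar)) :
    Subalgebra R ((∀ i, M i) → Kbar) :=
  ⨆ i, comapOrder (H i) (fun z : ∀ i, M i => z i)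

theorem comp_eval_mem_piOrder (H : ∀ i, Subalgebra R (M i → Kbar)) (i : ι) {h : M i → Kbar}
    (hh : h ∈ H i) : (fun z : ∀ i, M i => h (z i)) ∈ piOrder H :=
  (le_iSup (fun i => comapOrder (H i) (fun z : ∀ i, M i => z i)) i)
    (comp_mem_comapOrder (fun z : ∀ i, M i => z i) hh)

/-- **a finite product of Hopf orders is a Hopf order** (`hR` is automatic when `ι` is nonempty,
see `smul_algebraMap_of_isHopfOrder`). -/
theorem isHopfOrder_pi [Finite ι]
    (hR : ∀ (σ : Γ) (r : R), σ • algebraMap R Kbar r = algebraMap R Kbar r)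
    {H : ∀ i, Subalgebra R (M i → Kbar)} (hH : ∀ i, IsHopfOrder Γ (H i)) :
    IsHopfOrder Γ (piOrder H) := by
  refine ⟨?_, ?_, ?_, ?_⟩
  · refine finite_iSup_subalgebra _ fun i => ?_
    haveI := (hH i).finite
    exact finite_comapOrder (H i) _
  · have hle : piOrder H ≤ equivariantSubalgebra hR (∀ i, M i) := by
      refine iSup_le fun i => ?_
      rintro _ ⟨h, hh, rfl⟩ σ z
      show h ((σ • z) i) = σ • h (z i)
      rw [Pi.smul_apply, (hH i).equivariant h hh]
    exact fun h hh => hle hh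
  · intro z z' hzz'
    funext i
    exact (hH i).separates _ _ fun h hh => hzz' _ (comp_eval_mem_piOrder H i hh)
  · have hc := fun i => (hH i).coprod
    choose S hS hΔ using hc
    refine ⟨⋃ i, (pull R Kbar (fun z : ∀ i, M i => z i)) '' S i, ?_, ?_⟩
    · rw [Algebra.adjoin_iUnion]
      unfold piOrder
      congr 1
      funext i
      rw [← AlgHom.map_adjoin, ← hS i]
      rfl
    · intro s' hs'
      obtain ⟨i, hi⟩ := Set.mem_iUnion.1 hs'
      obtain ⟨s, hs, rfl⟩ := hi
      obtain ⟨κ, _, a, b, ha, hb, hab⟩ := hΔ i s hs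
      refine ⟨κ, inferInstance, fun k z => a k (z i), fun k z => b k (z i),
        fun k => comp_eval_mem_piOrder H i (ha k), fun k => comp_eval_mem_piOrder H i (hb k),
        fun z z' => ?_⟩
      show s ((z + z') i) = ∑ k, a k (z i) * b k (z' i)
      rw [Pi.add_apply, hab]

/-- finite powers. -/
theorem isHopfOrder_pow {N : Type*} [AddCommGroup N] [DistribMulAction Γ N]
    {H : Subalgebra R (N → Kbar)} (hH : IsHopfOrder Γ H) (r : ℕ) :
    IsHopfOrder Γ (piOrder (M := fun _ : Fin r => N) fun _ => H) :=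
  isHopfOrder_pi (smul_algebraMap_of_isHopfOrder (R := R) hH) fun _ => hH

end Pi

section Has

variable (R : Type*) [CommRing R] (Kbar : Type*) [Field Kbar] [Algebra R Kbar]
variable (Γ : Type*) [Group Γ] [MulSemiringAction Γ Kbar]

/-- `M` carries some Hopf order (over `R`, inside `M → K̄`, for the action of `Γ`). -/
def HasHopfOrder (M : Type*) [AddCommGroup M] [DistribMulAction Γ M] : Prop :=
  ∃ H : Subalgebra R (M → Kbar), IsHopfOrder Γ H

variable {R Kbar Γ}
variable {M M' : Type*} [AddCommGroup M] [DistribMulAction Γ M] [AddCommGroup M']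
  [DistribMulAction Γ M']

theorem HasHopfOrder.smul_algebraMap (h : HasHopfOrder R Kbar Γ M) (σ : Γ) (r : R) :
    σ • algebraMap R Kbar r = algebraMap R Kbar r := by
  obtain ⟨H, hH⟩ := h
  exact smul_algebraMap_of_isHopfOrder hH σ r

/-- closed subgroups. -/
theorem HasHopfOrder.of_injective (h : HasHopfOrder R Kbar Γ M) (ι : M' →+ M)
    (hinj : Function.Injective ι) (hι : ∀ (σ : Γ) (z : M'), ι (σ • z) = σ • ι z) :
    HasHopfOrder R Kbar Γ M' := by
  obtain ⟨H, hH⟩ := h
  exact ⟨_, hH.comap ι hinj hι⟩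

/-- isomorphisms. -/
theorem HasHopfOrder.of_addEquiv (h : HasHopfOrder R Kbar Γ M) (e : M' ≃+ M)
    (he : ∀ (σ : Γ) (z : M'), e (σ • z) = σ • e z) : HasHopfOrder R Kbar Γ M' :=
  h.of_injective e.toAddMonoidHom e.injective he

/-- binary products. -/
theorem HasHopfOrder.prod (h : HasHopfOrder R Kbar Γ M) (h' : HasHopfOrder R Kbar Γ M') :
    HasHopfOrder R Kbar Γ (M × M') := by
  obtain ⟨H, hH⟩ := h
  obtain ⟨H', hH'⟩ := h'
  exact ⟨_, isHopfOrder_prod hH hH'⟩

/-- finite products. -/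
theorem HasHopfOrder.pi {ι : Type*} [Finite ι] {N : ι → Type*} [∀ i, AddCommGroup (N i)]
    [∀ i, DistribMulAction Γ (N i)]
    (hR : ∀ (σ : Γ) (r : R), σ • algebraMap R Kbar r = algebraMap R Kbar r)
    (h : ∀ i, HasHopfOrder R Kbar Γ (N i)) : HasHopfOrder R Kbar Γ (∀ i, N i) := by
  choose H hH using h
  exact ⟨_, isHopfOrder_pi hR hH⟩

/-- finite powers. -/
theorem HasHopfOrder.pow (h : HasHopfOrder R Kbar Γ M) (ι : Type*) [Finite ι] :
    HasHopfOrder R Kbar Γ (ι → M) :=
  HasHopfOrder.pi h.smul_algebraMap fun _ => h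

/-- a closed subgroup of a finite power. -/
theorem HasHopfOrder.of_injective_pow (h : HasHopfOrder R Kbar Γ M) (ι : Type*) [Finite ι]
    (j : M' →+ (ι → M)) (hinj : Function.Injective j)
    (hj : ∀ (σ : Γ) (z : M') (i : ι), j (σ • z) i = σ • j z i) : HasHopfOrder R Kbar Γ M' :=
  (h.pow ι).of_injective j hinj fun σ z => funext fun i => hj σ z i

end Has

end Fermat.Agent.S32x.OrdProd2
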