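/-
Programme S32x (S32), chapter R5a (lead): **transfer of Hopf orders to a sub-quotient.**

`P` a finite `Γ`-module with a Hopf order, `f : P ↠ Q` equivariant, `j : V₀ → Q` equivariant,
`q : V₀ ↠ M''` equivariant with `ker j ⊆ ker q`.  Then `M''` is an equivariant quotient of the
stable subgroup `Y = f⁻¹(range j)` of `P`, hence carries a Hopf order (restriction to `Y`:
`SubOrd1.IsHopfOrder.comap`; quotient: the closure property `PushClosed` of chapter R1q, taken as a
hypothesis here).
-/
import Mathlib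
import Fermat.Agent.FF.SubOrd1

set_option autoImplicit false

namespace Fermat.Agent.S32x.SubQuotA

open Fermat.Agent.FF.SubOrd1

variable (R : Type*) [CommRing R] (Kbar : Type*) [Field Kbar] [Algebra R Kbar]
variable (Γ : Type*) [Group Γ] [MulSemiringAction Γ Kbar]

/-- the closure property of chapter R1q: Hopf orders pass to equivariant quotients. -/
def PushClosed : Prop :=
  ∀ (M M'' : Type) [AddCommGroup M] [Finite M] [DistribMulAction Γ M] [AddCommGroup M'']
    [DistribMulAction Γ M''] (H : Subalgebra R (M → Kbar)), IsHopfOrder Γ H →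
    ∀ π : M →+ M'', Function.Surjective π → (∀ (σ : Γ) (z : M), π (σ • z) = σ • π z) →
      ∃ H'' : Subalgebra R (M'' → Kbar), IsHopfOrder Γ H''

variable {R Kbar Γ}

section Stable

variable {P : Type*} [AddCommGroup P] [DistribMulAction Γ P]

/-- the action on a stable subgroup. -/
@[reducible] def stableAction (Y : AddSubgroup P) (hY : ∀ (σ : Γ) (z : P), z ∈ Y → σ • z ∈ Y) :
    DistribMulAction Γ Y where
  smul σ z := ⟨σ • (z : P), hY σ z z.2⟩
  one_smul z := Subtype.ext (one_smul Γ (z : P))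
  mul_smul σ τ z := Subtype.ext (mul_smul σ τ (z : P))
  smul_zero σ := Subtype.ext (smul_zero σ)
  smul_add σ z z' := Subtype.ext (smul_add σ (z : P) (z' : P))

end Stable

/-- **transfer of a Hopf order to a sub-quotient.** -/
theorem exists_order_of_subquotient (hpush : PushClosed R Kbar Γ)
    {P Q V₀ M'' : Type} [AddCommGroup P] [Finite P] [DistribMulAction Γ P]
    [AddCommGroup Q] [DistribMulAction Γ Q] [AddCommGroup V₀] [DistribMulAction Γ V₀]
    [AddCommGroup M''] [DistribMulAction Γ M'']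
    (H : Subalgebra R (P → Kbar)) (hH : IsHopfOrder Γ H)
    (f : P →+ Q) (hf : Function.Surjective f) (hfΓ : ∀ (σ : Γ) (z : P), f (σ • z) = σ • f z)
    (j : V₀ →+ Q) (hjΓ : ∀ (σ : Γ) (v : V₀), j (σ • v) = σ • j v)
    (q : V₀ →+ M'') (hq : Function.Surjective q) (hqΓ : ∀ (σ : Γ) (v : V₀), q (σ • v) = σ • q v)
    (hker : ∀ v, j v = 0 → q v = 0) :
    ∃ H'' : Subalgebra R (M'' → Kbar), IsHopfOrder Γ H'' := by
  classical
  -- the stable subgroup
  let Y : AddSubgroup P := (AddMonoidHom.range j).comap f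
  have hY : ∀ (σ : Γ) (z : P), z ∈ Y → σ • z ∈ Y := by
    rintro σ z ⟨v, hv⟩
    exact ⟨σ • v, by rw [hjΓ, hv, hfΓ]⟩
  letI : DistribMulAction Γ Y := stableAction Y hY
  have hsmul : ∀ (σ : Γ) (z : Y), ((σ • z : Y) : P) = σ • (z : P) := fun _ _ => rfl
  -- restriction of the order
  have hHY : IsHopfOrder Γ (comapOrder H (Y.subtype : Y → P)) :=
    hH.comap Y.subtype Subtype.val_injective fun σ z => hsmul σ z
  -- the map `Y → M''`
  have hex : ∀ z : Y, ∃ v : V₀, j v = f (z : P) := fun z => z.2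
  choose vv hvv using hex
  have hwell : ∀ (z : Y) (v : V₀), j v = f (z : P) → q v = q (vv z) := by
    intro z v hv
    have : j (v - vv z) = 0 := by rw [map_sub, hv, hvv, sub_self]
    have := hker _ this
    rwa [map_sub, sub_eq_zero] at this
  let g : Y →+ M'' := AddMonoidHom.mk' (fun z => q (vv z)) (by
    intro z z'
    have : j (vv z + vv z') = f ((z + z' : Y) : P) := by
      rw [map_add, hvv, hvv, AddSubgroup.coe_add, map_add]
    rw [← hwell (z + z') _ this, map_add])
  have hg : ∀ z, g z = q (vv z) := fun _ => rfl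
  have hgsurj : Function.Surjective g := by
    intro m
    obtain ⟨v, rfl⟩ := hq m
    obtain ⟨z, hz⟩ := hf (j v)
    refine ⟨⟨z, v, hz.symm⟩, ?_⟩
    rw [hg]
    exact (hwell ⟨z, v, hz.symm⟩ v hz.symm).symm
  have hgΓ : ∀ (σ : Γ) (z : Y), g (σ • z) = σ • g z := by
    intro σ z
    rw [hg, hg, ← hqΓ]
    refine (hwell (σ • z) (σ • vv z) ?_).symm
    rw [hjΓ, hvv, hsmul, hfΓ]
  haveI : Finite Y := Finite.of_injective _ Subtype.val_injective
  exact hpush Y M'' _ hHY g hgsurj hgΓ

end Fermat.Agent.S32x.SubQuotA
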