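/-
Programme S32x (S32), chapter R5c (lead): **closure of `HasHopfOrder` over `ℤ_(p)` under
sub-quotients of finite powers**, assembling R1q (`FF/QuotOrd4D.IsHopfOrder.quotient`, helper4),
R1p (`S32x/OrdProd2`, helper2), `FF/SubOrd1.IsHopfOrder.comap` (helper1) and `S32x/SubQuotA`.
-/
import Mathlib
import Fermat.Agent.FF.QuotOrd4D
import Fermat.Agent.FF.S19Wire1
import Fermat.Agent.S32x.OrdProd2
import Fermat.Agent.S32x.SubQuotA

set_option autoImplicit false
set_option linter.style.haveILetI false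

namespace Fermat.Agent.S32x.ClosureA

open Fermat.Agent.FF.SubOrd1 Fermat.Agent.FF.S19Wire1 Fermat.Agent.FF.QuotOrd4
  Fermat.Agent.S32x.OrdProd2 Fermat.Agent.S32x.SubQuotA

variable (p : ℕ) [Fact p.Prime]

/-- Hopf orders over `ℤ_(p)` for `G_ℚ`-modules pass to equivariant quotients. -/
theorem pushClosed :
    PushClosed (GaloisRep.ratLocalizedAt p) (AlgebraicClosure ℚ) GQ := by
  intro M M'' _ _ _ _ _ H hH π hπ hπΓ
  haveI : Finite M'' := Finite.of_surjective π hπ
  exact ⟨_, IsHopfOrder.quotient (K := ℚ) fixed_mem_range hH π hπ hπΓ⟩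

/-- `HasHopfOrder` passes to equivariant quotients. -/
theorem HasHopfOrder.of_surjective {M M'' : Type} [AddCommGroup M] [Finite M]
    [DistribMulAction GQ M] [AddCommGroup M''] [DistribMulAction GQ M'']
    (h : HasHopfOrder (GaloisRep.ratLocalizedAt p) (AlgebraicClosure ℚ) GQ M)
    (π : M →+ M'') (hπ : Function.Surjective π) (hπΓ : ∀ (σ : GQ) (z : M), π (σ • z) = σ • π z) :
    HasHopfOrder (GaloisRep.ratLocalizedAt p) (AlgebraicClosure ℚ) GQ M'' := by
  obtain ⟨H, hH⟩ := h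
  exact pushClosed p M M'' H hH π hπ hπΓ

/-- **the transfer**: if `M₀` carries a Hopf order, `f : M₀^ι ↠ Q` is equivariant, `j : V₀ → Q` is
equivariant and `q : V₀ ↠ M''` is equivariant with `ker j ⊆ ker q`, then `M''` carries a Hopf
order. -/
theorem hasHopfOrder_of_subquotient {M₀ Q V₀ M'' : Type} [AddCommGroup M₀] [Finite M₀]
    [DistribMulAction GQ M₀] [AddCommGroup Q] [DistribMulAction GQ Q] [AddCommGroup V₀]
    [DistribMulAction GQ V₀] [AddCommGroup M''] [DistribMulAction GQ M'']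
    (h : HasHopfOrder (GaloisRep.ratLocalizedAt p) (AlgebraicClosure ℚ) GQ M₀)
    (ι : Type) [Finite ι]
    (f : (ι → M₀) →+ Q) (hf : Function.Surjective f)
    (hfΓ : ∀ (σ : GQ) (z : ι → M₀), f (σ • z) = σ • f z)
    (j : V₀ →+ Q) (hjΓ : ∀ (σ : GQ) (v : V₀), j (σ • v) = σ • j v)
    (q : V₀ →+ M'') (hq : Function.Surjective q) (hqΓ : ∀ (σ : GQ) (v : V₀), q (σ • v) = σ • q v)
    (hker : ∀ v, j v = 0 → q v = 0) :
    HasHopfOrder (GaloisRep.ratLocalizedAt p) (AlgebraicClosure ℚ) GQ M'' := by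
  obtain ⟨H, hH⟩ := h.pow ι
  exact exists_order_of_subquotient (pushClosed p) H hH f hf hfΓ j hjΓ q hq hqΓ hker

end Fermat.Agent.S32x.ClosureA
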