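/-
Programme S32x (S32), chapter R5b (lead): **`GaloisRepAdic.IsFlatAt` from Hopf orders on the finite
levels `V ⧸ I V`.**

* `levelDMA ρ I` : the `DistribMulAction` of `G_ℚ` on `ρ.V ⧸ I • ⊤` given by `ρ.levelAction I`;
* `isFlatAt_of_orders` : if the residue field is finite and every finite level carries a Hopf order
  over `ℤ_(p)` (in the sense of `FF/SubOrd1.IsHopfOrder`), then `ρ.IsFlatAt p`.
-/
import Mathlib
import Fermat.Prelude.Def_GaloisRep_Flat
import Fermat.Agent.FF.SubOrd1
import Fermat.Agent.FF.S19Wire1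

set_option autoImplicit false
set_option linter.style.haveILetI false

namespace Fermat.Agent.S32x.FlatOfOrderA

open Fermat.Agent.FF.SubOrd1 Fermat.Agent.FF.S19Wire1

variable {A : Type} [CommRing A] [IsLocalRing A] (ρ : GaloisRepAdic A) (I : Ideal A)

/-- the finite level `V ⧸ I V`. -/
abbrev Lvl : Type := ρ.V ⧸ (I • (⊤ : Submodule A ρ.V))

theorem levelAction_mk (σ : GQ) (v : ρ.V) :
    ρ.levelAction I σ (Submodule.Quotient.mk v) = Submodule.Quotient.mk (ρ.ρ σ v) := rfl

theorem levelAction_one (x : Lvl ρ I) : ρ.levelAction I 1 x = x := by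
  induction x using Submodule.Quotient.induction_on with
  | H v => rw [levelAction_mk, map_one, Module.End.one_apply]

theorem levelAction_mul (σ τ : GQ) (x : Lvl ρ I) :
    ρ.levelAction I (σ * τ) x = ρ.levelAction I σ (ρ.levelAction I τ x) := by
  induction x using Submodule.Quotient.induction_on with
  | H v => rw [levelAction_mk, levelAction_mk, levelAction_mk, map_mul, Module.End.mul_apply]

/-- the Galois action on the finite level `V ⧸ I V`. -/
@[reducible] noncomputable def levelDMA : DistribMulAction GQ (Lvl ρ I) where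
  smul σ x := ρ.levelAction I σ x
  one_smul x := levelAction_one ρ I x
  mul_smul σ τ x := levelAction_mul ρ I σ τ x
  smul_zero σ := map_zero (ρ.levelAction I σ)
  smul_add σ x y := map_add (ρ.levelAction I σ) x y

theorem finite_lvl [Finite (A ⧸ I)] : Finite (Lvl ρ I) := by
  haveI : Finite (ρ.V ⧸ (⊤ : Submodule A ρ.V)) := by
    haveI : Subsingleton (ρ.V ⧸ (⊤ : Submodule A ρ.V)) := Submodule.Quotient.subsingleton_iff.2 rfl
    infer_instance
  exact Submodule.finite_quotient_smul I (Module.Finite.fg_top (R := A) (M := ρ.V))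

/-- **flatness from Hopf orders on the finite levels.** -/
theorem isFlatAt_of_orders (p : ℕ) [Fact p.Prime] (hres : Finite (IsLocalRing.ResidueField A))
    (h : ∀ I : Ideal A, Finite (A ⧸ I) →
      letI := levelDMA ρ I
      ∃ Hh : Subalgebra (GaloisRep.ratLocalizedAt p) (Lvl ρ I → AlgebraicClosure ℚ),
        IsHopfOrder GQ Hh) :
    ρ.IsFlatAt p := by
  refine ⟨hres, fun I hI => ?_⟩
  letI := levelDMA ρ I
  obtain ⟨Hh, hH⟩ := h I hI
  haveI : Finite (Lvl ρ I) := finite_lvl ρ I
  obtain ⟨H', i1, i2, h1, h2, h3, e, he, hσ⟩ :=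
    hH.exists_hopfAlgebra (K := ℚ) fixed_mem_range
  exact ⟨H', i1, i2, h1, h2, h3, e, he, fun σ f g hfg => hσ σ f g hfg⟩

end Fermat.Agent.S32x.FlatOfOrderA
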