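/-
S32 preparation, end adapter of chapter R5 (helper2): **`IsFlatAt` from Hopf orders.**

For `ρ : GaloisRepAdic A` the predicate `ρ.IsFlatAt p` asks, for every ideal `I` of finite index, for
a finite flat cocommutative Hopf algebra over `ℤ_(p)` whose `ℚ̄`-points are `ρ.V ⧸ I • ⊤`
equivariantly for `ρ.levelAction I`.  By the Hopf order criterion (chapter A1) it is enough to give,
for every such `I`, a finite `G_ℚ`-module `M` carrying a Hopf order together with an equivariant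
additive isomorphism `M ≃+ ρ.V ⧸ I • ⊤` (`isFlatAt_of_orders`).  Mirrors `FF/S19Wire1.s19_of_order`.
-/
import Mathlib
import Fermat.Prelude.Def_GaloisRep_Flat
import Fermat.Prelude.Def_CuspForm_HeckeGaloisRepDatum
import Fermat.Agent.FF.S19Wire1
import Fermat.Agent.S32x.OrdProd2

set_option autoImplicit false
set_option linter.style.haveILetI false
set_option linter.unusedSectionVars false

namespace Fermat.Agent.S32x.FlatWire2

open Fermat.Agent.FF.S19Wire1 Fermat.Agent.FF.SubOrd1 Fermat.Agent.S32x.OrdProd2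

section Adapter

variable {A : Type} [CommRing A] [IsLocalRing A]

/-- the clause of `IsFlatAt` at one ideal `I`, from a Hopf order on a `G_ℚ`-module isomorphic to
`ρ.V ⧸ I • ⊤`. -/
theorem exists_hopf_of_hasHopfOrder (ρ : GaloisRepAdic A) (p : ℕ) [Fact p.Prime] (I : Ideal A)
    {M : Type} [AddCommGroup M] [DistribMulAction GQ M] [Finite M]
    (e₀ : M ≃+ (ρ.V ⧸ (I • (⊤ : Submodule A ρ.V))))
    (he₀ : ∀ (σ : GQ) (m : M), e₀ (σ • m) = ρ.levelAction I σ (e₀ m))
    (hM : HasHopfOrder (GaloisRep.ratLocalizedAt p) (AlgebraicClosure ℚ) GQ M) :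
    ∃ (H : Type) (_ : CommRing H) (_ : HopfAlgebra (GaloisRep.ratLocalizedAt p) H),
      Module.Finite (GaloisRep.ratLocalizedAt p) H ∧
      Module.Flat (GaloisRep.ratLocalizedAt p) H ∧
      Coalgebra.IsCocomm (GaloisRep.ratLocalizedAt p) H ∧
      ∃ e : WithConv (H →ₐ[GaloisRep.ratLocalizedAt p] AlgebraicClosure ℚ) ≃
          (ρ.V ⧸ (I • (⊤ : Submodule A ρ.V))),
        (∀ f g : WithConv (H →ₐ[GaloisRep.ratLocalizedAt p] AlgebraicClosure ℚ),
          e (f * g) = e f + e g) ∧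
        ∀ (σ : AlgebraicClosure ℚ ≃ₐ[ℚ] AlgebraicClosure ℚ)
          (f g : WithConv (H →ₐ[GaloisRep.ratLocalizedAt p] AlgebraicClosure ℚ)),
          (∀ h : H, g h = σ (f h)) → e g = ρ.levelAction I σ (e f) := by
  obtain ⟨H, hH⟩ := hM
  obtain ⟨H', i1, i2, h1, h2, h3, e, he, hσ⟩ :=
    hH.exists_hopfAlgebra (R := GaloisRep.ratLocalizedAt p) (K := ℚ)
      (Kbar := AlgebraicClosure ℚ) (Γ := GQ) (M := M) fixed_mem_range
  refine ⟨H', i1, i2, h1, h2, h3, e.trans e₀.toEquiv, ?_, ?_⟩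
  · intro f g
    show e₀ (e (f * g)) = e₀ (e f) + e₀ (e g)
    rw [he, map_add]
  · intro σ f g hfg
    show e₀ (e g) = ρ.levelAction I σ (e₀ (e f))
    rw [hσ σ f g hfg, he₀]

/-- **`IsFlatAt` from Hopf orders on models of all finite levels.** -/
theorem isFlatAt_of_orders (ρ : GaloisRepAdic A) (p : ℕ) [Fact p.Prime]
    (hres : Finite (IsLocalRing.ResidueField A))
    (h : ∀ I : Ideal A, Finite (A ⧸ I) →
      ∃ (M : Type) (_ : AddCommGroup M) (_ : DistribMulAction GQ M) (_ : Finite M)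
        (e₀ : M ≃+ (ρ.V ⧸ (I • (⊤ : Submodule A ρ.V)))),
        (∀ (σ : GQ) (m : M), e₀ (σ • m) = ρ.levelAction I σ (e₀ m)) ∧
        HasHopfOrder (GaloisRep.ratLocalizedAt p) (AlgebraicClosure ℚ) GQ M) :
    ρ.IsFlatAt p := by
  refine ⟨hres, fun I hI => ?_⟩
  obtain ⟨M, i1, i2, i3, e₀, he₀, hM⟩ := h I hI
  exact exists_hopf_of_hasHopfOrder ρ p I e₀ he₀ hM

end Adapter

section Datum

variable {N : ℕ} [NeZero N] {S : Set ℕ}
  {𝒪 : Type} [CommRing 𝒪] [IsDomain 𝒪] [IsDiscreteValuationRing 𝒪]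
  [IsAdicComplete (IsLocalRing.maximalIdeal 𝒪) 𝒪]
  {θ : CuspForm.heckeAlgebra N 2 S →+* IsLocalRing.ResidueField 𝒪}
  {T : Type} [CommRing T] [IsLocalRing T] [IsNoetherianRing T]
  [IsAdicComplete (IsLocalRing.maximalIdeal T) T] [Algebra 𝒪 T] [IsLocalHom (algebraMap 𝒪 T)]
  [Module.Finite 𝒪 T] [Module.Free 𝒪 T]

/-- the residue field of `T` is finite. -/
theorem finite_residueField [Finite (IsLocalRing.ResidueField 𝒪)]
    (H : CuspForm.HeckeGaloisRepDatum N S 𝒪 θ T) : Finite (IsLocalRing.ResidueField T) := by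
  have hsurj : Function.Surjective
      (IsLocalRing.ResidueField.map (algebraMap 𝒪 T)) := by
    intro y
    obtain ⟨x, hx⟩ := H.residue_surjective y
    refine ⟨IsLocalRing.residue 𝒪 x, ?_⟩
    rw [IsLocalRing.ResidueField.map_residue]
    exact hx
  exact Finite.of_surjective _ hsurj

end Datum

end Fermat.Agent.S32x.FlatWire2
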