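/-
Programme S32x (S32), chapter R2 (lead): **the Boston–Lenstra–Ribet / Morita lemma in rank two,
elementary form.**

`R : G →* M₂(T)` a representation whose image spans `M₂(T)` (e.g. residually absolutely
irreducible over a local ring), `W` a `T`-module with a `T`-linear action `ρW` of `G` satisfying the
Cayley–Hamilton identity `ρW g + d g • ρW g⁻¹ = tr (R g)` for all `g` (`d` multiplicative,
`2 ∈ Tˣ`).  Then the action of `T[G]` on `W` factors through `M₂(T)`: there are `U, V' ∈ End W`
with `ρW g = (R g)₀₀ • U V' + (R g)₀₁ • U + (R g)₁₀ • V' + (R g)₁₁ • V' U`, and if `W` is a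
finitely generated faithful `T`-module, `T² ↪ Wⁿ` equivariantly.
-/
import Mathlib

set_option autoImplicit false

namespace Fermat.Agent.S32x.MoritaA

open Module Matrix

variable {T : Type*} [CommRing T] {G : Type*} [Group G]
variable {W : Type*} [AddCommGroup W] [Module T W]

/-- the polarised Cayley–Hamilton expression. -/
def Psi (p q : Matrix (Fin 2) (Fin 2) T × End T W) : End T W :=
  p.2 * q.2 + q.2 * p.2 - p.1.trace • q.2 - q.1.trace • p.2
    + (p.1.trace * q.1.trace - (p.1 * q.1).trace) • (1 : End T W)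

theorem Psi_add_left (p p' q : Matrix (Fin 2) (Fin 2) T × End T W) :
    Psi (p + p') q = Psi p q + Psi p' q := by
  simp only [Psi, Prod.fst_add, Prod.snd_add, Matrix.trace_add, add_mul, mul_add, add_smul,
    smul_add, sub_smul]
  abel

theorem Psi_add_right (p q q' : Matrix (Fin 2) (Fin 2) T × End T W) :
    Psi p (q + q') = Psi p q + Psi p q' := by
  simp only [Psi, Prod.fst_add, Prod.snd_add, Matrix.trace_add, add_mul, mul_add, add_smul,
    smul_add, sub_smul]
  abel

theorem Psi_smul_left (c : T) (p q : Matrix (Fin 2) (Fin 2) T × End T W) :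
    Psi (c • p) q = c • Psi p q := by
  simp only [Psi, Prod.smul_fst, Prod.smul_snd, Matrix.trace_smul, smul_mul_assoc, mul_smul_comm,
    smul_eq_mul]
  module

theorem Psi_smul_right (c : T) (p q : Matrix (Fin 2) (Fin 2) T × End T W) :
    Psi p (c • q) = c • Psi p q := by
  simp only [Psi, Prod.smul_fst, Prod.smul_snd, Matrix.trace_smul, smul_mul_assoc, mul_smul_comm,
    smul_eq_mul]
  module

theorem Psi_zero_left (q : Matrix (Fin 2) (Fin 2) T × End T W) : Psi 0 q = 0 := by
  have := Psi_smul_left (0 : T) 0 q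
  rwa [zero_smul, zero_smul] at this

theorem Psi_zero_right (p : Matrix (Fin 2) (Fin 2) T × End T W) : Psi p 0 = 0 := by
  have := Psi_smul_right (0 : T) p 0
  rwa [zero_smul, zero_smul] at this

variable (R : G →* Matrix (Fin 2) (Fin 2) T) (ρW : G →* End T W)

/-- the `T`-span of the diagonal image of `G`. -/
def diagSpan : Submodule T (Matrix (Fin 2) (Fin 2) T × End T W) :=
  Submodule.span T (Set.range fun g => (R g, ρW g))

theorem gen_mem (g : G) : (R g, ρW g) ∈ diagSpan R ρW := Submodule.subset_span ⟨g, rfl⟩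

theorem one_mem_diagSpan : (1 : Matrix (Fin 2) (Fin 2) T × End T W) ∈ diagSpan R ρW := by
  have := gen_mem R ρW 1
  rwa [map_one, map_one] at this

theorem mul_mem_diagSpan {p q : Matrix (Fin 2) (Fin 2) T × End T W} (hp : p ∈ diagSpan R ρW)
    (hq : q ∈ diagSpan R ρW) : p * q ∈ diagSpan R ρW := by
  induction hp using Submodule.span_induction with
  | mem x hx =>
    obtain ⟨g, rfl⟩ := hx
    induction hq using Submodule.span_induction with
    | mem y hy =>
      obtain ⟨h, rfl⟩ := hy
      have := gen_mem R ρW (g * h)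
      rwa [map_mul, map_mul] at this
    | zero => rw [mul_zero]; exact Submodule.zero_mem _
    | add y z _ _ hy hz => rw [mul_add]; exact Submodule.add_mem _ hy hz
    | smul c y _ hy => rw [mul_smul_comm]; exact Submodule.smul_mem _ c hy
  | zero => rw [zero_mul]; exact Submodule.zero_mem _
  | add x y _ _ hx hy => rw [add_mul]; exact Submodule.add_mem _ hx hy
  | smul c x _ hx => rw [smul_mul_assoc]; exact Submodule.smul_mem _ c hx

variable (d : G →* T)

include d in
/-- the polarised identity on the generators. -/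
theorem Psi_gen (hCH : ∀ g, ρW g + d g • ρW g⁻¹ = (R g).trace • (1 : End T W)) (g h : G) :
    Psi (R g, ρW g) (R h, ρW h) = 0 := by
  have hg : d g • ρW g⁻¹ = (R g).trace • (1 : End T W) - ρW g := eq_sub_of_add_eq' (hCH g)
  have hh : d h • ρW h⁻¹ = (R h).trace • (1 : End T W) - ρW h := eq_sub_of_add_eq' (hCH h)
  have hgh := hCH (g * h)
  rw [_root_.mul_inv_rev, map_mul, map_mul, map_mul, map_mul] at hgh
  have h1 : (d g * d h) • (ρW h⁻¹ * ρW g⁻¹) = (d h • ρW h⁻¹) * (d g • ρW g⁻¹) := by
    rw [smul_mul_smul_comm, mul_comm]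
  rw [h1, hg, hh] at hgh
  simp only [Psi]
  rw [← sub_eq_zero] at hgh
  rw [← hgh]
  simp only [sub_mul, mul_sub, smul_mul_assoc, mul_smul_comm, one_mul, mul_one, smul_sub,
    smul_smul, sub_smul]
  module

include d in
/-- the polarised identity on the whole span. -/
theorem Psi_eq_zero (hCH : ∀ g, ρW g + d g • ρW g⁻¹ = (R g).trace • (1 : End T W))
    {p q : Matrix (Fin 2) (Fin 2) T × End T W} (hp : p ∈ diagSpan R ρW)
    (hq : q ∈ diagSpan R ρW) : Psi p q = 0 := by
  induction hp using Submodule.span_induction with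
  | mem x hx =>
    obtain ⟨g, rfl⟩ := hx
    induction hq using Submodule.span_induction with
    | mem y hy =>
      obtain ⟨h, rfl⟩ := hy
      exact Psi_gen R ρW d hCH g h
    | zero => exact Psi_zero_right _
    | add y z _ _ hy hz => rw [Psi_add_right, hy, hz, add_zero]
    | smul c y _ hy => rw [Psi_smul_right, hy, smul_zero]
  | zero => exact Psi_zero_left _
  | add x y _ _ hx hy => rw [Psi_add_left, hx, hy, add_zero]
  | smul c x _ hx => rw [Psi_smul_left, hx, smul_zero]


/-! ### matrix units in `End W` -/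

section Units

variable {U V' : End T W} (hUU : U * U = 0) (hVV : V' * V' = 0) (hUV : U * V' + V' * U = 1)

include hUU hUV in
theorem UVU : U * V' * U = U := by
  have h : U * V' = 1 - V' * U := eq_sub_of_add_eq hUV
  rw [h, sub_mul, one_mul, mul_assoc, hUU, mul_zero, sub_zero]

include hVV hUV in
theorem VUV : V' * U * V' = V' := by
  have h : V' * U = 1 - U * V' := eq_sub_of_add_eq' hUV
  rw [h, sub_mul, one_mul, mul_assoc, hVV, mul_zero, sub_zero]

include hUU hUV in
theorem e_idem : (U * V') * (U * V') = U * V' := by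
  rw [← mul_assoc, UVU hUU hUV]

include hVV hUV in
theorem f_idem : (V' * U) * (V' * U) = V' * U := by
  rw [← mul_assoc, VUV hVV hUV]

include hUU in
theorem Ue : U * (U * V') = 0 := by rw [← mul_assoc, hUU, zero_mul]

include hVV in
theorem eV : (U * V') * V' = 0 := by rw [mul_assoc, hVV, mul_zero]

end Units

/-! ### the decomposition -/

/-- the matrix unit `E₀₁`. -/
def E01 : Matrix (Fin 2) (Fin 2) T := !![0, 1; 0, 0]
/-- the matrix unit `E₁₀`. -/
def E10 : Matrix (Fin 2) (Fin 2) T := !![0, 0; 1, 0]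

section MatrixLemmas

variable (X : Matrix (Fin 2) (Fin 2) T)

theorem trace_E01 : (E01 : Matrix (Fin 2) (Fin 2) T).trace = 0 := by
  simp [E01, Matrix.trace_fin_two]

theorem trace_E10 : (E10 : Matrix (Fin 2) (Fin 2) T).trace = 0 := by
  simp [E10, Matrix.trace_fin_two]

theorem trace_E01_mul_E01 : (E01 * E01 : Matrix (Fin 2) (Fin 2) T).trace = 0 := by
  simp [E01, Matrix.trace_fin_two]

theorem trace_E10_mul_E10 : (E10 * E10 : Matrix (Fin 2) (Fin 2) T).trace = 0 := by
  simp [E10, Matrix.trace_fin_two]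

theorem trace_E01_mul_E10 : (E01 * E10 : Matrix (Fin 2) (Fin 2) T).trace = 1 := by
  simp [E01, E10, Matrix.trace_fin_two]

theorem trace_corner : (E01 * E10 * X * (E01 * E10) : Matrix (Fin 2) (Fin 2) T).trace = X 0 0 := by
  rw [Matrix.eta_fin_two X]
  simp [E01, E10, Matrix.trace_fin_two]

theorem trace_corner' :
    (E01 * E10 * X * (E01 * E10) * (E01 * E10) : Matrix (Fin 2) (Fin 2) T).trace = X 0 0 := by
  rw [Matrix.eta_fin_two X]
  simp [E01, E10, Matrix.trace_fin_two]

theorem entry01 : (X * E10 : Matrix (Fin 2) (Fin 2) T) 0 0 = X 0 1 := by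
  rw [Matrix.eta_fin_two X]
  simp [E10]

theorem entry10 : (E01 * X : Matrix (Fin 2) (Fin 2) T) 0 0 = X 1 0 := by
  rw [Matrix.eta_fin_two X]
  simp [E01]

theorem entry11 : (E01 * X * E10 : Matrix (Fin 2) (Fin 2) T) 0 0 = X 1 1 := by
  rw [Matrix.eta_fin_two X]
  simp [E01, E10]

end MatrixLemmas

theorem exists_mem_fst_eq (hspan : Submodule.span T (Set.range R) = ⊤)
    (X : Matrix (Fin 2) (Fin 2) T) : ∃ p ∈ diagSpan R ρW, p.1 = X := by
  have h1 : Submodule.map (LinearMap.fst T (Matrix (Fin 2) (Fin 2) T) (End T W))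
      (diagSpan R ρW) = ⊤ := by
    rw [diagSpan, Submodule.map_span, ← hspan]
    congr 1
    ext Y
    constructor
    · rintro ⟨_, ⟨g, rfl⟩, rfl⟩
      exact ⟨g, rfl⟩
    · rintro ⟨g, rfl⟩
      exact ⟨_, ⟨g, rfl⟩, rfl⟩
  have h2 : X ∈ Submodule.map (LinearMap.fst T (Matrix (Fin 2) (Fin 2) T) (End T W))
      (diagSpan R ρW) := by
    rw [h1]; exact Submodule.mem_top
  obtain ⟨p, hp, rfl⟩ := h2
  exact ⟨p, hp, rfl⟩

section Decomp

variable {U V' : End T W} (hUU : U * U = 0) (hVV : V' * V' = 0) (hUV : U * V' + V' * U = 1)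

include hUU hVV hUV in
/-- the four corners determine the endomorphism. -/
theorem eq_of_corners {Y : End T W} {a b c e : T}
    (c00 : U * V' * Y * (U * V') = a • (U * V'))
    (c01 : U * V' * (Y * V') * (U * V') = b • (U * V'))
    (c10 : U * V' * (U * Y) * (U * V') = c • (U * V'))
    (c11 : U * V' * (U * Y * V') * (U * V') = e • (U * V')) :
    Y = a • (U * V') + b • U + c • V' + e • (V' * U) := by
  have heU : U * V' * U = U := UVU hUU hUV
  have hVe : V' * (U * V') = V' := by rw [← mul_assoc]; exact VUV hVV hUV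
  have hY : Y = (U * V' + V' * U) * Y * (U * V' + V' * U) := by rw [hUV, one_mul, mul_one]
  have k01 : U * V' * Y * (V' * U) = b • U := by
    calc U * V' * Y * (V' * U) = U * V' * (Y * V') * (U * V') * U := by
          rw [mul_assoc (U * V' * (Y * V')) (U * V') U, heU]; simp only [mul_assoc]
      _ = b • U := by rw [c01, smul_mul_assoc, heU]
  have k10 : V' * U * Y * (U * V') = c • V' := by
    calc V' * U * Y * (U * V') = V' * (U * V' * (U * Y) * (U * V')) := by
          rw [← mul_assoc (U * V') U Y, heU]; simp only [mul_assoc]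
      _ = c • V' := by rw [c10, mul_smul_comm, hVe]
  have k11 : V' * U * Y * (V' * U) = e • (V' * U) := by
    calc V' * U * Y * (V' * U) = V' * (U * V' * (U * Y * V') * (U * V')) * U := by
          have : U * V' * (U * Y * V') * (U * V') = U * Y * V' := by
            rw [← mul_assoc (U * V'), ← mul_assoc (U * V'), heU, mul_assoc, hVe]
          rw [this]; simp only [mul_assoc]
      _ = e • (V' * U) := by rw [c11, mul_smul_comm, smul_mul_assoc, hVe]
  rw [hY]
  simp only [add_mul, mul_add]
  rw [c00, k01, k10, k11]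
  abel

end Decomp

include d in
/-- **the Boston–Lenstra–Ribet lemma**: the action on `W` factors through `M₂(T)`. -/
theorem exists_units (hCH : ∀ g, ρW g + d g • ρW g⁻¹ = (R g).trace • (1 : End T W))
    (hspan : Submodule.span T (Set.range R) = ⊤) (h2 : IsUnit (2 : T)) :
    ∃ U V' : End T W, U * U = 0 ∧ V' * V' = 0 ∧ U * V' + V' * U = 1 ∧
      ∀ p ∈ diagSpan R ρW, p.2 = p.1 0 0 • (U * V') + p.1 0 1 • U + p.1 1 0 • V' +
        p.1 1 1 • (V' * U) := by
  obtain ⟨u, hu, hu1⟩ := exists_mem_fst_eq R ρW hspan E01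
  obtain ⟨v, hv, hv1⟩ := exists_mem_fst_eq R ρW hspan E10
  obtain ⟨c, hc⟩ := h2.exists_left_inv
  have htwo : ∀ Z : End T W, Z + Z = 0 → Z = 0 := by
    intro Z hZ
    have : (2 : T) • Z = 0 := by rw [two_smul]; exact hZ
    calc Z = (c * 2) • Z := by rw [hc, one_smul]
      _ = c • ((2 : T) • Z) := by rw [mul_smul]
      _ = 0 := by rw [this, smul_zero]
  have hUU : u.2 * u.2 = 0 := by
    have := Psi_eq_zero R ρW d hCH hu hu
    simp only [Psi, hu1, trace_E01, trace_E01_mul_E01, zero_smul, sub_zero, zero_mul,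
      add_zero] at this
    exact htwo _ this
  have hVV : v.2 * v.2 = 0 := by
    have := Psi_eq_zero R ρW d hCH hv hv
    simp only [Psi, hv1, trace_E10, trace_E10_mul_E10, zero_smul, sub_zero, zero_mul,
      add_zero] at this
    exact htwo _ this
  have hUV : u.2 * v.2 + v.2 * u.2 = 1 := by
    have := Psi_eq_zero R ρW d hCH hu hv
    simp only [Psi, hu1, hv1, trace_E01, trace_E10, trace_E01_mul_E10, zero_smul, sub_zero,
      zero_mul] at this
    rw [zero_sub, neg_smul, one_smul, ← sub_eq_add_neg, sub_eq_zero] at this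
    exact this
  refine ⟨u.2, v.2, hUU, hVV, hUV, ?_⟩
  -- the corner lemma
  have hε : u * v ∈ diagSpan R ρW := mul_mem_diagSpan R ρW hu hv
  have hee : u.2 * v.2 * (u.2 * v.2) = u.2 * v.2 := e_idem hUU hUV
  have hcorner : ∀ q ∈ diagSpan R ρW,
      u.2 * v.2 * q.2 * (u.2 * v.2) = q.1 0 0 • (u.2 * v.2) := by
    intro q hq
    have hz : u * v * q * (u * v) ∈ diagSpan R ρW :=
      mul_mem_diagSpan R ρW (mul_mem_diagSpan R ρW hε hq) hε
    have := Psi_eq_zero R ρW d hCH hz hε
    simp only [Psi, Prod.fst_mul, Prod.snd_mul, hu1, hv1, trace_corner, trace_corner',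
      trace_E01_mul_E10] at this
    have h1 : u.2 * v.2 * q.2 * (u.2 * v.2) * (u.2 * v.2) = u.2 * v.2 * q.2 * (u.2 * v.2) := by
      rw [mul_assoc (u.2 * v.2 * q.2), hee]
    have h2' : u.2 * v.2 * (u.2 * v.2 * q.2 * (u.2 * v.2)) = u.2 * v.2 * q.2 * (u.2 * v.2) := by
      rw [← mul_assoc (u.2 * v.2), ← mul_assoc (u.2 * v.2), hee]
    rw [h1, h2', mul_one, sub_self, zero_smul, add_zero, one_smul] at this
    have h3 : ∀ A B : End T W, A + A - B - A = A - B := fun A B => by abel
    rw [h3, sub_eq_zero] at this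
    exact this
  intro p hp
  have c00 := hcorner p hp
  have c01 := hcorner (p * v) (mul_mem_diagSpan R ρW hp hv)
  have c10 := hcorner (u * p) (mul_mem_diagSpan R ρW hu hp)
  have c11 := hcorner (u * p * v) (mul_mem_diagSpan R ρW (mul_mem_diagSpan R ρW hu hp) hv)
  simp only [Prod.fst_mul, Prod.snd_mul, hu1, hv1] at c01 c10 c11
  rw [entry01] at c01
  rw [entry10] at c10
  rw [entry11] at c11
  exact eq_of_corners hUU hVV hUV c00 c01 c10 c11


/-! ### the equivariant embedding `T² ↪ Wⁿ` -/

section Embedding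

variable {U V' : End T W}

/-- the map `T² → W`, `x ↦ x₀ • U V' w + x₁ • V' w`. -/
def phi (U V' : End T W) (w : W) : (Fin 2 → T) →ₗ[T] W :=
  (LinearMap.proj 0 : (Fin 2 → T) →ₗ[T] T).smulRight ((U * V') w) +
    (LinearMap.proj 1 : (Fin 2 → T) →ₗ[T] T).smulRight (V' w)

theorem phi_apply (w : W) (x : Fin 2 → T) :
    phi U V' w x = x 0 • (U * V') w + x 1 • V' w := rfl

variable (hUU : U * U = 0) (hVV : V' * V' = 0) (hUV : U * V' + V' * U = 1)

include hUU hVV hUV in
theorem phi_equivariant {Y : End T W} {X : Matrix (Fin 2) (Fin 2) T}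
    (hY : Y = X 0 0 • (U * V') + X 0 1 • U + X 1 0 • V' + X 1 1 • (V' * U)) (w : W)
    (x : Fin 2 → T) : phi U V' w (X.mulVec x) = Y (phi U V' w x) := by
  have hVUV : V' * U * V' = V' := VUV hVV hUV
  have hUe : U * (U * V') = 0 := Ue hUU
  have heV : U * V' * V' = 0 := eV hVV
  have hee : U * V' * (U * V') = U * V' := e_idem hUU hUV
  have hVe : V' * (U * V') = V' := by rw [← mul_assoc]; exact hVUV
  have hfe : V' * U * (U * V') = 0 := by rw [mul_assoc, hUe, mul_zero]
  -- pointwise versions
  have a1 : (U * V') ((U * V') w) = (U * V') w := by rw [← Module.End.mul_apply, hee]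
  have a2 : U ((U * V') w) = 0 := by rw [← Module.End.mul_apply, hUe]; rfl
  have a3 : V' ((U * V') w) = V' w := by rw [← Module.End.mul_apply, hVe]
  have a4 : (V' * U) ((U * V') w) = 0 := by rw [← Module.End.mul_apply, hfe]; rfl
  have b1 : (U * V') (V' w) = 0 := by rw [← Module.End.mul_apply, heV]; rfl
  have b2 : U (V' w) = (U * V') w := rfl
  have b3 : V' (V' w) = 0 := by rw [← Module.End.mul_apply, hVV]; rfl
  have b4 : (V' * U) (V' w) = V' w := by rw [← Module.End.mul_apply, hVUV]
  rw [phi_apply, phi_apply, map_add, map_smul, map_smul, hY]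
  simp only [LinearMap.add_apply, LinearMap.smul_apply, a1, a2, a3, a4, b1, b2, b3, b4,
    smul_zero, add_zero, zero_add, Matrix.mulVec, dotProduct, Fin.sum_univ_two]
  module

include hUU hVV hUV in
theorem phi_injective {n : ℕ} (s : Fin n → W) (hs : Submodule.span T (Set.range s) = ⊤)
    (hfaith : ∀ t : T, (∀ w : W, t • w = 0) → t = 0) :
    Function.Injective (LinearMap.pi fun i => phi U V' (s i)) := by
  have hVUV : V' * U * V' = V' := VUV hVV hUV
  have hUe : U * (U * V') = 0 := Ue hUU
  have heV : U * V' * V' = 0 := eV hVV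
  have hee : U * V' * (U * V') = U * V' := e_idem hUU hUV
  -- a scalar killing `e s_i` for all `i` vanishes
  have key : ∀ t : T, (∀ i, t • (U * V') (s i) = 0) → t = 0 := by
    intro t ht
    have h1 : t • (U * V') = 0 := by
      refine LinearMap.ext_on hs ?_
      rintro _ ⟨i, rfl⟩
      rw [LinearMap.smul_apply, ht i, LinearMap.zero_apply]
    have h2 : t • (V' * U) = 0 := by
      have : V' * U = V' * (U * V') * U := by
        rw [← mul_assoc V', hVUV]
      rw [this, ← smul_mul_assoc, ← mul_smul_comm t V' (U * V'), h1, mul_zero, zero_mul]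
    have h3 : t • (1 : End T W) = 0 := by rw [← hUV, smul_add, h1, h2, add_zero]
    refine hfaith t fun w => ?_
    have := LinearMap.congr_fun h3 w
    simpa using this
  rw [injective_iff_map_eq_zero]
  intro x hx
  have hx' : ∀ i, x 0 • (U * V') (s i) + x 1 • V' (s i) = 0 := fun i => by
    have := congrFun hx i
    simpa [phi_apply] using this
  have h0 : x 0 = 0 := by
    refine key _ fun i => ?_
    have := congrArg (U * V') (hx' i)
    rw [map_add, map_smul, map_smul, map_zero, ← Module.End.mul_apply, hee,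
      ← Module.End.mul_apply (U * V') V', heV] at this
    simpa using this
  have h1 : x 1 = 0 := by
    refine key _ fun i => ?_
    have := congrArg U (hx' i)
    rw [map_add, map_smul, map_smul, map_zero, ← Module.End.mul_apply, hUe] at this
    simpa using this
  funext i
  fin_cases i
  · exact h0
  · exact h1

end Embedding

include d in
/-- **the equivariant embedding, matrix form.** -/
theorem exists_embedding [Module.Finite T W]
    (hCH : ∀ g, ρW g + d g • ρW g⁻¹ = (R g).trace • (1 : End T W))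
    (hspan : Submodule.span T (Set.range R) = ⊤) (h2 : IsUnit (2 : T))
    (hfaith : ∀ t : T, (∀ w : W, t • w = 0) → t = 0) :
    ∃ (n : ℕ) (Φ : (Fin 2 → T) →ₗ[T] (Fin n → W)), Function.Injective Φ ∧
      ∀ g x i, Φ ((R g).mulVec x) i = ρW g (Φ x i) := by
  obtain ⟨U, V', hUU, hVV, hUV, hdec⟩ := exists_units R ρW d hCH hspan h2
  obtain ⟨n, s, hs⟩ := Module.Finite.exists_fin (R := T) (M := W)
  refine ⟨n, LinearMap.pi fun i => phi U V' (s i), phi_injective hUU hVV hUV s hs hfaith, ?_⟩
  intro g x i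
  exact phi_equivariant hUU hVV hUV (hdec _ (gen_mem R ρW g)) (s i) x

/-- **the equivariant embedding, for a free module of rank two with a basis.** -/
theorem exists_embedding_of_basis {V : Type*} [AddCommGroup V] [Module T V]
    (b : Module.Basis (Fin 2) T V) (ρ : G →* End T V)
    (hspan : Submodule.span T (Set.range ρ) = ⊤) [Module.Finite T W]
    (hCH : ∀ g, ρW g + d g • ρW g⁻¹ = LinearMap.trace T V (ρ g) • (1 : End T W))
    (h2 : IsUnit (2 : T)) (hfaith : ∀ t : T, (∀ w : W, t • w = 0) → t = 0) :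
    ∃ (n : ℕ) (Φ : V →ₗ[T] (Fin n → W)), Function.Injective Φ ∧
      ∀ g v i, Φ (ρ g v) i = ρW g (Φ v i) := by
  classical
  let R : G →* Matrix (Fin 2) (Fin 2) T :=
    ((LinearMap.toMatrixAlgEquiv b : End T V ≃ₐ[T] Matrix (Fin 2) (Fin 2) T) : End T V →* _).comp ρ
  have hR : ∀ g, R g = LinearMap.toMatrix b b (ρ g) := fun g => rfl
  have hspanR : Submodule.span T (Set.range R) = ⊤ := by
    have h1 : Set.range R = (LinearMap.toMatrix b b : End T V ≃ₗ[T] _) '' Set.range ρ := by
      ext X
      constructor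
      · rintro ⟨g, rfl⟩
        exact ⟨ρ g, ⟨g, rfl⟩, rfl⟩
      · rintro ⟨_, ⟨g, rfl⟩, rfl⟩
        exact ⟨g, rfl⟩
    rw [h1]
    have h2 := Submodule.map_span (LinearMap.toMatrix b b : End T V ≃ₗ[T] _).toLinearMap
      (Set.range ρ)
    rw [hspan, Submodule.map_top, LinearEquiv.range] at h2
    exact h2.symm
  have hCH' : ∀ g, ρW g + d g • ρW g⁻¹ = (R g).trace • (1 : End T W) := by
    intro g
    rw [hR, ← LinearMap.trace_eq_matrix_trace T b]
    exact hCH g
  obtain ⟨n, Φ, hinj, heq⟩ := exists_embedding R ρW d hCH' hspanR h2 hfaith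
  refine ⟨n, Φ.comp b.equivFun.toLinearMap, hinj.comp b.equivFun.injective, ?_⟩
  intro g v i
  have h1 : b.equivFun (ρ g v) = (R g).mulVec (b.equivFun v) := by
    rw [hR]
    exact (LinearMap.toMatrix_mulVec_repr b b (ρ g) v).symm
  simp only [LinearMap.comp_apply, LinearEquiv.coe_coe]
  rw [h1, heq]

end Fermat.Agent.S32x.MoritaA
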