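/-
Programme S32x (S32), chapter R5 (helper2): **the assembly skeleton.**

`ρ : GaloisRepAdic T`.  Inputs (each an explicit hypothesis, to be discharged by the chapters):

* `Xm` a finitely generated `T`-module with a `T`-linear action `ρX` of `G_ℚ` such that every
  equivariant quotient of `Xm` killed by `p ^ k` carries a Hopf order over `ℤ_(p)`
  (`hlevel`; chapters R0 + R3c with `Xm = T ⊗ TJ`);
* `W' ⊆ Xm` a finitely generated faithful submodule with an action `ρW` compatible with `ρX` and the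
  Cayley–Hamilton identity `hCH` for the trace of `ρ` (chapters R3a/R3b);
* a basis of `ρ.V`, `span (range ρ) = ⊤`, `2 ∈ Tˣ` (chapter R4a(i));
* the Artin–Rees statement `hAR` (chapter R4a(ii)).

Output: `ρ.IsFlatAt p`, through `MoritaA.exists_embedding_of_basis` (`ρ.V ↪ W'ⁿ ⊆ Xmⁿ`),
`ClosureA.hasHopfOrder_of_subquotient` and `FlatOfOrderA.isFlatAt_of_orders`.
-/
import Mathlib
import Fermat.Prelude.Def_GaloisRep_Flat
import Fermat.Prelude.Def_CuspForm_HeckeGaloisRepDatum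
import Fermat.Agent.S32x.MoritaA
import Fermat.Agent.S32x.ClosureA
import Fermat.Agent.S32x.FlatOfOrderA
import Fermat.Agent.S32x.FlatWire2

set_option autoImplicit false
set_option linter.style.haveILetI false
set_option linter.unusedSectionVars false

namespace Fermat.Agent.S32x.Assembly2

open Fermat.Agent.FF.S19Wire1 Fermat.Agent.FF.SubOrd1 Fermat.Agent.S32x.OrdProd2
open Fermat.Agent.S32x.FlatOfOrderA Fermat.Agent.S32x.ClosureA

section QuotAction

variable {T : Type*} [CommRing T] {X : Type*} [AddCommGroup X] [Module T X]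
variable {G : Type*} [Monoid G] (ρX : G →* Module.End T X) (J : Ideal T)

/-- the quotient `X ⧸ J X`. -/
abbrev QLvl (X : Type*) [AddCommGroup X] [Module T X] (J : Ideal T) : Type _ :=
  X ⧸ (J • (⊤ : Submodule T X))

/-- the endomorphism induced on `X ⧸ J X`. -/
noncomputable def quotAct (σ : G) : QLvl X J →ₗ[T] QLvl X J :=
  Submodule.mapQ _ _ (ρX σ) (by
    rw [← Submodule.map_le_iff_le_comap, Submodule.map_smul'']
    exact Submodule.smul_mono le_rfl le_top)

theorem quotAct_mk (σ : G) (x : X) :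
    quotAct ρX J σ (Submodule.Quotient.mk x) = Submodule.Quotient.mk (ρX σ x) := rfl

/-- the action of `G` on `X ⧸ J X`. -/
@[reducible] noncomputable def quotDMA : DistribMulAction G (QLvl X J) where
  smul σ x := quotAct ρX J σ x
  one_smul x := by
    induction x using Submodule.Quotient.induction_on with
    | H v => show quotAct ρX J 1 _ = _; rw [quotAct_mk, map_one, Module.End.one_apply]
  mul_smul σ τ x := by
    induction x using Submodule.Quotient.induction_on with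
    | H v =>
      show quotAct ρX J (σ * τ) _ = quotAct ρX J σ (quotAct ρX J τ _)
      rw [quotAct_mk, quotAct_mk, quotAct_mk, map_mul, Module.End.mul_apply]
  smul_zero σ := map_zero (quotAct ρX J σ)
  smul_add σ x y := map_add (quotAct ρX J σ) x y

theorem mk_eq_zero_span_singleton_iff (a : T) (x : X) :
    (Submodule.Quotient.mk x : QLvl X (Ideal.span {a})) = 0 ↔ ∃ y : X, x = a • y := by
  rw [Submodule.Quotient.mk_eq_zero, Submodule.ideal_span_singleton_smul,
    Submodule.mem_smul_pointwise_iff_exists]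
  constructor
  · rintro ⟨y, -, rfl⟩
    exact ⟨y, rfl⟩
  · rintro ⟨y, rfl⟩
    exact ⟨y, Submodule.mem_top, rfl⟩

end QuotAction

section Main

variable {T : Type} [CommRing T] [IsLocalRing T]

/-- the action of `G_ℚ` on `ρ.V`. -/
@[reducible] noncomputable def repDMA (ρ : GaloisRepAdic T) : DistribMulAction GQ ρ.V :=
  DistribMulAction.compHom ρ.V ρ.ρ

theorem repDMA_smul (ρ : GaloisRepAdic T) (σ : GQ) (v : ρ.V) :
    letI := repDMA ρ
    σ • v = ρ.ρ σ v := rfl

/-- **the assembly**: `IsFlatAt` from the chapters. -/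
theorem isFlatAt_of_chapters (ρ : GaloisRepAdic T) (p : ℕ) [Fact p.Prime]
    (hres : Finite (IsLocalRing.ResidueField T))
    (hTfin : ∀ k : ℕ, Finite (T ⧸ Ideal.span {(p : T) ^ k}))
    -- the ambient module
    {Xm : Type} [AddCommGroup Xm] [Module T Xm] [Module.Finite T Xm]
    (ρX : GQ →* Module.End T Xm)
    -- R0 + R3c: quotients of `Xm` killed by a power of `p` carry Hopf orders
    (hlevel : ∀ (k : ℕ) (Q : Type) [AddCommGroup Q] [DistribMulAction GQ Q] (π : Xm →+ Q),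
      Function.Surjective π → (∀ x : Xm, π (((p : T) ^ k) • x) = 0) →
      (∀ (σ : GQ) (x : Xm), π (ρX σ x) = σ • π x) →
      HasHopfOrder (GaloisRep.ratLocalizedAt p) (AlgebraicClosure ℚ) GQ Q)
    -- R3a/R3b: the eigen-submodule
    (W' : Submodule T Xm) [Module.Finite T W'] (ρW : GQ →* Module.End T W')
    (hρW : ∀ (σ : GQ) (w : W'), ((ρW σ w : W') : Xm) = ρX σ (w : Xm))
    (hfaith : ∀ t : T, (∀ w : W', t • w = 0) → t = 0)
    (d : GQ →* T)
    (hCH : ∀ g : GQ, ρW g + d g • ρW g⁻¹ =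
      LinearMap.trace T ρ.V (ρ.ρ g) • (1 : Module.End T W'))
    -- R4a(i)
    (b : Module.Basis (Fin 2) T ρ.V) (hspan : Submodule.span T (Set.range ρ.ρ) = ⊤)
    (h2 : IsUnit (2 : T))
    -- R4a(ii): Artin–Rees
    (hAR : ∀ (m : ℕ) (Φ : ρ.V →ₗ[T] (Fin m → Xm)), Function.Injective Φ →
      ∀ I : Ideal T, Finite (T ⧸ I) → ∃ k : ℕ, ∀ v : ρ.V,
        (∀ i, ∃ x : Xm, Φ v i = ((p : T) ^ k) • x) → v ∈ I • (⊤ : Submodule T ρ.V)) :
    ρ.IsFlatAt p := by
  classical
  -- the Morita embedding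
  obtain ⟨n, Φ, hΦinj, hΦeq⟩ :=
    MoritaA.exists_embedding_of_basis (W := W') (ρW := ρW) (d := d) b ρ.ρ hspan hCH h2 hfaith
  let Φ' : ρ.V →ₗ[T] (Fin n → Xm) := (W'.subtype.compLeft (Fin n)).comp Φ
  have hΦ' : ∀ v i, Φ' v i = ((Φ v i : W') : Xm) := fun v i => rfl
  have hΦ'inj : Function.Injective Φ' := by
    intro v v' h
    apply hΦinj
    funext i
    apply Subtype.ext
    have := congrFun h i
    rwa [hΦ', hΦ'] at this
  have hΦ'eq : ∀ (g : GQ) (v : ρ.V) (i : Fin n), Φ' (ρ.ρ g v) i = ρX g (Φ' v i) := by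
    intro g v i
    rw [hΦ', hΦ', hΦeq, hρW]
  refine isFlatAt_of_orders ρ p hres fun I hI => ?_
  letI := levelDMA ρ I
  obtain ⟨k, hk⟩ := hAR n Φ' hΦ'inj I hI
  -- the level `Xm ⧸ p ^ k`
  letI : DistribMulAction GQ (QLvl Xm (Ideal.span {(p : T) ^ k})) :=
    quotDMA ρX (Ideal.span {(p : T) ^ k})
  let π : Xm →+ QLvl Xm (Ideal.span {(p : T) ^ k}) :=
    (Submodule.mkQ ((Ideal.span {(p : T) ^ k}) • (⊤ : Submodule T Xm))).toAddMonoidHom
  have hπ : ∀ x, π x = Submodule.Quotient.mk x := fun x => rfl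
  have hπsurj : Function.Surjective π := Submodule.mkQ_surjective _
  have hπk : ∀ x : Xm, π (((p : T) ^ k) • x) = 0 := by
    intro x
    rw [hπ, mk_eq_zero_span_singleton_iff]
    exact ⟨x, rfl⟩
  have hπΓ : ∀ (σ : GQ) (x : Xm), π (ρX σ x) = σ • π x := fun σ x => rfl
  have hQ := hlevel k _ π hπsurj hπk hπΓ
  haveI : Finite (T ⧸ Ideal.span {(p : T) ^ k}) := hTfin k
  haveI : Finite (QLvl Xm (Ideal.span {(p : T) ^ k})) := by
    haveI : Finite (Xm ⧸ (⊤ : Submodule T Xm)) := by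
      haveI : Subsingleton (Xm ⧸ (⊤ : Submodule T Xm)) :=
        Submodule.Quotient.subsingleton_iff.2 rfl
      infer_instance
    exact Submodule.finite_quotient_smul _ (Module.Finite.fg_top (R := T) (M := Xm))
  -- the sub-quotient
  letI := repDMA ρ
  let j : ρ.V →+ (Fin n → QLvl Xm (Ideal.span {(p : T) ^ k})) :=
    AddMonoidHom.mk' (fun v i => π (Φ' v i)) (by
      intro v v'
      funext i
      show π (Φ' (v + v') i) = π (Φ' v i) + π (Φ' v' i)
      rw [map_add, Pi.add_apply, map_add])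
  have hj : ∀ v i, j v i = π (Φ' v i) := fun v i => rfl
  let q : ρ.V →+ Lvl ρ I :=
    (Submodule.mkQ (I • (⊤ : Submodule T ρ.V))).toAddMonoidHom
  have hq : ∀ v, q v = Submodule.Quotient.mk v := fun v => rfl
  have hHO : HasHopfOrder (GaloisRep.ratLocalizedAt p) (AlgebraicClosure ℚ) GQ (Lvl ρ I) := by
    refine hasHopfOrder_of_subquotient p hQ (Fin n)
      (AddMonoidHom.id _) Function.surjective_id (fun σ z => rfl) j ?_ q
      (Submodule.mkQ_surjective _) (fun σ v => rfl) ?_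
    · intro σ v
      funext i
      show j (σ • v) i = σ • j v i
      rw [hj, hj, repDMA_smul, hΦ'eq, hπΓ]
    · intro v hv
      rw [hq, Submodule.Quotient.mk_eq_zero]
      refine hk v fun i => ?_
      have h1 : π (Φ' v i) = 0 := by rw [← hj, hv]; rfl
      rw [hπ, mk_eq_zero_span_singleton_iff] at h1
      exact h1
  exact hHO

end Main

section Datum

variable {p : ℕ} {N : ℕ} [NeZero N] {S : Finset ℕ}
  {𝒪 : Type} [CommRing 𝒪] [IsDomain 𝒪] [IsDiscreteValuationRing 𝒪]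
  [IsAdicComplete (IsLocalRing.maximalIdeal 𝒪) 𝒪]
  {θ : CuspForm.heckeAlgebra N 2 (↑S : Set ℕ) →+* IsLocalRing.ResidueField 𝒪}
  {T : Type} [CommRing T] [IsLocalRing T] [IsNoetherianRing T]
  [IsAdicComplete (IsLocalRing.maximalIdeal T) T] [Algebra 𝒪 T] [IsLocalHom (algebraMap 𝒪 T)]
  [Module.Finite 𝒪 T] [Module.Free 𝒪 T]

/-- `𝒪 ⧸ p ^ k` is finite. -/
theorem finite_quotient_span_pow_base [Finite (IsLocalRing.ResidueField 𝒪)] [CharZero 𝒪]
    (hp : p ≠ 0) (k : ℕ) : Finite (𝒪 ⧸ Ideal.span {(p : 𝒪) ^ k}) := by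
  obtain ⟨ϖ, hϖ⟩ := IsDiscreteValuationRing.exists_irreducible 𝒪
  have hne : Ideal.span {(p : 𝒪) ^ k} ≠ ⊥ := by
    rw [Ne, Ideal.span_singleton_eq_bot]
    exact pow_ne_zero k (Nat.cast_ne_zero.2 hp)
  obtain ⟨n, hn⟩ := IsDiscreteValuationRing.ideal_eq_span_pow_irreducible hne hϖ
  have hm : IsLocalRing.maximalIdeal 𝒪 = Ideal.span {ϖ} := hϖ.maximalIdeal_eq
  have h1 : Ideal.span {(p : 𝒪) ^ k} = IsLocalRing.maximalIdeal 𝒪 ^ n := by
    rw [hn, hm, Ideal.span_singleton_pow]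
  rw [h1]
  haveI : Finite (𝒪 ⧸ IsLocalRing.maximalIdeal 𝒪) :=
    inferInstanceAs (Finite (IsLocalRing.ResidueField 𝒪))
  exact Ideal.finite_quotient_pow (IsNoetherian.noetherian _) n

/-- `T ⧸ p ^ k` is finite. -/
theorem finite_quotient_span_pow [Finite (IsLocalRing.ResidueField 𝒪)] [CharZero 𝒪]
    (hp : p ≠ 0) (k : ℕ) : Finite (T ⧸ Ideal.span {(p : T) ^ k}) := by
  haveI := finite_quotient_span_pow_base (𝒪 := 𝒪) hp k
  haveI : Finite (T ⧸ (⊤ : Submodule 𝒪 T)) := by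
    haveI : Subsingleton (T ⧸ (⊤ : Submodule 𝒪 T)) := Submodule.Quotient.subsingleton_iff.2 rfl
    infer_instance
  have hfin : Finite (T ⧸ (Ideal.span {(p : 𝒪) ^ k} • (⊤ : Submodule 𝒪 T))) :=
    Submodule.finite_quotient_smul _ (Module.Finite.fg_top (R := 𝒪) (M := T))
  have hle : Ideal.span {(p : 𝒪) ^ k} • (⊤ : Submodule 𝒪 T) ≤
      LinearMap.ker (Ideal.Quotient.mkₐ 𝒪 (Ideal.span {(p : T) ^ k})).toLinearMap := by
    rw [Submodule.smul_le]
    intro r hr t _
    obtain ⟨c, rfl⟩ := Ideal.mem_span_singleton'.1 hr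
    rw [LinearMap.mem_ker]
    show Ideal.Quotient.mk _ ((c * (p : 𝒪) ^ k) • t) = 0
    rw [Ideal.Quotient.eq_zero_iff_mem, Algebra.smul_def, map_mul, map_pow, map_natCast]
    refine Ideal.mem_span_singleton'.2 ⟨algebraMap 𝒪 T c * t, ?_⟩
    ring
  let f := Submodule.liftQ _ (Ideal.Quotient.mkₐ 𝒪 (Ideal.span {(p : T) ^ k})).toLinearMap hle
  have hf : Function.Surjective f := by
    intro y
    obtain ⟨t, rfl⟩ := Ideal.Quotient.mk_surjective y
    exact ⟨Submodule.Quotient.mk t, rfl⟩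
  exact Finite.of_surjective f hf

/-- **the assembly for a Hecke datum** (variables of the S32 template). -/
theorem s32_of_chapters [Finite (IsLocalRing.ResidueField 𝒪)] [CharZero 𝒪] [Fact p.Prime]
    (H : CuspForm.HeckeGaloisRepDatum N (↑S : Set ℕ) 𝒪 θ T)
    {Xm : Type} [AddCommGroup Xm] [Module T Xm] [Module.Finite T Xm]
    (ρX : GQ →* Module.End T Xm)
    (hlevel : ∀ (k : ℕ) (Q : Type) [AddCommGroup Q] [DistribMulAction GQ Q] (π : Xm →+ Q),
      Function.Surjective π → (∀ x : Xm, π (((p : T) ^ k) • x) = 0) →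
      (∀ (σ : GQ) (x : Xm), π (ρX σ x) = σ • π x) →
      HasHopfOrder (GaloisRep.ratLocalizedAt p) (AlgebraicClosure ℚ) GQ Q)
    (W' : Submodule T Xm) [Module.Finite T W'] (ρW : GQ →* Module.End T W')
    (hρW : ∀ (σ : GQ) (w : W'), ((ρW σ w : W') : Xm) = ρX σ (w : Xm))
    (hfaith : ∀ t : T, (∀ w : W', t • w = 0) → t = 0)
    (d : GQ →* T)
    (hCH : ∀ g : GQ, ρW g + d g • ρW g⁻¹ =
      LinearMap.trace T H.ρ.V (H.ρ.ρ g) • (1 : Module.End T W'))
    (b : Module.Basis (Fin 2) T H.ρ.V) (hspan : Submodule.span T (Set.range H.ρ.ρ) = ⊤)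
    (h2 : IsUnit (2 : T))
    (hAR : ∀ (m : ℕ) (Φ : H.ρ.V →ₗ[T] (Fin m → Xm)), Function.Injective Φ →
      ∀ I : Ideal T, Finite (T ⧸ I) → ∃ k : ℕ, ∀ v : H.ρ.V,
        (∀ i, ∃ x : Xm, Φ v i = ((p : T) ^ k) • x) → v ∈ I • (⊤ : Submodule T H.ρ.V)) :
    H.ρ.IsFlatAt p :=
  isFlatAt_of_chapters H.ρ p (FlatWire2.finite_residueField H)
    (finite_quotient_span_pow (𝒪 := 𝒪) (Fact.out : p.Prime).ne_zero) ρX hlevel W' ρW hρW hfaith d
    hCH b hspan h2 hAR

end Datum

end Fermat.Agent.S32x.Assembly2
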