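/-
Programme S32x (S32), chapter R3a (helper5), part A: **the definitions**.

For a commutative ring `T` with an algebra structure over `ℤ_[p]` (in the application: the complete
local Hecke ring `T` of the datum `H`, with `letI : Algebra ℤ_[p] T :=
ES.J.PadicAlg8.padicAlgebra p (maximalIdeal T) hpT`; every statement here is for an ARBITRARY instance
`[Algebra ℤ_[p] T]`, so it specialises to that one):

* `XT p N T  = T ⊗[ℤ_[p]] TJ p N`, a `T`-module through the left factor;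
* `rhoX p N T : G_ℚ →* End T (XT p N T)`, `rhoX g = (rhoT p N g).baseChange T` (`rfl`);
* `thetaX p N T ℓ = (tT p N ℓ).baseChange T`;
* `eigenW p H : Submodule T (XT p N T)`, the simultaneous eigen-submodule
  `{x | ∀ ℓ prime, ℓ ∤ N, ℓ ∉ S, thetaX ℓ x = H.π (T_ℓ) • x}`, stable under `rhoX`;
* `rhoW p H : G_ℚ →* End T (eigenW p H)`, the restriction;
* `dT p T : G_ℚ →* T`, the cyclotomic character mapped to `T`;
* finiteness: `XT` and `eigenW` are finitely generated `T`-modules when `J₀(N)[p]` is finite and `T`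
  is noetherian.
-/
import Mathlib
import Fermat.Prelude.Def_CuspForm_HeckeGaloisRepDatum
import Fermat.Agent.ES.J.TateJZero13
import Fermat.Agent.ES.J.EigenLattice13
import Fermat.Agent.ES.J.CycloChar8

set_option autoImplicit false
set_option linter.unusedSectionVars false
set_option synthInstance.maxHeartbeats 400000

open AlgebraicCurve ModularCurve CuspForm TensorProduct

noncomputable section

namespace Fermat.Agent.S32x.EigenW5A

open Fermat.Agent.ES.J.TateJZero13 Fermat.Agent.ES.J.EigenLattice13 Fermat.Agent.ES.J.CycloChar8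

local notation "Qb" => AlgebraicClosure ℚ
local notation "GQ" => (AlgebraicClosure ℚ ≃ₐ[ℚ] AlgebraicClosure ℚ)

/-! ### `X`, `ρX`, `θX`, `d` -/

section Defs

variable (p : ℕ) [hp : Fact p.Prime] (N : ℕ) [NeZero N]
  (T : Type) [CommRing T] [Algebra ℤ_[p] T]

/-- `X = T ⊗[ℤ_[p]] T_p J₀(N)`. -/
abbrev XT : Type := T ⊗[ℤ_[p]] TJ p N

/-- the Galois action on `X`: `ρX g = (rhoT p N g).baseChange T`. -/
def rhoX : GQ →* Module.End T (XT p N T) := rhoO T (rhoT p N)

theorem rhoX_apply (g : GQ) : rhoX p N T g = (rhoT p N g).baseChange T := rfl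

theorem rhoX_tmul (g : GQ) (t : T) (x : TJ p N) :
    rhoX p N T g (t ⊗ₜ[ℤ_[p]] x) = t ⊗ₜ[ℤ_[p]] rhoT p N g x := by
  rw [rhoX_apply, LinearMap.baseChange_tmul]

/-- the Hecke operator `T_ℓ` on `X`. -/
def thetaX (ℓ : Nat.Primes) : Module.End T (XT p N T) := (tT p N ℓ).baseChange T

theorem thetaX_apply (ℓ : Nat.Primes) : thetaX p N T ℓ = (tT p N ℓ).baseChange T := rfl

theorem thetaX_tmul (ℓ : Nat.Primes) (t : T) (x : TJ p N) :
    thetaX p N T ℓ (t ⊗ₜ[ℤ_[p]] x) = t ⊗ₜ[ℤ_[p]] tT p N ℓ x := by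
  rw [thetaX_apply, LinearMap.baseChange_tmul]

/-- Galois and Hecke commute on `X`. -/
theorem commute_rhoX_thetaX (g : GQ) (ℓ : Nat.Primes) :
    Commute (rhoX p N T g) (thetaX p N T ℓ) :=
  (commute_rhoT_tT (p := p) (N := N) g ℓ).map (bcEnd ℤ_[p] T (TJ p N))

/-- the cyclotomic character mapped to `T`, as a monoid homomorphism `G_ℚ →* T` (the shape of
`MoritaA`). -/
def dT : GQ →* T :=
  ((algebraMap ℤ_[p] T : ℤ_[p] →+* T) : ℤ_[p] →* T).comp
    ((Units.coeHom ℤ_[p]).comp (cyclo p))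

theorem dT_apply (g : GQ) : dT p T g = algebraMap ℤ_[p] T ((cyclo p g : ℤ_[p]ˣ) : ℤ_[p]) := rfl

/-- the cyclotomic character mapped to `T`, unit valued. -/
def dTu : GQ →* Tˣ := (Units.map ((algebraMap ℤ_[p] T : ℤ_[p] →+* T) : ℤ_[p] →* T)).comp (cyclo p)

theorem coe_dTu (g : GQ) : ((dTu p T g : Tˣ) : T) = dT p T g := rfl

/-- `X` is a finitely generated `T`-module if `J₀(N)[p]` is finite. -/
theorem finite_XT (hfin : {y : JZero N | p • y = 0}.Finite) : Module.Finite T (XT p N T) := by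
  have : Module.Finite ℤ_[p] (TJ p N) := (finite_free (p := p) (N := N) hfin).1
  infer_instance

/-- `X` is a free `T`-module if `J₀(N)[p]` is finite. -/
theorem free_XT (hfin : {y : JZero N | p • y = 0}.Finite) : Module.Free T (XT p N T) := by
  have : Module.Free ℤ_[p] (TJ p N) := (finite_free (p := p) (N := N) hfin).2
  infer_instance

end Defs

/-! ### the eigen-submodule `W'` -/

section Eigen

variable (p : ℕ) [hp : Fact p.Prime] {N : ℕ} [NeZero N] {S : Finset ℕ}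
  {𝒪 : Type} [CommRing 𝒪] [IsDomain 𝒪] [IsDiscreteValuationRing 𝒪]
  [IsAdicComplete (IsLocalRing.maximalIdeal 𝒪) 𝒪]
  {θ : CuspForm.heckeAlgebra N 2 (↑S : Set ℕ) →+* IsLocalRing.ResidueField 𝒪}
  {T : Type} [CommRing T] [IsLocalRing T] [IsNoetherianRing T]
  [IsAdicComplete (IsLocalRing.maximalIdeal T) T] [Algebra 𝒪 T] [IsLocalHom (algebraMap 𝒪 T)]
  [Module.Finite 𝒪 T] [Module.Free 𝒪 T] [Algebra ℤ_[p] T]
  (H : CuspForm.HeckeGaloisRepDatum N (↑S : Set ℕ) 𝒪 θ T)

/-- **`W'`**: the simultaneous eigen-submodule of `X` for the Hecke operators `T_ℓ`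
(`ℓ ∤ N`, `ℓ ∉ S`) with eigenvalues `H.π (T_ℓ)`. -/
def eigenW : Submodule T (XT p N T) where
  carrier := {x | ∀ (ℓ : ℕ) (hℓ : ℓ.Prime) (hℓN : ¬ ℓ ∣ N) (hℓS : ℓ ∉ (↑S : Set ℕ)),
    thetaX p N T ⟨ℓ, hℓ⟩ x = H.π (heckeAlgebra.T hℓ hℓN hℓS) • x}
  add_mem' := by
    intro v w hv hw ℓ hℓ hℓN hℓS
    rw [map_add, hv ℓ hℓ hℓN hℓS, hw ℓ hℓ hℓN hℓS, smul_add]
  zero_mem' := by
    intro ℓ hℓ hℓN hℓS
    rw [map_zero, smul_zero]
  smul_mem' := by
    intro c v hv ℓ hℓ hℓN hℓS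
    rw [map_smul, hv ℓ hℓ hℓN hℓS, smul_comm]

theorem mem_eigenW {x : XT p N T} :
    x ∈ eigenW p H ↔ ∀ (ℓ : ℕ) (hℓ : ℓ.Prime) (hℓN : ¬ ℓ ∣ N) (hℓS : ℓ ∉ (↑S : Set ℕ)),
      (tT p N ⟨ℓ, hℓ⟩).baseChange T x = H.π (heckeAlgebra.T hℓ hℓN hℓS) • x := Iff.rfl

/-- `W'` is stable under everything commuting with the Hecke operators. -/
theorem map_mem_eigenW {f : Module.End T (XT p N T)}
    (hf : ∀ ℓ : Nat.Primes, Commute f (thetaX p N T ℓ)) {x : XT p N T} (hx : x ∈ eigenW p H) :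
    f x ∈ eigenW p H := by
  intro ℓ hℓ hℓN hℓS
  have h1 : thetaX p N T ⟨ℓ, hℓ⟩ (f x) = f (thetaX p N T ⟨ℓ, hℓ⟩ x) :=
    (congrArg (fun k : Module.End T (XT p N T) => k x) (hf ⟨ℓ, hℓ⟩)).symm
  rw [h1, hx ℓ hℓ hℓN hℓS, map_smul]

/-- `W'` is stable under the Galois action. -/
theorem rhoX_mem_eigenW (g : GQ) {x : XT p N T} (hx : x ∈ eigenW p H) :
    rhoX p N T g x ∈ eigenW p H :=
  map_mem_eigenW p H (fun ℓ => commute_rhoX_thetaX p N T g ℓ) hx

/-- **`ρW'`**: the Galois action on `W'`. -/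
def rhoW : GQ →* Module.End T (eigenW p H) where
  toFun g := (rhoX p N T g).restrict fun _ hx => rhoX_mem_eigenW p H g hx
  map_one' := by
    ext v
    simp [LinearMap.restrict_apply]
  map_mul' g g' := by
    ext v
    simp [LinearMap.restrict_apply]

theorem coe_rhoW_apply (g : GQ) (w : eigenW p H) :
    ((rhoW p H g w : eigenW p H) : XT p N T) = rhoX p N T g (w : XT p N T) := rfl

/-- `W'` is a finitely generated `T`-module if `J₀(N)[p]` is finite. -/
theorem finite_eigenW (hfin : {y : JZero N | p • y = 0}.Finite) :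
    Module.Finite T (eigenW p H) := by
  have : Module.Finite T (XT p N T) := finite_XT p N T hfin
  have : IsNoetherian T (XT p N T) := isNoetherian_of_isNoetherianRing_of_finite T _
  infer_instance

end Eigen

end Fermat.Agent.S32x.EigenW5A
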