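/-
Programme S32x (S32), chapter R3a (helper5), part B: **the abstract density lemma**.

`T` a commutative ring, `X` a `T`-module with `⋂ I n • X = 0`, `V` a free `T`-module of rank two,
`ρX : G →* End T X`, `ρV : G →* End T V`, `d : G →* Tˣ`, `W ≤ X` a `ρX`-stable submodule.  Let `Φ` be
a set of pairs `(φ, a)` ("Frobenius lifts with their Hecke eigenvalue") such that

* on `W`: `ρX φ (ρX φ w) - a • ρX φ w + d φ • w = 0`   (Eichler–Shimura on the eigen-submodule),
* on `V`: `charpoly (ρV φ) = X² - a X + d φ`,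

and assume simultaneous density of the powers of Frobenius lifts modulo every `I n` (for `ρX`, `ρV`
and `d`).  Then the Cayley–Hamilton identity with the trace of `ρV` holds on `W` for EVERY `g`:

  `ρX g w + d g • ρX g⁻¹ w = tr (ρV g) • w`   (`w ∈ W`).

No freeness of `W`, no faithfulness, no Artin–Rees: the congruences are taken in `X`.
-/
import Mathlib
import Fermat.Agent.ES.ALG.RelDense9
import Fermat.Agent.ES.ALG31.TraceInv12
import Fermat.Agent.ES.ALG31.Lucas15

set_option autoImplicit false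
set_option linter.unusedSectionVars false

open Polynomial

noncomputable section

namespace Fermat.Agent.S32x.EigenW5B

open Fermat.Agent.ES.ALG.RelDense9 Fermat.Agent.ES.ALG31.TraceInv12 Fermat.Agent.ES.ALG31.Lucas15

section Lucas

variable {T : Type*} [CommRing T] {Xm : Type*} [AddCommGroup Xm] [Module T Xm]

/-- **Lucas on one vector**: if `F w + δ • F' w = a • w` (with `F F' = F' F = 1`) then
`F ^ j w + δ ^ j • F' ^ j w = V_j (a, δ) • w`. -/
theorem lucas_apply5 {F F' : Module.End T Xm} (hFF' : F * F' = 1) (hF'F : F' * F = 1) {δ a : T}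
    {w : Xm} (h : F w + δ • F' w = a • w) (j : ℕ) :
    (F ^ j) w + δ ^ j • (F' ^ j) w = lucasV a δ j • w := by
  induction j using Nat.twoStepInduction with
  | zero =>
    rw [pow_zero, pow_zero, pow_zero, one_smul, Module.End.one_apply, lucasV_zero, two_smul]
  | one =>
    rw [pow_one, pow_one, pow_one, lucasV_one]
    exact h
  | more j h0 h1 =>
    have key := congrArg (fun f : Module.End T Xm => f w) (lucas_rec hFF' hF'F δ j)
    simp only [LinearMap.add_apply, LinearMap.sub_apply, LinearMap.smul_apply,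
      Module.End.mul_apply] at key
    rw [key, h1, h0, map_smul, map_smul, smul_comm δ (lucasV a δ (j + 1)) (F' w), ← smul_add, h,
      lucasV_add_two, sub_smul, smul_smul, smul_smul, mul_comm (lucasV a δ (j + 1)) a]

/-- from the quadratic relation on a stable submodule to the `F + δ F'` form on it. -/
theorem rel_apply_of_quadratic5 {F F' : Module.End T Xm} (hFF' : F * F' = 1) {δ a : T}
    {W : Submodule T Xm} (hF' : ∀ w ∈ W, F' w ∈ W)
    (h : ∀ w ∈ W, F (F w) - a • F w + δ • w = 0) {w : Xm} (hw : w ∈ W) :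
    F w + δ • F' w = a • w := by
  have h1 := h (F' w) (hF' w hw)
  have h2 : F (F' w) = w := by
    have := congrArg (fun f : Module.End T Xm => f w) hFF'
    simpa using this
  rw [h2] at h1
  rw [← sub_eq_zero, ← h1]
  abel

end Lucas

section Main

variable {T : Type*} [CommRing T] [Nontrivial T]
  {Xm : Type*} [AddCommGroup Xm] [Module T Xm]
  {V : Type*} [AddCommGroup V] [Module T V] [Module.Free T V] [Module.Finite T V]
  {G : Type*} [Group G]

/-- **the abstract density lemma**: Cayley–Hamilton on the eigen-submodule, with the trace of the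
rank two representation. -/
theorem add_smul_inv_apply_eq_trace5 (hV : Module.finrank T V = 2)
    (ρX : G →* Module.End T Xm) (ρV : G →* Module.End T V) (d : G →* Tˣ)
    (I : ℕ → Ideal T) (hI : ∀ x : Xm, (∀ n, x ∈ I n • (⊤ : Submodule T Xm)) → x = 0)
    (W : Submodule T Xm) (hW : ∀ g, ∀ w ∈ W, ρX g w ∈ W)
    (Φ : G → T → Prop)
    (hΦW : ∀ φ a, Φ φ a → ∀ w ∈ W,
      ρX φ (ρX φ w) - a • ρX φ w + ((d φ : Tˣ) : T) • w = 0)
    (hΦV : ∀ φ a, Φ φ a → (ρV φ).charpoly = X ^ 2 - C a * X + C ((d φ : Tˣ) : T))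
    (hdense : ∀ (n : ℕ) (g : G), ∃ φ a, ∃ j : ℕ, Φ φ a ∧
      EndCongr (I n) (ρX (g⁻¹ * φ ^ j)) 1 ∧ EndCongr (I n) (ρV (g⁻¹ * φ ^ j)) 1 ∧
      ((d (g⁻¹ * φ ^ j) : Tˣ) : T) - 1 ∈ I n)
    (g : G) {w : Xm} (hw : w ∈ W) :
    ρX g w + ((d g : Tˣ) : T) • ρX g⁻¹ w = LinearMap.trace T V (ρV g) • w := by
  rw [← sub_eq_zero]
  apply hI
  intro n
  obtain ⟨φ, a, j, hΦ, h1, h2, h3⟩ := hdense n g
  set h := g⁻¹ * φ ^ j with hh
  have hφj : φ ^ j = g * h := by rw [hh, mul_inv_cancel_left]
  -- the congruence of the `W`-operators on `X`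
  have c1 : EndCongr (I n) (Fermat.Agent.ES.ALG31.TraceInv12.W ρX d (g * h)) (Fermat.Agent.ES.ALG31.TraceInv12.W ρX d g) :=
    W_congr ρX d g h h1 h3
  -- Lucas on `W`
  have hFF' : ρX φ * ρX φ⁻¹ = 1 := by rw [← map_mul, mul_inv_cancel, map_one]
  have hF'F : ρX φ⁻¹ * ρX φ = 1 := by rw [← map_mul, inv_mul_cancel, map_one]
  have c2 : Fermat.Agent.ES.ALG31.TraceInv12.W ρX d (φ ^ j) w = lucasV a ((d φ : Tˣ) : T) j • w := by
    rw [W_pow, LinearMap.add_apply, LinearMap.smul_apply]
    exact lucas_apply5 hFF' hF'F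
      (rel_apply_of_quadratic5 hFF' (hW φ⁻¹) (hΦW φ a hΦ) hw) j
  -- Lucas on `V`
  have c3 : LinearMap.trace T V (ρV (φ ^ j)) = lucasV a ((d φ : Tˣ) : T) j := by
    rw [map_pow, trace_pow_of_charpoly hV _ (hΦV φ a hΦ) j]
  -- the trace congruence
  have c4 : LinearMap.trace T V (ρV (g * h)) - LinearMap.trace T V (ρV g) ∈ I n := by
    have := h2.mul_left (ρV g)
    rw [mul_one, ← map_mul] at this
    exact trace_sub_mem_of_endCongr this
  have e : ρX g w + ((d g : Tˣ) : T) • ρX g⁻¹ w - LinearMap.trace T V (ρV g) • w =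
      (Fermat.Agent.ES.ALG31.TraceInv12.W ρX d g w - Fermat.Agent.ES.ALG31.TraceInv12.W ρX d (g * h) w) +
        (LinearMap.trace T V (ρV (g * h)) - LinearMap.trace T V (ρV g)) • w := by
    rw [← hφj, c2, ← c3, sub_smul]
    unfold Fermat.Agent.ES.ALG31.TraceInv12.W
    rw [LinearMap.add_apply, LinearMap.smul_apply]
    abel
  rw [e]
  exact Submodule.add_mem _ (c1.symm w) (Submodule.smul_mem_smul c4 Submodule.mem_top)

end Main

end Fermat.Agent.S32x.EigenW5B
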