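/-
Programme S32x (S32), chapter R3a (helper5), part C: **the Cayley–Hamilton identity on `W'`**.

For the datum `H` over `(𝒪, T)`, `X = T ⊗[ℤ_[p]] T_p J₀(N)` and the eigen-submodule `W' = eigenW p H`
(`EigenW5A`): for every `g ∈ G_ℚ`

  `rhoW p H g + dT p T g • rhoW p H g⁻¹ = LinearMap.trace T H.ρ.V (H.ρ.ρ g) • 1`

(the literal `hCH` of `MoritaA.exists_embedding_of_basis`, `d := dT p T`).  Proof: the abstract
density lemma `EigenW5B.add_smul_inv_apply_eq_trace5` with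

* the Eichler–Shimura relation `TateJZero13.rhoT_frobenius` base-changed to `T` and restricted to `W'`,
* `H.charpoly_frob`,
* `ε(Frob_ℓ) = ℓ` (`CycloChar8.cyclo_of_isFrobeniusAt`),
* simultaneous density from `H.ρ.isAdicContinuous`, `rhoT_continuous`, `cyclo_sub_one_mem` and the
  generator form of Chebotarev `ChebQbar23.exists_frobenius_inv_mul_pow_fixes`
  (exactly as in `ES/ALG31/S31Core12.isUnramifiedAt_of_inputs`),
* Krull's intersection theorem on the finitely generated `T`-module `X`.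

All statements are for an arbitrary instance `[Algebra ℤ_[p] T]`.
-/
import Mathlib
import Fermat.Prelude.Def_CuspForm_HeckeGaloisRepDatum
import Fermat.Agent.S32x.EigenW5A
import Fermat.Agent.S32x.EigenW5B
import Fermat.Agent.S32x.MoritaA
import Fermat.Agent.ES.GAL.ChebQbar23

set_option autoImplicit false
set_option linter.unusedSectionVars false
set_option linter.overlappingInstances false
set_option synthInstance.maxHeartbeats 400000

open Polynomial AlgebraicCurve ModularCurve CuspForm TensorProduct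

noncomputable section

namespace Fermat.Agent.S32x.EigenW5C

open Fermat.Agent.ES.ALG.RelDense9 Fermat.Agent.ES.J.TateJZero13 Fermat.Agent.ES.J.CycloChar8
  Fermat.Agent.ES.J.EigenLattice13 Fermat.Agent.S32x.EigenW5A Fermat.Agent.S32x.EigenW5B

local notation "Qb" => AlgebraicClosure ℚ
local notation "GQ" => (AlgebraicClosure ℚ ≃ₐ[ℚ] AlgebraicClosure ℚ)

variable {p : ℕ} [hp : Fact p.Prime] {N : ℕ} [NeZero N] {S : Finset ℕ}
  {𝒪 : Type} [CommRing 𝒪] [IsDomain 𝒪] [IsDiscreteValuationRing 𝒪]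
  [IsAdicComplete (IsLocalRing.maximalIdeal 𝒪) 𝒪]
  {θ : CuspForm.heckeAlgebra N 2 (↑S : Set ℕ) →+* IsLocalRing.ResidueField 𝒪}
  {T : Type} [CommRing T] [IsLocalRing T] [IsNoetherianRing T]
  [IsAdicComplete (IsLocalRing.maximalIdeal T) T] [Algebra 𝒪 T] [IsLocalHom (algebraMap 𝒪 T)]
  [Module.Finite 𝒪 T] [Module.Free 𝒪 T] [Algebra ℤ_[p] T]

/-- Krull on `X`. -/
theorem eq_zero_of_forall_mem_pow_smul5 (hfin : {y : JZero N | p • y = 0}.Finite)
    (x : XT p N T)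
    (hx : ∀ n, x ∈ (IsLocalRing.maximalIdeal T ^ n) • (⊤ : Submodule T (XT p N T))) : x = 0 := by
  have : Module.Finite T (XT p N T) := finite_XT p N T hfin
  have h := Ideal.iInf_pow_smul_eq_bot_of_isLocalRing (M := XT p N T) (IsLocalRing.maximalIdeal T)
    (Ideal.IsMaximal.ne_top inferInstance)
  have hx' : x ∈ (⨅ i : ℕ, IsLocalRing.maximalIdeal T ^ i • ⊤ : Submodule T (XT p N T)) := by
    rw [Submodule.mem_iInf]
    exact hx
  rw [h] at hx'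
  exact (Submodule.mem_bot T).mp hx'

/-- `algebraMap ℤ_[p] T (p ^ n) ∈ 𝔪 ^ n`. -/
theorem span_algebraMap_pow_le5 (hpT : (p : T) ∈ IsLocalRing.maximalIdeal T) (n : ℕ) :
    Ideal.span {algebraMap ℤ_[p] T ((p : ℤ_[p]) ^ n)} ≤ IsLocalRing.maximalIdeal T ^ n := by
  rw [Ideal.span_singleton_le_iff_mem, map_pow, map_natCast]
  exact Ideal.pow_mem_pow hpT n

/-- **Cayley–Hamilton on `W'`, pointwise in `X`.** -/
theorem add_smul_inv_apply_eigenW (hpT : (p : T) ∈ IsLocalRing.maximalIdeal T) (hpS : p ∈ S)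
    (hNS : ∀ q : ℕ, q.Prime → q ∣ N → q ∈ S)
    (hfin : {y : JZero N | p • y = 0}.Finite)
    (H : CuspForm.HeckeGaloisRepDatum N (↑S : Set ℕ) 𝒪 θ T) (g : GQ)
    {w : XT p N T} (hw : w ∈ eigenW p H) :
    rhoX p N T g w + dT p T g • rhoX p N T g⁻¹ w = LinearMap.trace T H.ρ.V (H.ρ.ρ g) • w := by
  classical
  have hne_p : ∀ ℓ : ℕ, ℓ ∉ (↑S : Set ℕ) → ℓ ≠ p := fun ℓ hℓS h => hℓS (by exact_mod_cast h ▸ hpS)
  have hV : Module.finrank T H.ρ.V = 2 := H.ρ.finrank_eq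
  -- the Frobenius data
  let Φ : GQ → T → Prop := fun φ a =>
    ∃ (ℓ : ℕ) (hℓ : ℓ.Prime) (hℓN : ¬ ℓ ∣ N) (hℓS : ℓ ∉ (↑S : Set ℕ)) (A : ValuationSubring Qb),
      A.LiesOverPrime ℓ ∧ A.IsFrobeniusAt φ ℓ ∧ a = H.π (heckeAlgebra.T hℓ hℓN hℓS)
  have hd : ∀ (φ : GQ) (ℓ : ℕ) (hℓ : ℓ.Prime) (hℓS : ℓ ∉ (↑S : Set ℕ)) (A : ValuationSubring Qb),
      A.LiesOverPrime ℓ → A.IsFrobeniusAt φ ℓ → ((dTu p T φ : Tˣ) : T) = (ℓ : T) := by
    intro φ ℓ hℓ hℓS A hA hφ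
    rw [coe_dTu, dT_apply, cyclo_of_isFrobeniusAt p hℓ (hne_p ℓ hℓS) A hA hφ, map_natCast]
  have hΦW : ∀ φ a, Φ φ a → ∀ w ∈ eigenW p H,
      rhoX p N T φ (rhoX p N T φ w) - a • rhoX p N T φ w + ((dTu p T φ : Tˣ) : T) • w = 0 := by
    rintro φ a ⟨ℓ, hℓ, hℓN, hℓS, A, hA, hφ, rfl⟩ w hw
    have h1 := rhoT_frobenius (p := p) (N := N) hℓ hℓN (hne_p ℓ hℓS) hA hφ
    have h2 := congrArg (bcEnd ℤ_[p] T (TJ p N)) h1
    rw [map_add, map_sub, map_mul, map_mul, bcEnd_smul_one, map_zero, map_natCast] at h2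
    have h3 := congrArg (fun f : Module.End T (XT p N T) => f w) h2
    simp only [LinearMap.add_apply, LinearMap.sub_apply, Module.End.mul_apply,
      LinearMap.smul_apply, Module.End.one_apply, LinearMap.zero_apply] at h3
    have h4 : bcEnd ℤ_[p] T (TJ p N) (tT p N ⟨ℓ, hℓ⟩) (rhoX p N T φ w) =
        H.π (heckeAlgebra.T hℓ hℓN hℓS) • rhoX p N T φ w :=
      rhoX_mem_eigenW p H φ hw ℓ hℓ hℓN hℓS
    rw [hd φ ℓ hℓ hℓS A hA hφ, ← h4]
    exact h3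
  have hΦV : ∀ φ a, Φ φ a →
      (H.ρ.ρ φ).charpoly = X ^ 2 - C a * X + C ((dTu p T φ : Tˣ) : T) := by
    rintro φ a ⟨ℓ, hℓ, hℓN, hℓS, A, hA, hφ, rfl⟩
    rw [hd φ ℓ hℓ hℓS A hA hφ]
    exact H.charpoly_frob ℓ hℓ hℓN hℓS A hA φ hφ
  have hdense : ∀ (n : ℕ) (g : GQ), ∃ φ a, ∃ j : ℕ, Φ φ a ∧
      EndCongr (IsLocalRing.maximalIdeal T ^ n) (rhoX p N T (g⁻¹ * φ ^ j)) 1 ∧
      EndCongr (IsLocalRing.maximalIdeal T ^ n) (H.ρ.ρ (g⁻¹ * φ ^ j)) 1 ∧
      ((dTu p T (g⁻¹ * φ ^ j) : Tˣ) : T) - 1 ∈ IsLocalRing.maximalIdeal T ^ n := by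
    intro n g
    obtain ⟨L₁, hL₁, h1⟩ := H.ρ.isAdicContinuous n
    obtain ⟨L₂, hL₂, h2⟩ := rhoT_continuous (p := p) (N := N) hfin n
    obtain ⟨L₃, hL₃, h3⟩ := cyclo_sub_one_mem p n
    have := hL₁
    have := hL₂
    have := hL₃
    obtain ⟨ℓ, A, φ, j, hℓ, hℓS, hA, hφ, hj⟩ :=
      Fermat.Agent.ES.GAL.ChebQbar23.exists_frobenius_inv_mul_pow_fixes (L₁ ⊔ L₂ ⊔ L₃) g S
    have hℓS' : ℓ ∉ (↑S : Set ℕ) := by simpa using hℓS
    have hℓN : ¬ ℓ ∣ N := fun hdvd => hℓS (hNS ℓ hℓ hdvd)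
    refine ⟨φ, H.π (heckeAlgebra.T hℓ hℓN hℓS'), j, ⟨ℓ, hℓ, hℓN, hℓS', A, hA, hφ, rfl⟩, ?_, ?_, ?_⟩
    · refine EndCongr.mono (span_algebraMap_pow_le5 hpT n) ?_
      exact endCongr_rhoO (𝒪 := T) (ρ := rhoT p N) (g := g⁻¹ * φ ^ j) (r := (p : ℤ_[p]) ^ n)
        (h2 _ (fun x hx => hj x (le_sup_left (a := L₁ ⊔ L₂) (b := L₃)
          (le_sup_right (a := L₁) (b := L₂) hx))))
    · intro v
      rw [Module.End.one_apply]
      exact h1 _ (fun x hx => hj x (le_sup_left (a := L₁ ⊔ L₂) (b := L₃)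
        (le_sup_left (a := L₁) (b := L₂) hx))) v
    · have h4 := h3 _ (fun x hx => hj x (le_sup_right (a := L₁ ⊔ L₂) (b := L₃) hx))
      obtain ⟨y, hy⟩ := Ideal.mem_span_singleton'.mp h4
      have e : ((dTu p T (g⁻¹ * φ ^ j) : Tˣ) : T) - 1 = algebraMap ℤ_[p] T y * (p : T) ^ n := by
        rw [coe_dTu, dT_apply, ← map_one (algebraMap ℤ_[p] T), ← map_sub, ← hy, map_mul, map_pow,
          map_natCast]
      rw [e]
      exact Ideal.mul_mem_left _ _ (Ideal.pow_mem_pow hpT n)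
  have key := add_smul_inv_apply_eq_trace5 hV (rhoX p N T) H.ρ.ρ (dTu p T)
    (fun n => IsLocalRing.maximalIdeal T ^ n) (eq_zero_of_forall_mem_pow_smul5 hfin)
    (eigenW p H) (fun g w hw => rhoX_mem_eigenW p H g hw) Φ hΦW hΦV hdense g hw
  rw [coe_dTu] at key
  exact key

/-- **`hCH`**: the Cayley–Hamilton identity on `W'`, in the literal shape of
`MoritaA.exists_embedding_of_basis` (`d := dT p T`, `ρW := rhoW p H`, `ρ := H.ρ.ρ`). -/
theorem hCH_eigenW (hpT : (p : T) ∈ IsLocalRing.maximalIdeal T) (hpS : p ∈ S)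
    (hNS : ∀ q : ℕ, q.Prime → q ∣ N → q ∈ S)
    (hfin : {y : JZero N | p • y = 0}.Finite)
    (H : CuspForm.HeckeGaloisRepDatum N (↑S : Set ℕ) 𝒪 θ T) (g : GQ) :
    rhoW p H g + dT p T g • rhoW p H g⁻¹ =
      LinearMap.trace T H.ρ.V (H.ρ.ρ g) • (1 : Module.End T (eigenW p H)) := by
  refine LinearMap.ext fun w => Subtype.ext ?_
  have := add_smul_inv_apply_eigenW hpT hpS hNS hfin H g w.2
  simpa [coe_rhoW_apply] using this

/-- **the equivariant embedding `V ↪ W'ⁿ`**: `MoritaA.exists_embedding_of_basis` applied to `W'`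
(`hspan`, the basis `b` and `IsUnit 2` are chapter R4a, faithfulness `hfaith` is chapter R3b). -/
theorem exists_embedding_eigenW (hpT : (p : T) ∈ IsLocalRing.maximalIdeal T) (hpS : p ∈ S)
    (hNS : ∀ q : ℕ, q.Prime → q ∣ N → q ∈ S)
    (hfin : {y : JZero N | p • y = 0}.Finite)
    (H : CuspForm.HeckeGaloisRepDatum N (↑S : Set ℕ) 𝒪 θ T)
    (b : Module.Basis (Fin 2) T H.ρ.V) (hspan : Submodule.span T (Set.range H.ρ.ρ) = ⊤)
    (h2 : IsUnit (2 : T))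
    (hfaith : ∀ t : T, (∀ w : eigenW p H, t • w = 0) → t = 0) :
    ∃ (n : ℕ) (Φ : H.ρ.V →ₗ[T] (Fin n → eigenW p H)), Function.Injective Φ ∧
      ∀ g v i, Φ (H.ρ.ρ g v) i = rhoW p H g (Φ v i) := by
  have hfinW : Module.Finite T (eigenW p H) := finite_eigenW p H hfin
  have key := @Fermat.Agent.S32x.MoritaA.exists_embedding_of_basis T _ _ _ (eigenW p H) _ _
    (rhoW p H) (dT p T) H.ρ.V _ _ b H.ρ.ρ hspan hfinW
  exact key (hCH_eigenW hpT hpS hNS hfin H) h2 hfaith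

/-- the same, with values in `X` (composition with the inclusion `W' ≤ X`): an injective `T`-linear
map `V → (Fin n → X)` intertwining `H.ρ.ρ` and `rhoX`. -/
theorem exists_embedding_XT (hpT : (p : T) ∈ IsLocalRing.maximalIdeal T) (hpS : p ∈ S)
    (hNS : ∀ q : ℕ, q.Prime → q ∣ N → q ∈ S)
    (hfin : {y : JZero N | p • y = 0}.Finite)
    (H : CuspForm.HeckeGaloisRepDatum N (↑S : Set ℕ) 𝒪 θ T)
    (b : Module.Basis (Fin 2) T H.ρ.V) (hspan : Submodule.span T (Set.range H.ρ.ρ) = ⊤)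
    (h2 : IsUnit (2 : T))
    (hfaith : ∀ t : T, (∀ w : eigenW p H, t • w = 0) → t = 0) :
    ∃ (n : ℕ) (Φ : H.ρ.V →ₗ[T] (Fin n → XT p N T)), Function.Injective Φ ∧
      ∀ g v i, Φ (H.ρ.ρ g v) i = rhoX p N T g (Φ v i) := by
  obtain ⟨n, Φ, hinj, hΦ⟩ := exists_embedding_eigenW hpT hpS hNS hfin H b hspan h2 hfaith
  refine ⟨n, (LinearMap.pi fun i => (eigenW p H).subtype.comp (LinearMap.proj i)).comp Φ, ?_, ?_⟩
  · intro v v' hvv'
    apply hinj
    funext i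
    apply Subtype.ext
    have := congrFun hvv' i
    simpa using this
  · intro g v i
    have := congrArg (Subtype.val) (hΦ g v i)
    simpa [coe_rhoW_apply] using this

end Fermat.Agent.S32x.EigenW5C
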