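/-
S32x/Final1 (helper1): **the final instantiation of the S32 assembly**, all chapters except the level
chapter (R3c + R0) plugged in.

`Assembly2.s32_of_chapters` with

* `Xm := XT p N T = T ⊗[ℤ_p] T_p J₀(N)`, `ρX := rhoX p N T`
  (`letI : Algebra ℤ_[p] T := PadicAlg8.padicAlgebra p (maximalIdeal T) hpT`),
* `W' := eigenW p H`, `ρW := rhoW p H`, `d := dT p T` (helper5, `EigenW5A`),
* `hCH := EigenW5C.hCH_eigenW` (helper5), `hfaith := Faithful1.faithful_eigenW` (helper1 + helper4),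
* `b := Alg7.basisV H.ρ`, `hspan`, `IsUnit 2` from `Alg7.datum_inputs` (helper7),
* `hAR` from `Alg7.exists_level` (helper7, Artin–Rees),
* (K1) `S30Final8.k1`.

The only remaining hypothesis is `hlevel` (chapters R0 + R3c): every equivariant quotient of `X`
killed by a power of `p` carries a Hopf order over `ℤ_(p)`.
-/
import Mathlib
import Fermat.Agent.S32x.Assembly2
import Fermat.Agent.S32x.EigenW5A
import Fermat.Agent.S32x.EigenW5C
import Fermat.Agent.S32x.Faithful1C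
import Fermat.Agent.S32x.Alg7A
import Fermat.Agent.S32x.Alg7B
import Fermat.Agent.ES.J.S30Final8
import Fermat.Agent.ES.J.PadicAlg8

set_option autoImplicit false
set_option linter.unusedSectionVars false
set_option linter.overlappingInstances false
set_option linter.style.haveILetI false
set_option synthInstance.maxHeartbeats 400000

open TensorProduct AlgebraicCurve ModularCurve CuspForm Pointwise

noncomputable section

namespace Fermat.Agent.S32x.Final1

open Fermat.Agent.ES.J.TateJZero13 Fermat.Agent.S32x.EigenW5A Fermat.Agent.S32x.EigenW5C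
open Fermat.Agent.FF.S19Wire1 Fermat.Agent.S32x.OrdProd2

variable {p : ℕ} {N : ℕ} [NeZero N] {S : Finset ℕ}
  {𝒪 : Type} [CommRing 𝒪] [IsDomain 𝒪] [IsDiscreteValuationRing 𝒪]
  [IsAdicComplete (IsLocalRing.maximalIdeal 𝒪) 𝒪]
  {θ : CuspForm.heckeAlgebra N 2 (↑S : Set ℕ) →+* IsLocalRing.ResidueField 𝒪}
  {T : Type} [CommRing T] [IsLocalRing T] [IsNoetherianRing T]
  [IsAdicComplete (IsLocalRing.maximalIdeal T) T] [Algebra 𝒪 T] [IsLocalHom (algebraMap 𝒪 T)]
  [Module.Finite 𝒪 T] [Module.Free 𝒪 T]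

/-- **S32 from the level chapter**, for an arbitrary `ℤ_[p]`-algebra structure on `T`. -/
theorem isFlatAt_of_level [Finite (IsLocalRing.ResidueField 𝒪)] [CharZero 𝒪] [Fact p.Prime]
    [Algebra ℤ_[p] T] (hp2 : p ≠ 2) (hp𝒪 : (p : 𝒪) ∈ IsLocalRing.maximalIdeal 𝒪)
    (hpS : p ∈ S) (hNS : ∀ q : ℕ, q.Prime → q ∣ N → q ∈ S)
    (H : CuspForm.HeckeGaloisRepDatum N (↑S : Set ℕ) 𝒪 θ T)
    (hlevel : ∀ (k : ℕ) (Q : Type) [AddCommGroup Q] [DistribMulAction GQ Q]
      (π : XT p N T →+ Q), Function.Surjective π → (∀ x : XT p N T, π (((p : T) ^ k) • x) = 0) →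
      (∀ (σ : GQ) (x : XT p N T), π (rhoX p N T σ x) = σ • π x) →
      HasHopfOrder (GaloisRep.ratLocalizedAt p) (AlgebraicClosure ℚ) GQ Q) :
    H.ρ.IsFlatAt p := by
  have hp : p.Prime := Fact.out
  obtain ⟨hspan, h2, hpT⟩ := Fermat.Agent.S32x.Alg7.datum_inputs hp hp2 hp𝒪 H
  have hfin : {y : JZero N | p • y = 0}.Finite := Fermat.Agent.ES.J.S30Final8.k1 p N
  haveI : Module.Finite T (XT p N T) := finite_XT p N T hfin
  haveI : Module.Finite T (eigenW p H) := finite_eigenW p H hfin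
  refine Fermat.Agent.S32x.Assembly2.s32_of_chapters H (rhoX p N T) hlevel (eigenW p H)
    (rhoW p H) (fun σ w => coe_rhoW_apply p H σ w)
    (Fermat.Agent.S32x.Faithful1.faithful_eigenW p hNS H) (dT p T)
    (fun g => hCH_eigenW hpT hpS hNS hfin H g) (Fermat.Agent.S32x.Alg7.basisV H.ρ) hspan h2 ?_
  intro m Φ hΦ I hI
  obtain ⟨n, hn⟩ := Fermat.Agent.S32x.Alg7.exists_level hpT I Φ hΦ
  refine ⟨n, fun v hv => hn v fun i => ?_⟩
  obtain ⟨x, hx⟩ := hv i
  rw [hx]
  exact Submodule.smul_mem_pointwise_smul x _ _ Submodule.mem_top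

/-- **S32 from the level chapter**, with the canonical `ℤ_[p]`-algebra structure of the complete
local ring `T`. -/
theorem s32_of_level [Finite (IsLocalRing.ResidueField 𝒪)] [CharZero 𝒪] [Fact p.Prime]
    (hp2 : p ≠ 2) (hp𝒪 : (p : 𝒪) ∈ IsLocalRing.maximalIdeal 𝒪)
    (hpS : p ∈ S) (hNS : ∀ q : ℕ, q.Prime → q ∣ N → q ∈ S)
    (H : CuspForm.HeckeGaloisRepDatum N (↑S : Set ℕ) 𝒪 θ T)
    (hlevel : ∀ (hpT : (p : T) ∈ IsLocalRing.maximalIdeal T),
      letI : Algebra ℤ_[p] T :=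
        Fermat.Agent.ES.J.PadicAlg8.padicAlgebra p (IsLocalRing.maximalIdeal T) hpT
      ∀ (k : ℕ) (Q : Type) [AddCommGroup Q] [DistribMulAction GQ Q]
      (π : XT p N T →+ Q), Function.Surjective π → (∀ x : XT p N T, π (((p : T) ^ k) • x) = 0) →
      (∀ (σ : GQ) (x : XT p N T), π (rhoX p N T σ x) = σ • π x) →
      HasHopfOrder (GaloisRep.ratLocalizedAt p) (AlgebraicClosure ℚ) GQ Q) :
    H.ρ.IsFlatAt p := by
  have hpT : (p : T) ∈ IsLocalRing.maximalIdeal T :=
    Fermat.Agent.S32x.Alg7.natCast_mem_maximalIdeal hp𝒪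
  letI : Algebra ℤ_[p] T :=
    Fermat.Agent.ES.J.PadicAlg8.padicAlgebra p (IsLocalRing.maximalIdeal T) hpT
  exact isFlatAt_of_level hp2 hp𝒪 hpS hNS H (hlevel hpT)

end Fermat.Agent.S32x.Final1
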