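/-
Programme S32x (S32), chapter R3c, abstract part (helper3): **the finite levels of the base change
of a Tate module.**

`J` an abelian group with an action of a monoid `G`, `p` a prime, `TateModule p J` its Tate module
(`ES/J/TateModule13`), `T` a commutative `ℤ_[p]`-algebra, `X := T ⊗[ℤ_[p]] TateModule p J` with the
`T`-linear action `ρX g := (rho p J g).baseChange T`.  Let `t : Fin r → T` be a system of
representatives of `T` modulo `p ^ n` (`ht : ∀ s, ∃ i s', s = t i + p ^ n * s'`).  Then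
`q : (Fin r → TateModule p J) →+ X`, `q v = ∑ i, t i ⊗ v i` satisfies
* `exists_sumTmul_add` : `q` is onto modulo `p ^ n X`;
* `sumTmul_of_proj_eq_zero` : if all the components of `v` die in `J[p ^ n]` then `q v ∈ p ^ n X`;
* `rhoBase_sumTmul` : `q` is `G`-equivariant.
Consequently (`subquotient_data`) every equivariant quotient `π : X ↠ Q` killing `p ^ n X` is an
equivariant quotient of `(TateModule p J)^r` through which the kernel of the coordinatewise
`proj n : (TateModule p J)^r → (J[p ^ n])^r` dies: the sub-quotient shape of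
`S32x/ClosureA.hasHopfOrder_of_subquotient`.
-/
import Mathlib
import Fermat.Agent.ES.J.TateModule13

set_option autoImplicit false
set_option linter.unusedSectionVars false

noncomputable section

open TensorProduct

namespace Fermat.Agent.S32x.Level3

open Fermat.Agent.ES.J.TateModule13

variable {p : ℕ} [hp : Fact p.Prime] {J : Type*} [AddCommGroup J]
variable {G : Type*} [Monoid G] [DistribMulAction G J]
variable {T : Type*} [CommRing T] [Algebra ℤ_[p] T]

/-- the action of `G` on `X = T ⊗ TateModule p J`. -/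
def rhoBase (T : Type*) [CommRing T] [Algebra ℤ_[p] T] (g : G) :
    Module.End T (T ⊗[ℤ_[p]] TateModule p J) :=
  (rho p J g).baseChange T

theorem rhoBase_tmul (g : G) (s : T) (y : TateModule p J) :
    rhoBase T g (s ⊗ₜ[ℤ_[p]] y) = s ⊗ₜ[ℤ_[p]] (rho p J g y) :=
  LinearMap.baseChange_tmul _ _ _

variable {r : ℕ} (t : Fin r → T)

/-- the map `v ↦ ∑ i, t i ⊗ v i`. -/
def sumTmul : (Fin r → TateModule p J) →+ T ⊗[ℤ_[p]] TateModule p J where
  toFun v := ∑ i, t i ⊗ₜ[ℤ_[p]] v i
  map_zero' := by simp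
  map_add' v w := by
    simp only [Pi.add_apply, TensorProduct.tmul_add, Finset.sum_add_distrib]

theorem sumTmul_apply (v : Fin r → TateModule p J) : sumTmul t v = ∑ i, t i ⊗ₜ[ℤ_[p]] v i := rfl

theorem sumTmul_single (i : Fin r) (y : TateModule p J) :
    sumTmul t (Pi.single i y) = t i ⊗ₜ[ℤ_[p]] y := by
  classical
  rw [sumTmul_apply, Finset.sum_eq_single i]
  · rw [Pi.single_eq_same]
  · intro j _ hji
    rw [Pi.single_eq_of_ne hji, TensorProduct.tmul_zero]
  · intro h
    exact absurd (Finset.mem_univ i) h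

/-- **`q` is equivariant.** -/
theorem rhoBase_sumTmul (g : G) (v : Fin r → TateModule p J) :
    rhoBase T g (sumTmul t v) = sumTmul t (fun i => rho p J g (v i)) := by
  rw [sumTmul_apply, sumTmul_apply, map_sum]
  exact Finset.sum_congr rfl fun i _ => rhoBase_tmul g (t i) (v i)

/-- **`q` is onto modulo `p ^ n`.** -/
theorem exists_sumTmul_add (n : ℕ) (ht : ∀ s : T, ∃ (i : Fin r) (s' : T), s = t i + (p : T) ^ n * s')
    (x : T ⊗[ℤ_[p]] TateModule p J) :
    ∃ (v : Fin r → TateModule p J) (x' : T ⊗[ℤ_[p]] TateModule p J),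
      x = sumTmul t v + ((p : T) ^ n) • x' := by
  induction x using TensorProduct.induction_on with
  | zero => exact ⟨0, 0, by rw [map_zero, smul_zero, add_zero]⟩
  | tmul s y =>
    obtain ⟨i, s', hs⟩ := ht s
    refine ⟨Pi.single i y, s' ⊗ₜ[ℤ_[p]] y, ?_⟩
    rw [sumTmul_single, TensorProduct.smul_tmul', smul_eq_mul, ← TensorProduct.add_tmul, ← hs]
  | add x₁ x₂ h₁ h₂ =>
    obtain ⟨v₁, x₁', e₁⟩ := h₁
    obtain ⟨v₂, x₂', e₂⟩ := h₂
    refine ⟨v₁ + v₂, x₁' + x₂', ?_⟩
    rw [map_add, smul_add, e₁, e₂]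
    abel

/-- the `ℤ_[p]`-scalar `p ^ n` acts on `X` as the `T`-scalar `p ^ n`. -/
theorem padic_pow_smul (n : ℕ) (x : T ⊗[ℤ_[p]] TateModule p J) :
    ((p : ℤ_[p]) ^ n) • x = ((p : T) ^ n) • x := by
  rw [← algebraMap_smul T ((p : ℤ_[p]) ^ n) x, map_pow, map_natCast]

/-- **the kernel of the coordinatewise projection to `J[p ^ n]` dies in `X / p ^ n X`.** -/
theorem sumTmul_of_proj_eq_zero (n : ℕ) (v : Fin r → TateModule p J)
    (hv : ∀ i, proj n (v i) = 0) :
    ∃ x' : T ⊗[ℤ_[p]] TateModule p J, sumTmul t v = ((p : T) ^ n) • x' := by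
  have hy : ∀ i, ∃ y : TateModule p J, v i = ((p : ℤ_[p]) ^ n) • y :=
    fun i => (proj_eq_zero_iff' n (v i)).1 (hv i)
  choose y hy using hy
  refine ⟨∑ i, t i ⊗ₜ[ℤ_[p]] y i, ?_⟩
  rw [sumTmul_apply, Finset.smul_sum]
  refine Finset.sum_congr rfl fun i _ => ?_
  rw [hy i, TensorProduct.tmul_smul, padic_pow_smul]

/-- **the sub-quotient data**: for an equivariant quotient `π : X ↠ Q` killing `p ^ n X`, the map
`π ∘ q : (TateModule p J)^r → Q` is onto, equivariant, and kills the kernel of the coordinatewise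
projection to `J[p ^ n]`. -/
theorem subquotient_data (n : ℕ)
    (ht : ∀ s : T, ∃ (i : Fin r) (s' : T), s = t i + (p : T) ^ n * s')
    {Q : Type*} [AddCommGroup Q] [DistribMulAction G Q]
    (π : (T ⊗[ℤ_[p]] TateModule p J) →+ Q) (hπ : Function.Surjective π)
    (hπp : ∀ x : T ⊗[ℤ_[p]] TateModule p J, π (((p : T) ^ n) • x) = 0)
    (hπG : ∀ (g : G) (x : T ⊗[ℤ_[p]] TateModule p J), π (rhoBase T g x) = g • π x) :
    Function.Surjective (π.comp (sumTmul t)) ∧
      (∀ (g : G) (v : Fin r → TateModule p J),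
        (π.comp (sumTmul t)) (fun i => rho p J g (v i)) = g • (π.comp (sumTmul t)) v) ∧
      ∀ v : Fin r → TateModule p J, (∀ i, proj n (v i) = 0) → (π.comp (sumTmul t)) v = 0 := by
  refine ⟨fun z => ?_, fun g v => ?_, fun v hv => ?_⟩
  · obtain ⟨x, rfl⟩ := hπ z
    obtain ⟨v, x', e⟩ := exists_sumTmul_add t n ht x
    refine ⟨v, ?_⟩
    rw [AddMonoidHom.comp_apply, e, map_add, hπp, add_zero]
  · rw [AddMonoidHom.comp_apply, AddMonoidHom.comp_apply, ← rhoBase_sumTmul, hπG]
  · obtain ⟨x', e⟩ := sumTmul_of_proj_eq_zero t n v hv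
    rw [AddMonoidHom.comp_apply, e, hπp]

/-- a system of representatives of `T` modulo `p ^ n` from the finiteness of the quotient. -/
theorem exists_reps_of_finite (n : ℕ) (hfin : Finite (T ⧸ Ideal.span {(p : T) ^ n})) :
    ∃ (r : ℕ) (t : Fin r → T), ∀ s : T, ∃ (i : Fin r) (s' : T), s = t i + (p : T) ^ n * s' := by
  classical
  have := Fintype.ofFinite (T ⧸ Ideal.span {(p : T) ^ n})
  let e := Fintype.equivFin (T ⧸ Ideal.span {(p : T) ^ n})
  refine ⟨_, fun i => Quotient.out (e.symm i), fun s => ?_⟩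
  refine ⟨e (Ideal.Quotient.mk _ s), ?_⟩
  have h1 : Ideal.Quotient.mk (Ideal.span {(p : T) ^ n})
      (Quotient.out (e.symm (e (Ideal.Quotient.mk (Ideal.span {(p : T) ^ n}) s)))) =
      Ideal.Quotient.mk (Ideal.span {(p : T) ^ n}) s := by
    rw [Equiv.symm_apply_apply]
    exact Quotient.out_eq _
  have h2 : s - Quotient.out (e.symm (e (Ideal.Quotient.mk (Ideal.span {(p : T) ^ n}) s))) ∈
      Ideal.span {(p : T) ^ n} := by
    rw [← Ideal.Quotient.eq, h1]
  obtain ⟨s', hs'⟩ := Ideal.mem_span_singleton'.1 h2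
  refine ⟨s', ?_⟩
  rw [mul_comm, hs']
  ring

end Fermat.Agent.S32x.Level3
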