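/-
Programme S32x (S32), chapter R3c, concrete part (helper3): **Hopf orders on the finite levels of
`X = T ⊗[ℤ_[p]] T_p J₀(N)`.**

`TJ p N` the `p`-adic Tate module of `J₀(N)(ℚ̄)` with `rhoT p N` (`ES/J/TateJZero13`), `T` a
commutative `ℤ_[p]`-algebra with a system of representatives `t : Fin r → T` modulo `p ^ n`.  For ANY
`G_ℚ`-module `Q` and any surjective additive `π : X → Q` killing `p ^ n X` and intertwining
`(rhoT p N σ).baseChange T` with the action on `Q`:

  `hasHopfOrder_of_tors` : a Hopf order on `J₀(N)[p ^ n]` gives a Hopf order on `Q`.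

(`Q` is an equivariant quotient of `(TJ)^r`, through which the kernel of the equivariant map
`(TJ)^r → (J₀(N)[p ^ n])^r` dies: `ClosureA.hasHopfOrder_of_subquotient`.)
-/
import Mathlib
import Fermat.Agent.S32x.Level3A
import Fermat.Agent.S32x.ClosureA
import Fermat.Agent.ES.J.TateJZero13

set_option autoImplicit false
set_option linter.unusedSectionVars false
set_option linter.style.haveILetI false
set_option synthInstance.maxHeartbeats 400000

noncomputable section

open TensorProduct ModularCurve

namespace Fermat.Agent.S32x.Level3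

open Fermat.Agent.ES.J.TateModule13 Fermat.Agent.ES.J.TateJZero13 Fermat.Agent.FF.S19Wire1
  Fermat.Agent.S32x.OrdProd2 Fermat.Agent.S32x.ClosureA

variable (p : ℕ) [hp : Fact p.Prime] (N : ℕ) [NeZero N]
variable {T : Type*} [CommRing T] [Algebra ℤ_[p] T]

/-- the action of `G_ℚ` on the Tate module, as a `DistribMulAction` (local use). -/
@[reducible] def tjAction : DistribMulAction GQ (TJ p N) :=
  DistribMulAction.compHom (TJ p N) (rhoT p N)

/-- the component at level `n` of a Tate vector, as an element of `J₀(N)[p ^ n]`. -/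
def projTors (n : ℕ) : TJ p N →+ Tors N p n where
  toFun x := ⟨proj n x, by
    rw [Submodule.mem_torsionBy_iff]
    have h := pow_smul_proj n x
    rw [← Nat.cast_pow, natCast_zsmul]
    exact h⟩
  map_zero' := Subtype.ext (map_zero (proj n))
  map_add' x y := Subtype.ext (map_add (proj n) x y)

theorem coe_projTors (n : ℕ) (x : TJ p N) : ((projTors p N n x : Tors N p n) : JZero N) = proj n x :=
  rfl

theorem projTors_rhoT (n : ℕ) (σ : GQ) (x : TJ p N) :
    projTors p N n (rhoT p N σ x) = σ • projTors p N n x :=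
  Subtype.ext rfl

theorem projTors_eq_zero_iff (n : ℕ) (x : TJ p N) : projTors p N n x = 0 ↔ proj n x = 0 :=
  ⟨fun h => congrArg Subtype.val h, fun h => Subtype.ext h⟩

/-- **Hopf orders on the finite levels of `X`.** -/
theorem hasHopfOrder_of_tors (n : ℕ) {r : ℕ} (t : Fin r → T)
    (ht : ∀ s : T, ∃ (i : Fin r) (s' : T), s = t i + (p : T) ^ n * s')
    {Q : Type} [AddCommGroup Q] [DistribMulAction GQ Q]
    (π : (T ⊗[ℤ_[p]] TJ p N) →+ Q) (hπ : Function.Surjective π)
    (hπp : ∀ x : T ⊗[ℤ_[p]] TJ p N, π (((p : T) ^ n) • x) = 0)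
    (hπG : ∀ (σ : GQ) (x : T ⊗[ℤ_[p]] TJ p N), π ((rhoT p N σ).baseChange T x) = σ • π x)
    (h : HasHopfOrder (GaloisRep.ratLocalizedAt p) (AlgebraicClosure ℚ) GQ (Tors N p n)) :
    HasHopfOrder (GaloisRep.ratLocalizedAt p) (AlgebraicClosure ℚ) GQ Q := by
  letI : DistribMulAction GQ (TJ p N) := tjAction p N
  haveI : Finite (Tors N p n) := finite_tors N p n
  have hsmul : ∀ (σ : GQ) (x : TJ p N), σ • x = rhoT p N σ x := fun σ x => rfl
  obtain ⟨hq1, hq2, hq3⟩ := subquotient_data (G := GQ) (J := JZero N) t n ht π hπ hπp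
    (fun σ x => hπG σ x)
  -- the coordinatewise projection
  let j : (Fin r → TJ p N) →+ (Fin r → Tors N p n) :=
    { toFun := fun v i => projTors p N n (v i)
      map_zero' := by ext i; simp
      map_add' := fun v w => by ext i; simp }
  refine hasHopfOrder_of_subquotient p h (Fin r) (AddMonoidHom.id _) Function.surjective_id
    (fun σ z => rfl) j (fun σ v => ?_) (π.comp (sumTmul t)) hq1 (fun σ v => ?_) (fun v hv => ?_)
  · funext i
    show projTors p N n (rhoT p N σ (v i)) = σ • projTors p N n (v i)
    exact projTors_rhoT p N n σ (v i)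
  · exact hq2 σ v
  · refine hq3 v fun i => ?_
    have := congrFun hv i
    exact (projTors_eq_zero_iff p N n (v i)).1 this

end Fermat.Agent.S32x.Level3
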