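/-
Programme S32x (S32), chapter R3c, the generators (helper3): **a finite system of representatives
of `T` modulo `p ^ n`.**

`𝒪` a discrete valuation ring with finite residue field and of characteristic zero, `T` a
commutative `𝒪`-algebra, finite as an `𝒪`-module, `p ≠ 0` a natural number.  Then `T / p ^ n T` is
finite, hence there is a finite family `t : Fin r → T` with `∀ s, ∃ i s', s = t i + p ^ n * s'`
(`exists_reps`): the hypothesis `ht` of `Level3A/B`.
-/
import Mathlib

set_option autoImplicit false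
set_option linter.unusedSectionVars false

open IsLocalRing
open scoped Pointwise

namespace Fermat.Agent.S32x.Level3

variable (𝒪 : Type*) [CommRing 𝒪] [IsDomain 𝒪] [IsDiscreteValuationRing 𝒪]
  [Finite (ResidueField 𝒪)]

/-- the quotient of a discrete valuation ring with finite residue field by a nonzero principal
ideal is finite. -/
theorem finite_quotient_span_singleton {a : 𝒪} (ha : a ≠ 0) : Finite (𝒪 ⧸ Ideal.span {a}) := by
  obtain ⟨ϖ, hϖ⟩ := IsDiscreteValuationRing.exists_irreducible 𝒪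
  obtain ⟨k, hk⟩ := IsDiscreteValuationRing.associated_pow_irreducible ha hϖ
  rw [IsLocalRing.finite_quotient_iff]
  refine ⟨k, ?_⟩
  rw [hϖ.maximalIdeal_eq, Ideal.span_singleton_pow,
    Ideal.span_singleton_eq_span_singleton.2 hk.symm]

variable (T : Type*) [CommRing T] [Algebra 𝒪 T] [Module.Finite 𝒪 T]

/-- `T / a T` is finite for `a ≠ 0` in `𝒪`. -/
theorem finite_quotient_smul_top {a : 𝒪} (ha : a ≠ 0) :
    Finite (T ⧸ ((Ideal.span {a} : Ideal 𝒪) • (⊤ : Submodule 𝒪 T))) := by
  have := finite_quotient_span_singleton 𝒪 ha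
  have : Finite (T ⧸ (⊤ : Submodule 𝒪 T)) := by
    have : Subsingleton (T ⧸ (⊤ : Submodule 𝒪 T)) :=
      ⟨fun x y => by
        obtain ⟨x, rfl⟩ := Submodule.Quotient.mk_surjective _ x
        obtain ⟨y, rfl⟩ := Submodule.Quotient.mk_surjective _ y
        exact (Submodule.Quotient.eq _).2 Submodule.mem_top⟩
    infer_instance
  exact Submodule.finite_quotient_smul (Ideal.span {a}) Module.Finite.fg_top

/-- **representatives modulo `a`**: a finite family `t` with `∀ s, ∃ i s', s = t i + a * s'`. -/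
theorem exists_reps_of_ne_zero {a : 𝒪} (ha : a ≠ 0) :
    ∃ (r : ℕ) (t : Fin r → T), ∀ s : T, ∃ (i : Fin r) (s' : T),
      s = t i + algebraMap 𝒪 T a * s' := by
  classical
  set W : Submodule 𝒪 T := (Ideal.span {a} : Ideal 𝒪) • (⊤ : Submodule 𝒪 T) with hW
  have : Finite (T ⧸ W) := finite_quotient_smul_top 𝒪 T ha
  have := Fintype.ofFinite (T ⧸ W)
  let e := Fintype.equivFin (T ⧸ W)
  refine ⟨_, fun i => Quotient.out (e.symm i), fun s => ?_⟩
  refine ⟨e (W.mkQ s), ?_⟩
  have h1 : W.mkQ (Quotient.out (e.symm (e (W.mkQ s)))) = W.mkQ s := by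
    rw [Equiv.symm_apply_apply]
    exact Quotient.out_eq _
  have h2 : s - Quotient.out (e.symm (e (W.mkQ s))) ∈ W := by
    rw [← Submodule.Quotient.mk_eq_zero, Submodule.Quotient.mk_sub]
    exact sub_eq_zero.2 h1.symm
  have h3 : s - Quotient.out (e.symm (e (W.mkQ s))) ∈ a • (⊤ : Submodule 𝒪 T) := by
    rw [← Submodule.ideal_span_singleton_smul]
    exact h2
  obtain ⟨y, -, hy⟩ := h3
  refine ⟨y, ?_⟩
  have hy' : a • y = s - Quotient.out (e.symm (e (W.mkQ s))) := hy
  rw [← Algebra.smul_def, hy']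
  ring

/-- **representatives modulo `p ^ n`.** -/
theorem exists_reps [CharZero 𝒪] {p : ℕ} (hp : p ≠ 0) (n : ℕ) :
    ∃ (r : ℕ) (t : Fin r → T), ∀ s : T, ∃ (i : Fin r) (s' : T), s = t i + (p : T) ^ n * s' := by
  have ha : ((p : 𝒪) ^ n) ≠ 0 := pow_ne_zero n (Nat.cast_ne_zero.2 hp)
  obtain ⟨r, t, ht⟩ := exists_reps_of_ne_zero 𝒪 T ha
  refine ⟨r, t, fun s => ?_⟩
  obtain ⟨i, s', hs⟩ := ht s
  refine ⟨i, s', ?_⟩
  rw [hs, map_pow, map_natCast]

end Fermat.Agent.S32x.Level3
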