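/-
S32x/Final1B (helper1): **S32, unconditionally** (in the shape of the frozen statement).

`Final1.s32_of_level` with the level chapter plugged in:
* R3c: `Level3.hasHopfOrder_of_tors` + `Level3.exists_reps` (helper3),
* R0 : `OrderForm8.exists_isHopfOrder N p hpN k` (helper8; the order form of S19 at `ℓ := p`).
-/
import Mathlib
import Fermat.Agent.S32x.Final1
import Fermat.Agent.S32x.Level3B
import Fermat.Agent.S32x.Level3C
import Fermat.Agent.FF.OrderForm8

set_option autoImplicit false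
set_option linter.unusedSectionVars false
set_option linter.overlappingInstances false
set_option linter.style.haveILetI false
set_option synthInstance.maxHeartbeats 400000

noncomputable section

namespace Fermat.Agent.S32x.Final1

variable {p : ℕ} {N : ℕ} [NeZero N] {S : Finset ℕ}
  {𝒪 : Type} [CommRing 𝒪] [IsDomain 𝒪] [IsDiscreteValuationRing 𝒪]
  [IsAdicComplete (IsLocalRing.maximalIdeal 𝒪) 𝒪]
  {θ : CuspForm.heckeAlgebra N 2 (↑S : Set ℕ) →+* IsLocalRing.ResidueField 𝒪}
  {T : Type} [CommRing T] [IsLocalRing T] [IsNoetherianRing T]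
  [IsAdicComplete (IsLocalRing.maximalIdeal T) T] [Algebra 𝒪 T] [IsLocalHom (algebraMap 𝒪 T)]
  [Module.Finite 𝒪 T] [Module.Free 𝒪 T]

/-- **S32**: in a Hecke–Galois datum of level `N` away from `S`, with `p` odd and `p ∤ N`, the
Galois representation is flat at `p`. -/
theorem s32 [Finite (IsLocalRing.ResidueField 𝒪)] [CharZero 𝒪]
    (hp : p.Prime) (hp2 : p ≠ 2) (hp𝒪 : (p : 𝒪) ∈ IsLocalRing.maximalIdeal 𝒪) (hpN : ¬ p ∣ N)
    (hpS : p ∈ S) (hNS : ∀ q : ℕ, q.Prime → q ∣ N → q ∈ S)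
    (H : CuspForm.HeckeGaloisRepDatum N (↑S : Set ℕ) 𝒪 θ T) :
    H.ρ.IsFlatAt p := by
  haveI : Fact p.Prime := ⟨hp⟩
  refine s32_of_level hp2 hp𝒪 hpS hNS H (fun hpT => ?_)
  letI : Algebra ℤ_[p] T :=
    Fermat.Agent.ES.J.PadicAlg8.padicAlgebra p (IsLocalRing.maximalIdeal T) hpT
  intro k Q _ _ π hπ hπp hπG
  obtain ⟨r, t, ht⟩ := Fermat.Agent.S32x.Level3.exists_reps 𝒪 T hp.ne_zero k
  exact Fermat.Agent.S32x.Level3.hasHopfOrder_of_tors p N k t ht π hπ hπp hπG
    (Fermat.Agent.FF.OrderForm8.exists_isHopfOrder N p hpN k)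

end Fermat.Agent.S32x.Final1
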