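/-
S32x/Faithful1B (helper1): chapter R3b(ii).

**The simultaneous Hecke eigen-submodule of `T ⊗[ℤ_p] T_p J₀(N)` is a faithful `T`-module**, for a
reduced noetherian ring `T` in which the non-zero integers are non-zero-divisors, and ANY ring
homomorphism `π : heckeAlgebra N 2 S →+* T`.

Proof.  Let `t ≠ 0`.  As `T` is reduced there is a minimal prime `𝔮 ∌ t`.  `D := T ⧸ 𝔮` is a domain
of characteristic zero, so the character `χ := mk ∘ π` has a non-zero eigenvector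
`w ∈ D ⊗[ℤ_p] T_p J₀(N)` (FAITH + (K2) + `EigenNonzero9`).  Choose `c ∉ 𝔮` lying in all the other
minimal primes; then `c 𝔮 = 0` and `μ : D → T`, `x̄ ↦ c x`, is an injective `T`-linear map, and so
is `ν := μ ⊗ id : D ⊗ T_p J → T ⊗ T_p J` (the Tate module is free over `ℤ_p`).  `x₀ := ν w` is an
eigenvector and `t • x₀ = ν (t̄ • w) ≠ 0` since `D ⊗ T_p J` is a torsion-free `D`-module.
-/
import Mathlib
import Fermat.Agent.ES.ALG.EigenNonzero9
import Fermat.Agent.ES.HEQ.FaithFinal26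
import Fermat.Agent.ES.J.K2Final11
import Fermat.Agent.ES.J.KummerSystemJ8
import Fermat.Agent.ES.J.S30Final8
import Fermat.Agent.ES.J.PadicAlg8
import Fermat.Agent.ES.ALG31.Sep3

set_option autoImplicit false
set_option linter.unusedSectionVars false
set_option linter.overlappingInstances false
set_option linter.style.haveILetI false
set_option synthInstance.maxHeartbeats 400000

open TensorProduct AlgebraicCurve ModularCurve CuspForm

noncomputable section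

namespace Fermat.Agent.S32x.Faithful1

open Fermat.Agent.ES.J.TateJZero13 Fermat.Agent.ES.HEQ.FaithInst26
  Fermat.Agent.ES.HEQ.FaithFinal26

variable {p : ℕ} [Fact p.Prime] {N : ℕ} [NeZero N] {S : Finset ℕ}

section Eigen

variable {D : Type*} [CommRing D] [IsDomain D] [CharZero D] [Algebra ℤ_[p] D]

/-- a nonzero `χ`-eigenvector in `D ⊗ T_p J₀(N)`, for any domain `D` of characteristic zero
(`S30Glue8.exists_eigenvector_tate` without the superfluous hypothesis that `D` be a discrete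
valuation ring, and with (K2) supplied). -/
theorem exists_eigenvector_tate_domain (hNS : ∀ q : ℕ, q.Prime → q ∣ N → q ∈ S)
    (χ : CuspForm.heckeAlgebra N 2 (↑S : Set ℕ) →+* D) :
    ∃ w : D ⊗[ℤ_[p]] TJ p N, w ≠ 0 ∧
      ∀ (ℓ : ℕ) (hℓ : ℓ.Prime) (hℓN : ¬ ℓ ∣ N) (hℓS : ℓ ∉ (↑S : Set ℕ)),
        (tT p N ⟨ℓ, hℓ⟩).baseChange D w = χ (CuspForm.heckeAlgebra.T hℓ hℓN hℓS) • w := by
  obtain ⟨ι₀, hι₀, hheck⟩ := Fermat.Agent.ES.J.K2Final11.k2
    (Fermat.Agent.ES.J.KummerSystemJ8.kummerSystemJ p N)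
    (Fermat.Agent.ES.J.KummerSystemJ8.heckeCompatJ p N)
  have hS : ∀ q : ℕ, q.Prime → q ∣ N → q ∈ (↑S : Set ℕ) := fun q hq hqN => by
    exact_mod_cast hNS q hq hqN
  let g : TJ p N →ₗ[ℤ_[p]] D ⊗[ℤ_[p]] TJ p N := TensorProduct.mk ℤ_[p] D (TJ p N) 1
  have hg : IsBaseChange D g := TensorProduct.isBaseChange ℤ_[p] (TJ p N) D
  have hι : IsBaseChange D ((g.restrictScalars ℤ).comp ι₀) := IsBaseChange.comp hι₀ hg
  obtain ⟨w, hw0, hw⟩ :=
    Fermat.Agent.ES.ALG.EigenNonzero9.exists_eigenvector_of_isBaseChange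
      ((g.restrictScalars ℤ).comp ι₀) hι
      ((heckeLam (N := N) (↑S : Set ℕ) hS : _ →ₐ[ℤ] _) : _ →+* _)
      (heckeLam_injective (↑S : Set ℕ) hS) χ
  refine ⟨w, hw0, fun ℓ hℓ hℓN hℓS => ?_⟩
  refine hw (CuspForm.heckeAlgebra.T hℓ hℓN hℓS) ((tT p N ⟨ℓ, hℓ⟩).baseChange D) fun x => ?_
  show (tT p N ⟨ℓ, hℓ⟩).baseChange D ((1 : D) ⊗ₜ[ℤ_[p]] ι₀ x) =
    (1 : D) ⊗ₜ[ℤ_[p]] ι₀ (heckeLam (↑S : Set ℕ) hS (CuspForm.heckeAlgebra.T hℓ hℓN hℓS) x)
  rw [LinearMap.baseChange_tmul, hheck ℓ hℓ hℓN x, heckeLam_T' (↑S : Set ℕ) hS ℓ hℓ hℓN hℓS]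

end Eigen


section Main

variable {T : Type} [CommRing T] [IsNoetherianRing T] [IsReduced T]

/-- in a reduced ring, an element lying in all the minimal primes vanishes. -/
theorem eq_zero_of_forall_mem_minimalPrimes {x : T} (h : ∀ 𝔮 ∈ minimalPrimes T, x ∈ 𝔮) :
    x = 0 := by
  have h1 : x ∈ sInf (minimalPrimes T) := by
    rw [Submodule.mem_sInf]
    exact h
  have h2 : sInf (minimalPrimes T) = nilradical T :=
    Ideal.sInf_minimalPrimes (I := (⊥ : Ideal T))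
  rw [h2, nilradical_eq_zero] at h1
  exact h1

/-- in a reduced ring, a non-zero element avoids some minimal prime. -/
theorem exists_minimalPrime_notMem {t : T} (ht : t ≠ 0) : ∃ 𝔮 ∈ minimalPrimes T, t ∉ 𝔮 := by
  by_contra hcon
  push Not at hcon
  exact ht (eq_zero_of_forall_mem_minimalPrimes hcon)

/-- the `T`-linear embedding `T ⧸ 𝔮 → T`, `x̄ ↦ c x`, for `c` killing `𝔮`. -/
def mulEmb (𝔮 : Ideal T) (c : T) (hc : ∀ a ∈ 𝔮, c * a = 0) : (T ⧸ 𝔮) →ₗ[T] T :=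
  Submodule.liftQ 𝔮 (LinearMap.mulLeft T c) (fun a ha => by
    rw [LinearMap.mem_ker, LinearMap.mulLeft_apply]
    exact hc a ha)

theorem mulEmb_mk (𝔮 : Ideal T) (c : T) (hc : ∀ a ∈ 𝔮, c * a = 0) (x : T) :
    mulEmb 𝔮 c hc (Ideal.Quotient.mk 𝔮 x) = c * x := rfl

theorem mulEmb_injective (𝔮 : Ideal T) [𝔮.IsPrime] (c : T) (hc : ∀ a ∈ 𝔮, c * a = 0)
    (hc𝔮 : c ∉ 𝔮) : Function.Injective (mulEmb 𝔮 c hc) := by
  rw [← LinearMap.ker_eq_bot, LinearMap.ker_eq_bot']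
  intro m hm
  obtain ⟨x, rfl⟩ := Ideal.Quotient.mk_surjective m
  rw [mulEmb_mk] at hm
  have h1 : c * x ∈ 𝔮 := by rw [hm]; exact 𝔮.zero_mem
  rcases (Ideal.IsPrime.mem_or_mem ‹𝔮.IsPrime› h1) with h | h
  · exact absurd h hc𝔮
  · exact Ideal.Quotient.eq_zero_iff_mem.mpr h

end Main


section Faithful

variable {T : Type} [CommRing T] [IsNoetherianRing T] [IsReduced T] [Algebra ℤ_[p] T]

set_option maxHeartbeats 1600000 in
/-- **R3b(ii), abstract form**: for a reduced noetherian `ℤ_p`-algebra `T` in which the non-zero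
integers are non-zero-divisors and any `π : heckeAlgebra N 2 S →+* T`, the simultaneous
eigen-submodule of `T ⊗[ℤ_p] T_p J₀(N)` (eigenvalue `π (T_ℓ)` for `tT ℓ`, all `ℓ ∤ N`, `ℓ ∉ S`)
is a faithful `T`-module. -/
theorem faithful_eigen_of_isReduced (hNS : ∀ q : ℕ, q.Prime → q ∣ N → q ∈ S)
    (hT0 : ∀ n : ℤ, n ≠ 0 → (n : T) ∈ nonZeroDivisors T)
    (π : CuspForm.heckeAlgebra N 2 (↑S : Set ℕ) →+* T) (t : T)
    (ht : ∀ x : T ⊗[ℤ_[p]] TJ p N,
      (∀ (ℓ : ℕ) (hℓ : ℓ.Prime) (hℓN : ¬ ℓ ∣ N) (hℓS : ℓ ∉ (↑S : Set ℕ)),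
        (tT p N ⟨ℓ, hℓ⟩).baseChange T x = π (CuspForm.heckeAlgebra.T hℓ hℓN hℓS) • x) →
      t • x = 0) : t = 0 := by
  by_contra ht0
  obtain ⟨𝔮, h𝔮, ht𝔮⟩ := exists_minimalPrime_notMem ht0
  have : 𝔮.IsPrime := Ideal.IsMinimalPrime.isPrime h𝔮
  -- `D := T ⧸ 𝔮` has characteristic zero
  have : CharZero (T ⧸ 𝔮) := by
    refine ⟨fun a b hab => ?_⟩
    by_contra hne
    have h1 : ((a : ℤ) - (b : ℤ) : ℤ) ≠ 0 := by
      intro h
      apply hne
      have : (a : ℤ) = b := by linarith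
      exact_mod_cast this
    have h2 : (((a : ℤ) - (b : ℤ) : ℤ) : T) ∉ 𝔮 := fun hmem =>
      Set.disjoint_left.mp (Ideal.disjoint_nonZeroDivisors_of_mem_minimalPrimes h𝔮) hmem
        (hT0 _ h1)
    apply h2
    rw [← Ideal.Quotient.eq_zero_iff_mem]
    push_cast
    rw [map_sub, map_natCast, map_natCast, hab, sub_self]
  -- the eigenvector over `D`
  obtain ⟨w, hw0, hw⟩ := exists_eigenvector_tate_domain (p := p) hNS
    ((Ideal.Quotient.mk 𝔮).comp π)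
  -- the element `c`
  obtain ⟨c, hc𝔮, hcoth⟩ := Fermat.Agent.ES.ALG31.Sep3.exists_mem_others_notMem h𝔮
  have hc : ∀ a ∈ 𝔮, c * a = 0 := fun a ha =>
    eq_zero_of_forall_mem_minimalPrimes fun 𝔮' h𝔮' => by
      by_cases h : 𝔮' = 𝔮
      · rw [h]; exact 𝔮.mul_mem_left c ha
      · exact 𝔮'.mul_mem_right a (hcoth 𝔮' h𝔮' h)
  -- the Tate module is free
  obtain ⟨hfin, hfree⟩ := finite_free (Fermat.Agent.ES.J.S30Final8.k1 p N)
  -- the embedding `ν`
  let μ : (T ⧸ 𝔮) →ₗ[T] T := mulEmb 𝔮 c hc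
  have hμ : Function.Injective μ := mulEmb_injective 𝔮 c hc hc𝔮
  let ν : (T ⧸ 𝔮) ⊗[ℤ_[p]] TJ p N →ₗ[T] T ⊗[ℤ_[p]] TJ p N :=
    TensorProduct.AlgebraTensorModule.map μ (LinearMap.id : TJ p N →ₗ[ℤ_[p]] TJ p N)
  have hνr : ∀ z, ν z = (μ.restrictScalars ℤ_[p]).rTensor (TJ p N) z := by
    intro z
    induction z using TensorProduct.induction_on with
    | zero => simp
    | tmul d x => rfl
    | add a b ha hb => rw [map_add, map_add, ha, hb]
  have hν : Function.Injective ν := by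
    have := Module.Flat.rTensor_preserves_injective_linearMap (M := TJ p N)
      (μ.restrictScalars ℤ_[p]) hμ
    intro a b hab
    apply this
    rw [← hνr, ← hνr, hab]
  -- `T` acts on `D ⊗ T_p J` through `D`
  have hsm : ∀ (s : T) (z : (T ⧸ 𝔮) ⊗[ℤ_[p]] TJ p N), s • z = Ideal.Quotient.mk 𝔮 s • z := by
    intro s z
    induction z using TensorProduct.induction_on with
    | zero => simp
    | tmul d x => rfl
    | add a b ha hb => rw [smul_add, smul_add, ha, hb]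
  -- `ν` intertwines the Hecke operators
  have hνT : ∀ (f : Module.End ℤ_[p] (TJ p N)) (z : (T ⧸ 𝔮) ⊗[ℤ_[p]] TJ p N),
      f.baseChange T (ν z) = ν (f.baseChange (T ⧸ 𝔮) z) := by
    intro f z
    induction z using TensorProduct.induction_on with
    | zero => simp
    | tmul d x => rfl
    | add a b ha hb =>
      rw [map_add ν, map_add (f.baseChange T), map_add (f.baseChange (T ⧸ 𝔮)), map_add ν, ha, hb]
  have key : t • ν w = 0 := by
    apply ht
    intro ℓ hℓ hℓN hℓS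
    rw [hνT, hw ℓ hℓ hℓN hℓS, ← map_smul, hsm]
    rfl
  rw [← map_smul, hsm] at key
  have h1 : Ideal.Quotient.mk 𝔮 t • w = 0 := hν (by rw [key, map_zero])
  have h2 : Ideal.Quotient.mk 𝔮 t ≠ 0 := fun h => ht𝔮 (Ideal.Quotient.eq_zero_iff_mem.mp h)
  rcases smul_eq_zero.mp h1 with h | h
  · exact h2 h
  · exact hw0 h

end Faithful


section Datum

variable {𝒪 : Type} [CommRing 𝒪] [IsDomain 𝒪] [IsDiscreteValuationRing 𝒪]
  [IsAdicComplete (IsLocalRing.maximalIdeal 𝒪) 𝒪]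
  {θ : CuspForm.heckeAlgebra N 2 (↑S : Set ℕ) →+* IsLocalRing.ResidueField 𝒪}
  {T : Type} [CommRing T] [IsLocalRing T] [IsNoetherianRing T]
  [IsAdicComplete (IsLocalRing.maximalIdeal T) T] [Algebra 𝒪 T] [IsLocalHom (algebraMap 𝒪 T)]
  [Module.Finite 𝒪 T] [Module.Free 𝒪 T]

/-- non-zero integers are non-zero-divisors of a free algebra over a domain of characteristic `0`. -/
theorem intCast_mem_nonZeroDivisors_of_free [CharZero 𝒪] (n : ℤ) (hn : n ≠ 0) :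
    (n : T) ∈ nonZeroDivisors T := by
  rw [mem_nonZeroDivisors_iff_right]
  intro x hx
  have h1 : (n : 𝒪) • x = 0 := by
    rw [Algebra.smul_def, map_intCast, mul_comm]
    exact hx
  have h2 : (n : 𝒪) ≠ 0 := by exact_mod_cast hn
  exact (smul_eq_zero.mp h1).resolve_left h2

/-- **R3b(ii)**, in the literal shape of the S32x programme: the simultaneous eigen-submodule `W'` of
`X = T ⊗[ℤ_p] T_p J₀(N)` is a faithful `T`-module, for a REDUCED Hecke deformation datum. -/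
theorem faithful_eigen [CharZero 𝒪] [IsReduced T]
    (hpT : (p : T) ∈ IsLocalRing.maximalIdeal T)
    (hNS : ∀ q : ℕ, q.Prime → q ∣ N → q ∈ S)
    (H : CuspForm.HeckeGaloisRepDatum N (↑S : Set ℕ) 𝒪 θ T) :
    letI : Algebra ℤ_[p] T :=
      Fermat.Agent.ES.J.PadicAlg8.padicAlgebra p (IsLocalRing.maximalIdeal T) hpT
    ∀ t : T, (∀ x : T ⊗[ℤ_[p]] TJ p N,
      (∀ (ℓ : ℕ) (hℓ : ℓ.Prime) (hℓN : ¬ ℓ ∣ N) (hℓS : ℓ ∉ (↑S : Set ℕ)),
        (tT p N ⟨ℓ, hℓ⟩).baseChange T x = H.π (CuspForm.heckeAlgebra.T hℓ hℓN hℓS) • x) →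
      t • x = 0) → t = 0 := by
  letI : Algebra ℤ_[p] T :=
    Fermat.Agent.ES.J.PadicAlg8.padicAlgebra p (IsLocalRing.maximalIdeal T) hpT
  intro t ht
  exact faithful_eigen_of_isReduced hNS (intCast_mem_nonZeroDivisors_of_free (𝒪 := 𝒪)) H.π t ht

end Datum

end Fermat.Agent.S32x.Faithful1
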