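/-
S32x/Faithful1C (helper1): chapter R3b, FINAL FORM.

`hfaith` of `MoritaA.exists_embedding_of_basis` / `EigenW5C.exists_embedding_eigenW` /
`Assembly2.s32_of_chapters`, unconditionally, for helper5's eigen-submodule `W' = eigenW p H`:

  `faithful_eigenW p hNS H : ∀ t : T, (∀ w : eigenW p H, t • w = 0) → t = 0`

for ANY `[Algebra ℤ_[p] T]` (in particular `PadicAlg8.padicAlgebra p (maximalIdeal T) hpT`).
Inputs: `Faithful1B.faithful_eigen_of_isReduced` (R3b(ii)) and helper4's `Reduced4.isReduced_T`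
(R3b(i)).
-/
import Mathlib
import Fermat.Agent.S32x.Faithful1B
import Fermat.Agent.S32x.Reduced4
import Fermat.Agent.S32x.EigenW5A

set_option autoImplicit false
set_option linter.unusedSectionVars false
set_option linter.overlappingInstances false
set_option synthInstance.maxHeartbeats 400000

open TensorProduct AlgebraicCurve ModularCurve CuspForm

noncomputable section

namespace Fermat.Agent.S32x.Faithful1

open Fermat.Agent.ES.J.TateJZero13 Fermat.Agent.S32x.EigenW5A

variable (p : ℕ) [Fact p.Prime] {N : ℕ} [NeZero N] {S : Finset ℕ}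
  {𝒪 : Type} [CommRing 𝒪] [IsDomain 𝒪] [IsDiscreteValuationRing 𝒪]
  [IsAdicComplete (IsLocalRing.maximalIdeal 𝒪) 𝒪]
  {θ : CuspForm.heckeAlgebra N 2 (↑S : Set ℕ) →+* IsLocalRing.ResidueField 𝒪}
  {T : Type} [CommRing T] [IsLocalRing T] [IsNoetherianRing T]
  [IsAdicComplete (IsLocalRing.maximalIdeal T) T] [Algebra 𝒪 T] [IsLocalHom (algebraMap 𝒪 T)]
  [Module.Finite 𝒪 T] [Module.Free 𝒪 T] [Algebra ℤ_[p] T]

/-- **R3b**: the eigen-submodule `W' = eigenW p H` is a faithful `T`-module (the `hfaith` of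
`MoritaA.exists_embedding_of_basis`), unconditionally. -/
theorem faithful_eigenW [CharZero 𝒪] (hNS : ∀ q : ℕ, q.Prime → q ∣ N → q ∈ S)
    (H : CuspForm.HeckeGaloisRepDatum N (↑S : Set ℕ) 𝒪 θ T) :
    ∀ t : T, (∀ w : eigenW p H, t • w = 0) → t = 0 := by
  have : IsReduced T := Fermat.Agent.S32x.Reduced4.isReduced_T hNS H
  intro t ht
  refine faithful_eigen_of_isReduced (p := p) hNS
    (intCast_mem_nonZeroDivisors_of_free (𝒪 := 𝒪)) H.π t (fun x hx => ?_)
  exact congrArg Subtype.val (ht ⟨x, hx⟩)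

end Fermat.Agent.S32x.Faithful1
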