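/-
Programme S32x (S32), chapter R4a(iii) (helper7): **the finite Galois modules `V ⧸ I V`,
`X ⧸ N` and the subquotient statement**.

* `IsStable ρ N`, `isStable_smul_top`, `isStable_span_smul_top`: stable submodules;
* `repAction ρ : DistribMulAction G Y` (`g • y = ρ g y`), `quotAction ρ N hN : DistribMulAction G (Y ⧸ N)`
  (`g • z = N.mapQ N (ρ g) _ z`); `levelDMA ρ I : DistribMulAction G_ℚ (ρ.V ⧸ I • ⊤)` with
  `σ • z = ρ.levelAction I σ z` (`levelDMA_smul`, `rfl`);
* `jMap Φ N : V →+ (Fin m → X ⧸ N)`, `jMap_apply`, `jMap_eq_zero_iff`, `jMap_equivariant`;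
* `qMap I : V →+ V ⧸ I • ⊤`, surjective, equivariant;
* `piMap f m : (Fin m → P) →+ (Fin m → Q)` surjective / equivariant when `f` is;
* `exists_subquotient`: **`V ⧸ I V` is an equivariant quotient of an equivariant subgroup of
  `(X ⧸ aⁿ X)^m`**, in the shape of the abstract transfer lemma: for all large `n`,
  `jMap Φ (span {a ^ n} • ⊤) v = 0 → qMap I v = 0`.
-/
import Mathlib
import Fermat.Prelude.Def_GaloisRep_Flat
import Fermat.Agent.S32x.Alg7B

set_option autoImplicit false
set_option linter.unusedSectionVars false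

namespace Fermat.Agent.S32x.Alg7

open Module IsLocalRing

section QuotAction

variable {T : Type*} [CommRing T] {Y : Type*} [AddCommGroup Y] [Module T Y]
  {G : Type*} [Group G]

/-- a submodule stable under a representation. -/
def IsStable (ρ : G →* End T Y) (N : Submodule T Y) : Prop := ∀ g, N ≤ N.comap (ρ g)

theorem isStable_smul_top (ρ : G →* End T Y) (I : Ideal T) :
    IsStable ρ (I • (⊤ : Submodule T Y)) := by
  intro g
  rw [← Submodule.map_le_iff_le_comap, Submodule.map_smul'']
  exact Submodule.smul_mono le_rfl le_top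

theorem isStable_span_smul_top (ρ : G →* End T Y) (a : T) :
    IsStable ρ (Ideal.span {a} • (⊤ : Submodule T Y)) := isStable_smul_top ρ _

/-- the action `g • y = ρ g y`. -/
@[reducible] noncomputable def repAction (ρ : G →* End T Y) : DistribMulAction G Y :=
  DistribMulAction.compHom Y ρ

theorem repAction_smul (ρ : G →* End T Y) (g : G) (y : Y) :
    (letI := repAction ρ; g • y) = ρ g y := rfl

/-- the action on the quotient by a stable submodule: `g • z = N.mapQ N (ρ g) _ z`. -/
@[reducible] noncomputable def quotAction (ρ : G →* End T Y) (N : Submodule T Y)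
    (hN : IsStable ρ N) : DistribMulAction G (Y ⧸ N) where
  smul g z := N.mapQ N (ρ g) (hN g) z
  one_smul z := by
    change N.mapQ N (ρ 1) (hN 1) z = z
    induction z using Submodule.Quotient.induction_on with
    | _ y => rw [Submodule.mapQ_apply, map_one, Module.End.one_apply]
  mul_smul g h z := by
    change N.mapQ N (ρ (g * h)) (hN (g * h)) z =
      N.mapQ N (ρ g) (hN g) (N.mapQ N (ρ h) (hN h) z)
    induction z using Submodule.Quotient.induction_on with
    | _ y => rw [Submodule.mapQ_apply, Submodule.mapQ_apply, Submodule.mapQ_apply, map_mul,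
        Module.End.mul_apply]
  smul_zero g := map_zero (N.mapQ N (ρ g) (hN g))
  smul_add g x y := map_add (N.mapQ N (ρ g) (hN g)) x y

theorem quotAction_smul (ρ : G →* End T Y) (N : Submodule T Y) (hN : IsStable ρ N) (g : G)
    (z : Y ⧸ N) : (letI := quotAction ρ N hN; g • z) = N.mapQ N (ρ g) (hN g) z := rfl

theorem quotAction_smul_mk (ρ : G →* End T Y) (N : Submodule T Y) (hN : IsStable ρ N) (g : G)
    (y : Y) : (letI := quotAction ρ N hN; g • (Submodule.Quotient.mk y : Y ⧸ N)) =
      Submodule.Quotient.mk (ρ g y) := rfl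

end QuotAction

section Level

variable {A : Type} [CommRing A] [IsLocalRing A]

/-- the Galois action on `V ⧸ I V` given by `levelAction`. -/
@[reducible] noncomputable def levelDMA (ρ : GaloisRepAdic A) (I : Ideal A) :
    DistribMulAction (AlgebraicClosure ℚ ≃ₐ[ℚ] AlgebraicClosure ℚ)
      (ρ.V ⧸ (I • (⊤ : Submodule A ρ.V))) :=
  quotAction ρ.ρ (I • ⊤) (isStable_smul_top ρ.ρ I)

theorem levelDMA_smul (ρ : GaloisRepAdic A) (I : Ideal A)
    (σ : AlgebraicClosure ℚ ≃ₐ[ℚ] AlgebraicClosure ℚ) (z : ρ.V ⧸ (I • (⊤ : Submodule A ρ.V))) :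
    (letI := levelDMA ρ I; σ • z) = ρ.levelAction I σ z := rfl

end Level

section Maps

variable {T : Type*} [CommRing T] {V : Type*} [AddCommGroup V] [Module T V]
  {X : Type*} [AddCommGroup X] [Module T X] {G : Type*} [Group G]

/-- `v ↦ (Φ v i mod N)_i`. -/
noncomputable def jMap {m : ℕ} (Φ : V →ₗ[T] (Fin m → X)) (N : Submodule T X) :
    V →+ (Fin m → X ⧸ N) :=
  ((LinearMap.pi fun i => N.mkQ.comp ((LinearMap.proj i).comp Φ) :
    V →ₗ[T] (Fin m → X ⧸ N))).toAddMonoidHom

theorem jMap_apply {m : ℕ} (Φ : V →ₗ[T] (Fin m → X)) (N : Submodule T X) (v : V) (i : Fin m) :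
    jMap Φ N v i = Submodule.Quotient.mk (Φ v i) := rfl

theorem jMap_eq_zero_iff {m : ℕ} (Φ : V →ₗ[T] (Fin m → X)) (N : Submodule T X) (v : V) :
    jMap Φ N v = 0 ↔ ∀ i, Φ v i ∈ N := by
  constructor
  · intro h i
    have := congrFun h i
    rw [jMap_apply, Pi.zero_apply, Submodule.Quotient.mk_eq_zero] at this
    exact this
  · intro h
    funext i
    rw [jMap_apply, Pi.zero_apply, Submodule.Quotient.mk_eq_zero]
    exact h i

/-- equivariance of `jMap`, explicit form. -/
theorem jMap_equivariant {m : ℕ} (ρV : G →* End T V) (ρX : G →* End T X)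
    (Φ : V →ₗ[T] (Fin m → X)) (hΦG : ∀ g v i, Φ (ρV g v) i = ρX g (Φ v i))
    (N : Submodule T X) (hN : IsStable ρX N) (g : G) (v : V) (i : Fin m) :
    jMap Φ N (ρV g v) i = N.mapQ N (ρX g) (hN g) (jMap Φ N v i) := by
  rw [jMap_apply, jMap_apply, Submodule.mapQ_apply, hΦG]

/-- equivariance of `jMap` for the actions `repAction`, `Pi` of `quotAction`. -/
theorem jMap_smul {m : ℕ} (ρV : G →* End T V) (ρX : G →* End T X)
    (Φ : V →ₗ[T] (Fin m → X)) (hΦG : ∀ g v i, Φ (ρV g v) i = ρX g (Φ v i))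
    (N : Submodule T X) (hN : IsStable ρX N) (g : G) (v : V) :
    (letI := repAction ρV; jMap Φ N (g • v)) =
      (letI := quotAction ρX N hN; g • jMap Φ N v) := by
  funext i
  exact jMap_equivariant ρV ρX Φ hΦG N hN g v i

/-- the quotient map `V → V ⧸ I V`. -/
noncomputable def qMap (I : Ideal T) : V →+ V ⧸ (I • (⊤ : Submodule T V)) :=
  (I • (⊤ : Submodule T V)).mkQ.toAddMonoidHom

theorem qMap_apply (I : Ideal T) (v : V) :
    qMap I v = (Submodule.Quotient.mk v : V ⧸ (I • (⊤ : Submodule T V))) := rfl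

theorem qMap_surjective (I : Ideal T) : Function.Surjective (qMap (V := V) I) :=
  Submodule.mkQ_surjective _

theorem qMap_eq_zero_iff (I : Ideal T) (v : V) :
    qMap I v = 0 ↔ v ∈ I • (⊤ : Submodule T V) := by
  rw [qMap_apply, Submodule.Quotient.mk_eq_zero]

theorem qMap_smul (ρV : G →* End T V) (I : Ideal T) (g : G) (v : V) :
    (letI := repAction ρV; qMap I (g • v)) =
      (letI := quotAction ρV (I • ⊤) (isStable_smul_top ρV I); g • qMap I v) := rfl

/-- the `m`-fold product of an additive map. -/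
noncomputable def piMap {P Q : Type*} [AddCommGroup P] [AddCommGroup Q] (f : P →+ Q) (m : ℕ) :
    (Fin m → P) →+ (Fin m → Q) := f.compLeft (Fin m)

theorem piMap_apply {P Q : Type*} [AddCommGroup P] [AddCommGroup Q] (f : P →+ Q) (m : ℕ)
    (x : Fin m → P) (i : Fin m) : piMap f m x i = f (x i) := rfl

theorem piMap_surjective {P Q : Type*} [AddCommGroup P] [AddCommGroup Q] (f : P →+ Q)
    (hf : Function.Surjective f) (m : ℕ) : Function.Surjective (piMap f m) := by
  intro y
  choose x hx using fun i => hf (y i)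
  exact ⟨x, funext hx⟩

theorem piMap_smul {P Q : Type*} [AddCommGroup P] [AddCommGroup Q] [DistribMulAction G P]
    [DistribMulAction G Q] (f : P →+ Q) (hf : ∀ (g : G) (z : P), f (g • z) = g • f z) (m : ℕ)
    (g : G) (x : Fin m → P) : piMap f m (g • x) = g • piMap f m x := by
  funext i
  exact hf g (x i)

end Maps

section Main

variable {T : Type*} [CommRing T] [IsNoetherianRing T] [IsLocalRing T]
  {V : Type*} [AddCommGroup V] [Module T V]
  {X : Type*} [AddCommGroup X] [Module T X] [Module.Finite T X]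

/-- **the subquotient statement**: for `Φ : V ↪ X^m` and `T ⧸ I` finite, for all large `n` the
kernel of `V → (X ⧸ aⁿ X)^m` is contained in `I V`. -/
theorem exists_subquotient {a : T} (ha : a ∈ maximalIdeal T) (I : Ideal T) [Finite (T ⧸ I)]
    {m : ℕ} (Φ : V →ₗ[T] (Fin m → X)) (hΦ : Function.Injective Φ) :
    ∃ n₀ : ℕ, ∀ n, n₀ ≤ n → ∀ v : V,
      jMap Φ (Ideal.span {a ^ n} • (⊤ : Submodule T X)) v = 0 → qMap I v = 0 := by
  obtain ⟨n₀, hn₀⟩ := exists_level_ge ha I Φ hΦ
  refine ⟨n₀, fun n hn v hv => ?_⟩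
  rw [qMap_eq_zero_iff]
  exact hn₀ n hn v ((jMap_eq_zero_iff Φ _ v).mp hv)

end Main

end Fermat.Agent.S32x.Alg7
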