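/-
Programme S32x (S32), chapter R4a(iii) continued (helper7): **the transfer to the finite levels**,
in the literal shapes of `ClosureA.hasHopfOrder_of_subquotient` and `FlatOfOrderA.levelDMA`.

* `levelDMA_eq` : the action `Alg7.levelDMA` is the lead's `FlatOfOrderA.levelDMA` (`rfl`);
* `hasHopfOrder_lvl_of_embedding` : `T` noetherian local, `p ∈ 𝔪_T`, `X` a finitely generated
  `T`-module with a Galois action `ρX`, `Φ : ρ.V ↪ X^m` equivariant.  If every `X ⧸ pⁿ X` is finite and
  carries a Hopf order over `ℤ_(p)`, then so does every finite level `ρ.V ⧸ I ρ.V`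
  (`Finite (T ⧸ I)`), for the action `FlatOfOrderA.levelDMA ρ I`;
* `hasHopfOrder_lvl_of_faithful` : the same starting from a stable, finitely generated, faithful
  submodule `W ≤ X` satisfying the Cayley–Hamilton identity of `MoritaA`.
-/
import Mathlib
import Fermat.Agent.S32x.Alg7C
import Fermat.Agent.S32x.ClosureA
import Fermat.Agent.S32x.FlatOfOrderA
import Fermat.Agent.S32x.MoritaA

set_option autoImplicit false
set_option linter.unusedSectionVars false
set_option linter.style.haveILetI false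

namespace Fermat.Agent.S32x.Alg7

open Module IsLocalRing Fermat.Agent.FF.S19Wire1 Fermat.Agent.S32x.OrdProd2
  Fermat.Agent.S32x.FlatOfOrderA

section Transfer

variable (p : ℕ) [Fact p.Prime] {T : Type} [CommRing T] [IsLocalRing T] [IsNoetherianRing T]
  (ρ : GaloisRepAdic T)
  {X : Type} [AddCommGroup X] [Module T X] [Module.Finite T X] (ρX : GQ →* End T X)

/-- the submodule `pⁿ X`. -/
abbrev pSub (n : ℕ) : Submodule T X := Ideal.span {(p : T) ^ n} • (⊤ : Submodule T X)

/-- the Galois action on `X ⧸ pⁿ X`. -/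
@[reducible] noncomputable def pQuotAction (n : ℕ) :
    DistribMulAction GQ (X ⧸ pSub (T := T) (X := X) p n) :=
  quotAction ρX _ (isStable_smul_top ρX _)

theorem levelDMA_eq (I : Ideal T) :
    Fermat.Agent.S32x.Alg7.levelDMA ρ I = Fermat.Agent.S32x.FlatOfOrderA.levelDMA ρ I := rfl

/-- **transfer to the finite levels from an equivariant embedding `ρ.V ↪ X^m`.** -/
theorem hasHopfOrder_lvl_of_embedding (hpT : (p : T) ∈ maximalIdeal T)
    {m : ℕ} (Φ : ρ.V →ₗ[T] (Fin m → X)) (hΦ : Function.Injective Φ)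
    (hΦG : ∀ (g : GQ) (v : ρ.V) (i : Fin m), Φ (ρ.ρ g v) i = ρX g (Φ v i))
    (hX : ∀ n : ℕ, Finite (X ⧸ pSub (T := T) (X := X) p n) ∧
      (letI := pQuotAction p ρX n
       HasHopfOrder (GaloisRep.ratLocalizedAt p) (AlgebraicClosure ℚ) GQ
        (X ⧸ pSub (T := T) (X := X) p n)))
    (I : Ideal T) [Finite (T ⧸ I)] :
    letI := Fermat.Agent.S32x.FlatOfOrderA.levelDMA ρ I
    HasHopfOrder (GaloisRep.ratLocalizedAt p) (AlgebraicClosure ℚ) GQ (Lvl ρ I) := by
  obtain ⟨n₀, hn₀⟩ := exists_subquotient hpT I Φ hΦ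
  obtain ⟨hfin, hord⟩ := hX n₀
  letI := pQuotAction p ρX n₀
  letI := Fermat.Agent.S32x.FlatOfOrderA.levelDMA ρ I
  letI : DistribMulAction GQ ρ.V := repAction ρ.ρ
  haveI := hfin
  exact Fermat.Agent.S32x.ClosureA.hasHopfOrder_of_subquotient p hord (Fin m)
    (AddMonoidHom.id _) Function.surjective_id (fun _ _ => rfl)
    (jMap Φ (pSub (T := T) (X := X) p n₀))
    (fun σ v => jMap_smul ρ.ρ ρX Φ hΦG _ (isStable_smul_top ρX _) σ v)
    (qMap I) (qMap_surjective I) (fun _ _ => rfl)
    (fun v hv => hn₀ n₀ le_rfl v hv)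

/-- **transfer to the finite levels from a faithful Cayley–Hamilton submodule.** -/
theorem hasHopfOrder_lvl_of_faithful (hpT : (p : T) ∈ maximalIdeal T) (h2 : IsUnit (2 : T))
    (habs : ρ.residual.IsAbsolutelyIrreducible)
    (W : Submodule T X) (hW : ∀ (g : GQ), ∀ w ∈ W, ρX g w ∈ W) [Module.Finite T W]
    (hfaith : ∀ t : T, (∀ w : W, t • w = 0) → t = 0)
    (d : GQ →* T)
    (hCH : ∀ (g : GQ) (w : W), ρX g (w : X) + d g • ρX g⁻¹ (w : X) =
      LinearMap.trace T ρ.V (ρ.ρ g) • (w : X))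
    (hX : ∀ n : ℕ, Finite (X ⧸ pSub (T := T) (X := X) p n) ∧
      (letI := pQuotAction p ρX n
       HasHopfOrder (GaloisRep.ratLocalizedAt p) (AlgebraicClosure ℚ) GQ
        (X ⧸ pSub (T := T) (X := X) p n)))
    (I : Ideal T) [Finite (T ⧸ I)] :
    letI := Fermat.Agent.S32x.FlatOfOrderA.levelDMA ρ I
    HasHopfOrder (GaloisRep.ratLocalizedAt p) (AlgebraicClosure ℚ) GQ (Lvl ρ I) := by
  -- the restricted representation
  let ρW : GQ →* End T W :=
    { toFun := fun g => (ρX g).restrict (hW g)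
      map_one' := by
        refine LinearMap.ext fun w => Subtype.ext ?_
        rw [LinearMap.coe_restrict_apply, map_one]
        rfl
      map_mul' := fun g h => by
        refine LinearMap.ext fun w => Subtype.ext ?_
        rw [LinearMap.coe_restrict_apply, map_mul]
        rfl }
  have hρW : ∀ g (w : W), ((ρW g w : W) : X) = ρX g (w : X) := fun g w => rfl
  have hCH' : ∀ g, ρW g + d g • ρW g⁻¹ = LinearMap.trace T ρ.V (ρ.ρ g) • (1 : End T W) := by
    intro g
    refine LinearMap.ext fun w => Subtype.ext ?_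
    rw [LinearMap.add_apply, LinearMap.smul_apply, LinearMap.smul_apply, Module.End.one_apply,
      Submodule.coe_add, Submodule.coe_smul, Submodule.coe_smul, hρW, hρW]
    exact hCH g w
  obtain ⟨m, Φ', hΦ', hΦ'G⟩ := Fermat.Agent.S32x.MoritaA.exists_embedding_of_basis
    (basisV ρ) ρ.ρ (span_range_rho_eq_top ρ habs) (ρW := ρW) (d := d) hCH' h2 hfaith
  let Φ : ρ.V →ₗ[T] (Fin m → X) := (LinearMap.pi fun i => W.subtype.comp (LinearMap.proj i)).comp Φ'
  have hΦapp : ∀ v i, Φ v i = ((Φ' v i : W) : X) := fun v i => rfl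
  have hΦ : Function.Injective Φ := by
    intro v v' hvv'
    apply hΦ'
    funext i
    apply Subtype.ext
    have := congrFun hvv' i
    rwa [hΦapp, hΦapp] at this
  have hΦG : ∀ (g : GQ) (v : ρ.V) (i : Fin m), Φ (ρ.ρ g v) i = ρX g (Φ v i) := by
    intro g v i
    rw [hΦapp, hΦapp, hΦ'G, hρW]
  exact hasHopfOrder_lvl_of_embedding p ρ ρX hpT Φ hΦ hΦG hX I

end Transfer

end Fermat.Agent.S32x.Alg7
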