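/-
Programme S32x (S32), chapter R4a(ii), element form (helper7): the Artin–Rees hypothesis `hAR` of
`Assembly2.s32_of_chapters` / `Assembly2.isFlatAt_of_chapters`, verbatim.
-/
import Mathlib
import Fermat.Agent.S32x.Alg7B

set_option autoImplicit false
set_option linter.unusedSectionVars false

namespace Fermat.Agent.S32x.Alg7

open Module IsLocalRing Pointwise

/-- **`hAR`, element form**: `T` noetherian local, `a ∈ 𝔪_T`, `X` finitely generated. -/
theorem hAR_of_mem {T : Type*} [CommRing T] [IsNoetherianRing T] [IsLocalRing T]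
    {V : Type*} [AddCommGroup V] [Module T V]
    {X : Type*} [AddCommGroup X] [Module T X] [Module.Finite T X]
    {a : T} (ha : a ∈ maximalIdeal T) :
    ∀ (m : ℕ) (Φ : V →ₗ[T] (Fin m → X)), Function.Injective Φ →
      ∀ I : Ideal T, Finite (T ⧸ I) → ∃ k : ℕ, ∀ v : V,
        (∀ i, ∃ x : X, Φ v i = (a ^ k) • x) → v ∈ I • (⊤ : Submodule T V) := by
  intro m Φ hΦ I hI
  obtain ⟨k, hk⟩ := exists_level ha I Φ hΦ
  refine ⟨k, fun v hv => hk v fun i => ?_⟩
  obtain ⟨x, hx⟩ := hv i
  exact ⟨x, Submodule.mem_top, hx.symm⟩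

/-- **`hAR` for `a = p`**, in the literal shape of `Assembly2.s32_of_chapters`. -/
theorem hAR_natCast {T : Type*} [CommRing T] [IsNoetherianRing T] [IsLocalRing T]
    {V : Type*} [AddCommGroup V] [Module T V]
    {X : Type*} [AddCommGroup X] [Module T X] [Module.Finite T X]
    {p : ℕ} (hpT : (p : T) ∈ maximalIdeal T) :
    ∀ (m : ℕ) (Φ : V →ₗ[T] (Fin m → X)), Function.Injective Φ →
      ∀ I : Ideal T, Finite (T ⧸ I) → ∃ k : ℕ, ∀ v : V,
        (∀ i, ∃ x : X, Φ v i = ((p : T) ^ k) • x) → v ∈ I • (⊤ : Submodule T V) :=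
  hAR_of_mem hpT

end Fermat.Agent.S32x.Alg7
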