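/-
Programme S32x (S32), chapter R5 (helper2): **the final instantiation.**

`Assembly2.s32_of_chapters` with `Xm := XT p N T = T ⊗[ℤ_[p]] TJ p N`, `W' := eigenW p H`,
`ρW := rhoW p H`, `d := dT p T` (helper5, `EigenW5A`), the algebraic inputs and the Artin–Rees step
of helper7 (`Alg7A/B`) discharged.  What is left as hypotheses: the orders on `J₀(N)[p^n]` (R0), the
transfer to the finite levels of `XT` (R3c), the faithfulness of `eigenW` (R3b) and the
Cayley–Hamilton identity on `eigenW` (R3a).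
-/
import Mathlib
import Fermat.Agent.S32x.Assembly2
import Fermat.Agent.S32x.EigenW5A
import Fermat.Agent.S32x.Alg7B
import Fermat.Agent.ES.KUM.FiniteTorsion15

set_option autoImplicit false
set_option linter.style.haveILetI false
set_option linter.unusedSectionVars false
set_option synthInstance.maxHeartbeats 400000

namespace Fermat.Agent.S32x.Final2

open Fermat.Agent.FF.S19Wire1 Fermat.Agent.S32x.OrdProd2 Fermat.Agent.S32x.EigenW5A
open Fermat.Agent.S32x.Assembly2 ModularCurve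

variable {p : ℕ} {N : ℕ} [NeZero N] {S : Finset ℕ}
  {𝒪 : Type} [CommRing 𝒪] [IsDomain 𝒪] [IsDiscreteValuationRing 𝒪]
  [IsAdicComplete (IsLocalRing.maximalIdeal 𝒪) 𝒪]
  {θ : CuspForm.heckeAlgebra N 2 (↑S : Set ℕ) →+* IsLocalRing.ResidueField 𝒪}
  {T : Type} [CommRing T] [IsLocalRing T] [IsNoetherianRing T]
  [IsAdicComplete (IsLocalRing.maximalIdeal T) T] [Algebra 𝒪 T] [IsLocalHom (algebraMap 𝒪 T)]
  [Module.Finite 𝒪 T] [Module.Free 𝒪 T]

/-- `J₀(N)[p]` is finite. -/
theorem finite_p_torsion (hp : p ≠ 0) : {y : JZero N | p • y = 0}.Finite := by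
  haveI : NeZero p := ⟨hp⟩
  exact Fermat.Agent.ES.KUM.FiniteTorsion15.finite_setOf_nsmul_eq_zero N p

/-- **S32 from the four remaining inputs** (for an arbitrary `ℤ_[p]`-algebra structure on `T`; in
the application `PadicAlg8.padicAlgebra p (maximalIdeal T) hpT`). -/
theorem s32_of_inputs [Finite (IsLocalRing.ResidueField 𝒪)] [CharZero 𝒪] [Fact p.Prime]
    [Algebra ℤ_[p] T] (hp2 : p ≠ 2) (hp𝒪 : (p : 𝒪) ∈ IsLocalRing.maximalIdeal 𝒪)
    (H : CuspForm.HeckeGaloisRepDatum N (↑S : Set ℕ) 𝒪 θ T)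
    -- R0: orders on the torsion of `J₀(N)`
    (hR0 : ∀ n : ℕ, HasHopfOrder (GaloisRep.ratLocalizedAt p) (AlgebraicClosure ℚ) GQ
      (Tors N p n))
    -- R3c: transfer to the finite levels of `XT`
    (hB : ∀ (n : ℕ) (Q : Type) [AddCommGroup Q] [DistribMulAction GQ Q] (π : XT p N T →+ Q),
      Function.Surjective π → (∀ x : XT p N T, π (((p : T) ^ n) • x) = 0) →
      (∀ (σ : GQ) (x : XT p N T), π (rhoX p N T σ x) = σ • π x) →
      HasHopfOrder (GaloisRep.ratLocalizedAt p) (AlgebraicClosure ℚ) GQ (Tors N p n) →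
      HasHopfOrder (GaloisRep.ratLocalizedAt p) (AlgebraicClosure ℚ) GQ Q)
    -- R3b: faithfulness
    (hfaith : ∀ t : T, (∀ w : eigenW p H, t • w = 0) → t = 0)
    -- R3a: Cayley–Hamilton
    (hCH : ∀ g : GQ, rhoW p H g + dT p T g • rhoW p H g⁻¹ =
      LinearMap.trace T H.ρ.V (H.ρ.ρ g) • (1 : Module.End T (eigenW p H))) :
    H.ρ.IsFlatAt p := by
  have hp : p.Prime := Fact.out
  have hfin : {y : JZero N | p • y = 0}.Finite := finite_p_torsion hp.ne_zero
  haveI : Module.Finite T (XT p N T) := finite_XT p N T hfin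
  haveI : Module.Finite T (eigenW p H) := finite_eigenW p H hfin
  obtain ⟨hspan, h2, hpT⟩ := Alg7.datum_inputs hp hp2 hp𝒪 H
  refine s32_of_chapters H (Xm := XT p N T) (rhoX p N T)
    (fun k Q _ _ π hπ hπk hπΓ => hB k Q π hπ hπk hπΓ (hR0 k))
    (eigenW p H) (rhoW p H) (fun σ w => coe_rhoW_apply p H σ w) hfaith (dT p T) hCH
    (Alg7.basisV H.ρ) hspan h2 ?_
  intro m Φ hΦ I hI
  obtain ⟨n, hn⟩ := Alg7.exists_level hpT I Φ hΦ
  refine ⟨n, fun v hv => hn v fun i => ?_⟩
  obtain ⟨x, hx⟩ := hv i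
  rw [hx]
  exact Submodule.smul_mem_pointwise_smul x _ ⊤ Submodule.mem_top

end Fermat.Agent.S32x.Final2
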