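/-
Programme S32x (S32), chapter R3c, the consumer form (helper3): **a Hopf order on
`X ⧸ p ^ n X`**, `X = XT p N T = T ⊗[ℤ_[p]] T_p J₀(N)` (helper5 `EigenW5A`), with the action
`Alg7.quotAction (EigenW5A.rhoX p N T) (Ideal.span {p ^ n} • ⊤) _` (helper7 `Alg7C`), from a Hopf order on
`J₀(N)[p ^ n]`; and the same for the datum `(𝒪, T)` of S32 without the hypothesis on representatives.
-/
import Mathlib
import Fermat.Agent.S32x.Level3B
import Fermat.Agent.S32x.Level3C
import Fermat.Agent.S32x.EigenW5A
import Fermat.Agent.S32x.Alg7C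

set_option autoImplicit false
set_option linter.unusedSectionVars false
set_option linter.style.haveILetI false
set_option synthInstance.maxHeartbeats 400000

noncomputable section

open TensorProduct ModularCurve IsLocalRing

namespace Fermat.Agent.S32x.Level3

open Fermat.Agent.ES.J.TateModule13 Fermat.Agent.ES.J.TateJZero13 Fermat.Agent.FF.S19Wire1
  Fermat.Agent.S32x.OrdProd2 Fermat.Agent.S32x.EigenW5A Fermat.Agent.S32x.Alg7

variable (p : ℕ) [hp : Fact p.Prime] (N : ℕ) [NeZero N]
variable (T : Type) [CommRing T] [Algebra ℤ_[p] T]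

/-- the submodule `p ^ n X`. -/
abbrev levelSub (n : ℕ) : Submodule T (XT p N T) :=
  Ideal.span {(p : T) ^ n} • (⊤ : Submodule T (XT p N T))

/-- **a Hopf order on `X ⧸ p ^ n X`** from a Hopf order on `J₀(N)[p ^ n]`, given representatives of
`T` modulo `p ^ n`. -/
theorem hasHopfOrder_level (n : ℕ) {r : ℕ} (t : Fin r → T)
    (ht : ∀ s : T, ∃ (i : Fin r) (s' : T), s = t i + (p : T) ^ n * s')
    (h : HasHopfOrder (GaloisRep.ratLocalizedAt p) (AlgebraicClosure ℚ) GQ (Tors N p n)) :
    letI := quotAction (EigenW5A.rhoX p N T) (levelSub p N T n) (isStable_span_smul_top (EigenW5A.rhoX p N T) _)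
    HasHopfOrder (GaloisRep.ratLocalizedAt p) (AlgebraicClosure ℚ) GQ
      (XT p N T ⧸ levelSub p N T n) := by
  letI := quotAction (EigenW5A.rhoX p N T) (levelSub p N T n) (isStable_span_smul_top (EigenW5A.rhoX p N T) _)
  refine hasHopfOrder_of_tors p N n t ht (levelSub p N T n).mkQ.toAddMonoidHom
    (Submodule.mkQ_surjective _) (fun x => ?_) (fun σ x => rfl) h
  show (levelSub p N T n).mkQ (((p : T) ^ n) • x) = 0
  rw [Submodule.mkQ_apply, Submodule.Quotient.mk_eq_zero]
  exact Submodule.smul_mem_smul (Ideal.mem_span_singleton_self _) Submodule.mem_top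

/-- **the same for a finite algebra over a discrete valuation ring** of characteristic zero with
finite residue field (the datum of S32): no hypothesis on representatives. -/
theorem hasHopfOrder_level_of_finite (𝒪 : Type*) [CommRing 𝒪] [IsDomain 𝒪]
    [IsDiscreteValuationRing 𝒪] [Finite (ResidueField 𝒪)] [CharZero 𝒪] [Algebra 𝒪 T]
    [Module.Finite 𝒪 T] (n : ℕ)
    (h : HasHopfOrder (GaloisRep.ratLocalizedAt p) (AlgebraicClosure ℚ) GQ (Tors N p n)) :
    letI := quotAction (EigenW5A.rhoX p N T) (levelSub p N T n) (isStable_span_smul_top (EigenW5A.rhoX p N T) _)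
    HasHopfOrder (GaloisRep.ratLocalizedAt p) (AlgebraicClosure ℚ) GQ
      (XT p N T ⧸ levelSub p N T n) := by
  obtain ⟨r, t, ht⟩ := exists_reps 𝒪 T hp.out.ne_zero n
  exact hasHopfOrder_level p N T n t ht h

end Fermat.Agent.S32x.Level3
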