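/-
Programme S32x (S32), chapter R3c, the `hlevel` form (helper3): the hypothesis `hlevel` of
`Final1.isFlatAt_of_level` / `Final1.s32_of_level` (helper1), literally, from a Hopf order on
`J₀(N)[p ^ k]` for every `k` (chapter R0, `FF/OrderForm8.exists_isHopfOrder N p hpN k`).
-/
import Mathlib
import Fermat.Agent.S32x.Level3B
import Fermat.Agent.S32x.Level3C
import Fermat.Agent.S32x.EigenW5A
import Fermat.Agent.ES.J.PadicAlg8

set_option autoImplicit false
set_option linter.unusedSectionVars false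
set_option linter.style.haveILetI false
set_option synthInstance.maxHeartbeats 400000

noncomputable section

open TensorProduct ModularCurve IsLocalRing

namespace Fermat.Agent.S32x.Level3

open Fermat.Agent.ES.J.TateModule13 Fermat.Agent.ES.J.TateJZero13 Fermat.Agent.FF.S19Wire1
  Fermat.Agent.S32x.OrdProd2 Fermat.Agent.S32x.EigenW5A

variable {p : ℕ} [hp : Fact p.Prime] {N : ℕ} [NeZero N]
variable {𝒪 : Type*} [CommRing 𝒪] [IsDomain 𝒪] [IsDiscreteValuationRing 𝒪]
  [Finite (ResidueField 𝒪)] [CharZero 𝒪]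
variable {T : Type} [CommRing T] [Algebra 𝒪 T] [Module.Finite 𝒪 T]

/-- **`hlevel` for a generic `ℤ_[p]`-algebra structure on `T`.** -/
theorem hlevel_of_orders [Algebra ℤ_[p] T] (𝒪 : Type*) [CommRing 𝒪] [IsDomain 𝒪]
    [IsDiscreteValuationRing 𝒪] [Finite (ResidueField 𝒪)] [CharZero 𝒪] [Algebra 𝒪 T]
    [Module.Finite 𝒪 T]
    (h : ∀ k : ℕ, HasHopfOrder (GaloisRep.ratLocalizedAt p) (AlgebraicClosure ℚ) GQ (Tors N p k))
    (k : ℕ) (Q : Type) [AddCommGroup Q] [DistribMulAction GQ Q]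
    (π : XT p N T →+ Q) (hπ : Function.Surjective π)
    (hπp : ∀ x : XT p N T, π (((p : T) ^ k) • x) = 0)
    (hπG : ∀ (σ : GQ) (x : XT p N T), π (EigenW5A.rhoX p N T σ x) = σ • π x) :
    HasHopfOrder (GaloisRep.ratLocalizedAt p) (AlgebraicClosure ℚ) GQ Q := by
  obtain ⟨r, t, ht⟩ := exists_reps 𝒪 T hp.out.ne_zero k
  exact hasHopfOrder_of_tors p N k t ht π hπ hπp (fun σ x => hπG σ x) (h k)

/-- **`hlevel` of `Final1.s32_of_level`, literally** (the `ℤ_[p]`-algebra structure is the canonical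
one of the complete local ring `T`). -/
theorem hlevel_padic (𝒪 : Type*) [CommRing 𝒪] [IsDomain 𝒪]
    [IsDiscreteValuationRing 𝒪] [Finite (ResidueField 𝒪)] [CharZero 𝒪] [Algebra 𝒪 T]
    [Module.Finite 𝒪 T] [IsLocalRing T] [IsAdicComplete (maximalIdeal T) T]
    (h : ∀ k : ℕ, HasHopfOrder (GaloisRep.ratLocalizedAt p) (AlgebraicClosure ℚ) GQ (Tors N p k))
    (hpT : (p : T) ∈ maximalIdeal T) :
    letI : Algebra ℤ_[p] T :=
      Fermat.Agent.ES.J.PadicAlg8.padicAlgebra p (maximalIdeal T) hpT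
    ∀ (k : ℕ) (Q : Type) [AddCommGroup Q] [DistribMulAction GQ Q]
      (π : XT p N T →+ Q), Function.Surjective π → (∀ x : XT p N T, π (((p : T) ^ k) • x) = 0) →
      (∀ (σ : GQ) (x : XT p N T), π (EigenW5A.rhoX p N T σ x) = σ • π x) →
      HasHopfOrder (GaloisRep.ratLocalizedAt p) (AlgebraicClosure ℚ) GQ Q := by
  letI : Algebra ℤ_[p] T :=
    Fermat.Agent.ES.J.PadicAlg8.padicAlgebra p (maximalIdeal T) hpT
  intro k Q _ _ π hπ hπp hπG
  exact hlevel_of_orders 𝒪 h k Q π hπ hπp hπG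

end Fermat.Agent.S32x.Level3
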