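/-
S32 preparation, chapter R2 (helper5): **rank-two Cayley–Hamilton subalgebras** (Carayol / BLR).

`T` a commutative ring, `V` a free `T`-module of rank two (basis `b`), `W` any `T`-module,
`P = End_T V × End_T W`, `tr1 (a, w) = trace a`.  A subalgebra `E ⊆ P` satisfies `PolCH` if the
polarised Cayley–Hamilton identity
  `x y + y x - tr(y) x - tr(x) y + (tr(x) tr(y) - tr(x y)) = 0`
holds on `E` (it always holds in the first component).  If moreover `E` projects ONTO `End_T V` and
contains an idempotent `ε` with `tr ε = 1` (then `tr (1 - ε) = 1` too), then the first projection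
`E → End_T V` is injective (`eq_zero_of_fst_eq_zero`), hence there is an algebra homomorphism
`Φ : End_T V → End_T W` with `(a, Φ a) ∈ E` for all `a` (`exists_algHom`).
-/
import Mathlib

set_option autoImplicit false

namespace Fermat.Agent.S32x.RankTwo5

variable {T : Type*} [CommRing T]
variable {V W : Type*} [AddCommGroup V] [Module T V] [AddCommGroup W] [Module T W]

/-- the trace of the first component. -/
noncomputable def tr1 : (Module.End T V × Module.End T W) →ₗ[T] T :=
  (LinearMap.trace T V).comp (LinearMap.fst T (Module.End T V) (Module.End T W))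

theorem tr1_apply (x : Module.End T V × Module.End T W) : tr1 x = LinearMap.trace T V x.1 := rfl

theorem tr1_mul_comm (x y : Module.End T V × Module.End T W) : tr1 (x * y) = tr1 (y * x) := by
  rw [tr1_apply, tr1_apply, Prod.fst_mul, Prod.fst_mul, LinearMap.trace_mul_comm]

theorem tr1_eq_zero_of_fst {x : Module.End T V × Module.End T W} (h : x.1 = 0) : tr1 x = 0 := by
  rw [tr1_apply, h, map_zero]

/-- the polarised Cayley–Hamilton expression. -/
noncomputable def polF (x y : Module.End T V × Module.End T W) :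
    Module.End T V × Module.End T W :=
  x * y + y * x - tr1 y • x - tr1 x • y + (tr1 x * tr1 y - tr1 (x * y)) • 1

theorem polF_add_left (x x' y : Module.End T V × Module.End T W) :
    polF (x + x') y = polF x y + polF x' y := by
  unfold polF
  simp only [add_mul, mul_add, map_add, add_smul, smul_add, sub_smul]
  abel

theorem polF_smul_left (s : T) (x y : Module.End T V × Module.End T W) :
    polF (s • x) y = s • polF x y := by
  unfold polF
  simp only [smul_mul_assoc, mul_smul_comm, map_smul, smul_eq_mul, smul_add, smul_sub, smul_smul,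
    mul_sub, mul_assoc]
  rw [mul_comm (tr1 y) s]

theorem polF_comm (x y : Module.End T V × Module.End T W) : polF x y = polF y x := by
  unfold polF
  rw [tr1_mul_comm x y, mul_comm (tr1 x) (tr1 y)]
  abel

theorem polF_add_right (x y y' : Module.End T V × Module.End T W) :
    polF x (y + y') = polF x y + polF x y' := by
  rw [polF_comm, polF_add_left, polF_comm y, polF_comm y']

theorem polF_smul_right (s : T) (x y : Module.End T V × Module.End T W) :
    polF x (s • y) = s • polF x y := by
  rw [polF_comm, polF_smul_left, polF_comm]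

/-- the polarised Cayley–Hamilton identity on a set. -/
def PolCH (E : Subalgebra T (Module.End T V × Module.End T W)) : Prop :=
  ∀ x ∈ E, ∀ y ∈ E, polF x y = 0

section Peirce

variable {E : Subalgebra T (Module.End T V × Module.End T W)} (hE : PolCH E)

include hE in
/-- **Peirce corner**: `ε E ε = T ε` for an idempotent `ε` of trace one. -/
theorem corner {ε : Module.End T V × Module.End T W} (hε : ε ∈ E) (hεε : ε * ε = ε)
    (hτ : tr1 ε = 1) {z : Module.End T V × Module.End T W} (hz : z ∈ E) :
    ε * z * ε = tr1 (ε * z) • ε := by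
  have hx : ε * z * ε ∈ E := E.mul_mem (E.mul_mem hε hz) hε
  have h := hE _ hx _ hε
  unfold polF at h
  have h1 : ε * z * ε * ε = ε * z * ε := by rw [mul_assoc, hεε]
  have h2 : ε * (ε * z * ε) = ε * z * ε := by rw [← mul_assoc, ← mul_assoc, hεε]
  have h3 : tr1 (ε * z * ε) = tr1 (ε * z) := by
    rw [tr1_mul_comm, ← mul_assoc, hεε]
  rw [h1, h2, hτ, h3, one_smul, mul_one, sub_self, zero_smul, add_zero] at h
  have h4 : ε * z * ε + ε * z * ε - ε * z * ε - tr1 (ε * z) • ε = ε * z * ε - tr1 (ε * z) • ε := by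
    abel
  rw [h4, sub_eq_zero] at h
  exact h

end Peirce

section Units

variable (b : Module.Basis (Fin 2) T V)

/-- the matrix units of `End_T V` with respect to the basis `b`. -/
noncomputable def unitEnd (k l : Fin 2) : Module.End T V :=
  (LinearMap.toMatrixAlgEquiv b).symm (Matrix.single k l (1 : T))

theorem matrix_sum_single (m : Matrix (Fin 2) (Fin 2) T) :
    ∑ k : Fin 2, ∑ l : Fin 2, Matrix.single k l (1 : T) * m * Matrix.single l k (1 : T) =
      Matrix.trace m • (1 : Matrix (Fin 2) (Fin 2) T) := by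
  ext i j
  fin_cases i <;> fin_cases j <;> simp [Fin.sum_univ_two, Matrix.trace]

/-- `∑_{k,l} E_{kl} a E_{lk} = tr(a)`. -/
theorem sum_unitEnd (a : Module.End T V) :
    ∑ k : Fin 2, ∑ l : Fin 2, unitEnd b k l * a * unitEnd b l k =
      LinearMap.trace T V a • (1 : Module.End T V) := by
  apply (LinearMap.toMatrixAlgEquiv b).injective
  rw [map_sum]
  simp only [map_sum, map_mul, map_smul, map_one, unitEnd, AlgEquiv.apply_symm_apply]
  rw [matrix_sum_single, LinearMap.trace_eq_matrix_trace T b]
  rfl

end Units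

section Kernel

variable (b : Module.Basis (Fin 2) T V)
variable {E : Subalgebra T (Module.End T V × Module.End T W)} (hE : PolCH E)
variable (hsurj : ∀ a : Module.End T V, ∃ z ∈ E, z.1 = a)

include b hE hsurj in
/-- the off-diagonal Peirce component of an element with vanishing first component vanishes. -/
theorem off_diag_eq_zero {ε φ : Module.End T V × Module.End T W} (hε : ε ∈ E) (hφ : φ ∈ E)
    (hεε : ε * ε = ε) (hφφ : φ * φ = φ) (hτε : tr1 ε = 1) (hτφ : tr1 φ = 1)
    {z : Module.End T V × Module.End T W} (hz : z ∈ E) (hz1 : z.1 = 0) :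
    ε * z * φ = 0 := by
  -- lifts of the matrix units
  choose Y hYE hY1 using fun kl : Fin 2 × Fin 2 => hsurj (unitEnd b kl.1 kl.2)
  set u : Module.End T V × Module.End T W :=
    ∑ k : Fin 2, ∑ l : Fin 2, Y (k, l) * ε * Y (l, k) with hu
  have huE : u ∈ E := by
    refine E.sum_mem fun k _ => E.sum_mem fun l _ => ?_
    exact E.mul_mem (E.mul_mem (hYE _) hε) (hYE _)
  have hu1 : u.1 = 1 := by
    rw [hu, Prod.fst_sum]
    simp only [Prod.fst_sum, Prod.fst_mul, hY1]
    rw [sum_unitEnd b ε.1, ← tr1_apply, hτε, one_smul]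
  -- `φ = φ u φ`
  have hφu : φ * u * φ = φ := by
    rw [corner hE hφ hφφ hτφ huE]
    have : tr1 (φ * u) = 1 := by
      rw [tr1_apply, Prod.fst_mul, hu1, mul_one, ← tr1_apply, hτφ]
    rw [this, one_smul]
  -- `ε z φ · φ y ε = 0` for all `y ∈ E`
  have hkill : ∀ y ∈ E, ε * z * φ * (φ * y * ε) = 0 := by
    intro y hy
    have h1 : ε * z * φ * (φ * y * ε) = ε * (z * φ * y) * ε := by
      simp only [mul_assoc]
      rw [← mul_assoc φ φ, hφφ]
    rw [h1, corner hE hε hεε hτε (E.mul_mem (E.mul_mem hz hφ) hy)]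
    have : tr1 (ε * (z * φ * y)) = 0 := by
      apply tr1_eq_zero_of_fst
      simp only [Prod.fst_mul, hz1, zero_mul, mul_zero]
    rw [this, zero_smul]
  -- conclude
  have h2 : ε * z * φ = ε * z * φ * (φ * u * φ) := by rw [hφu, mul_assoc (ε * z), hφφ]
  rw [h2, hu, Finset.mul_sum, Finset.sum_mul, Finset.mul_sum]
  refine Finset.sum_eq_zero fun k _ => ?_
  rw [Finset.mul_sum, Finset.sum_mul, Finset.mul_sum]
  refine Finset.sum_eq_zero fun l _ => ?_
  have h3 : ε * z * φ * (φ * (Y (k, l) * ε * Y (l, k)) * φ) =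
      ε * z * φ * (φ * Y (k, l) * ε) * (Y (l, k) * φ) := by
    simp only [mul_assoc]
  rw [h3, hkill _ (hYE _), zero_mul]

include b hE hsurj in
/-- **the first projection is injective on `E`.** -/
theorem eq_zero_of_fst_eq_zero {ε : Module.End T V × Module.End T W} (hε : ε ∈ E)
    (hεε : ε * ε = ε) (hτε : tr1 ε = 1) (hτ1 : tr1 (1 : Module.End T V × Module.End T W) = 2)
    {z : Module.End T V × Module.End T W} (hz : z ∈ E) (hz1 : z.1 = 0) : z = 0 := by
  set φ : Module.End T V × Module.End T W := 1 - ε with hφdef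
  have hφ : φ ∈ E := E.sub_mem E.one_mem hε
  have hφφ : φ * φ = φ := by
    rw [hφdef, sub_mul, mul_sub, mul_sub, one_mul, mul_one, one_mul, hεε, sub_self, sub_zero]
  have hτφ : tr1 φ = 1 := by
    rw [hφdef, map_sub, hτ1, hτε]
    norm_num
  have h11 : ε * z * ε = 0 := by
    rw [corner hE hε hεε hτε hz]
    have : tr1 (ε * z) = 0 := tr1_eq_zero_of_fst (by rw [Prod.fst_mul, hz1, mul_zero])
    rw [this, zero_smul]
  have h22 : φ * z * φ = 0 := by
    rw [corner hE hφ hφφ hτφ hz]
    have : tr1 (φ * z) = 0 := tr1_eq_zero_of_fst (by rw [Prod.fst_mul, hz1, mul_zero])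
    rw [this, zero_smul]
  have h12 := off_diag_eq_zero b hE hsurj hε hφ hεε hφφ hτε hτφ hz hz1
  have h21 := off_diag_eq_zero b hE hsurj hφ hε hφφ hεε hτφ hτε hz hz1
  have hsum : ε + φ = 1 := by rw [hφdef]; abel
  calc z = (ε + φ) * z * (ε + φ) := by rw [hsum, one_mul, mul_one]
    _ = ε * z * ε + ε * z * φ + (φ * z * ε + φ * z * φ) := by
        simp only [add_mul, mul_add]
        abel
    _ = 0 := by rw [h11, h12, h21, h22]; simp

include b hE hsurj in
/-- **the algebra homomorphism `End_T V → End_T W` cut out by `E`.** -/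
theorem exists_algHom {ε : Module.End T V × Module.End T W} (hε : ε ∈ E)
    (hεε : ε * ε = ε) (hτε : tr1 ε = 1) (hτ1 : tr1 (1 : Module.End T V × Module.End T W) = 2) :
    ∃ Φ : Module.End T V →ₐ[T] Module.End T W, ∀ z ∈ E, Φ z.1 = z.2 := by
  set π₁ : E →ₐ[T] Module.End T V :=
    (AlgHom.fst T (Module.End T V) (Module.End T W)).comp E.val with hπ₁
  have hπ₁app : ∀ z : E, π₁ z = (z : Module.End T V × Module.End T W).1 := fun z => rfl
  have hinj : Function.Injective π₁ := by
    rw [injective_iff_map_eq_zero]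
    intro z hz
    rw [hπ₁app] at hz
    exact Subtype.ext (eq_zero_of_fst_eq_zero b hE hsurj hε hεε hτε hτ1 z.2 hz)
  have hsur : Function.Surjective π₁ := by
    intro a
    obtain ⟨z, hz, hza⟩ := hsurj a
    exact ⟨⟨z, hz⟩, hza⟩
  set e : E ≃ₐ[T] Module.End T V := AlgEquiv.ofBijective π₁ ⟨hinj, hsur⟩ with he
  refine ⟨((AlgHom.snd T (Module.End T V) (Module.End T W)).comp E.val).comp
    (e.symm : Module.End T V →ₐ[T] E), fun z hz => ?_⟩
  have h1 : e ⟨z, hz⟩ = z.1 := rfl
  have h2 : e.symm z.1 = ⟨z, hz⟩ := by rw [← h1, AlgEquiv.symm_apply_apply]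
  show ((e.symm z.1 : E) : Module.End T V × Module.End T W).2 = z.2
  rw [h2]

end Kernel

end Fermat.Agent.S32x.RankTwo5
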