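/-
S32 preparation, chapter R2 (helper5), part B: **the group case and the embedding.**

* `pol_of_pseudo` : a representation `r` of a group with `r g + d g • r g⁻¹ = t g • 1` (`d`
  multiplicative) satisfies the polarised identity
  `r g r k + r k r g - t k r g - t g r k + (t g t k - t (g k)) = 0`;
* `exists_algHom_of_pseudoChar` (**R2a**) : `V` free of rank two, `ρV`, `ρW` representations of `G`
  on `V`, `W` with the same pseudo-character `(t, d)`, `t = tr ρV`, an element `c` with `c² = 1`,
  `d c = -1`, `2` invertible, and `ρV(G)` spanning `End_T V`.  Then there is an algebra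
  homomorphism `Φ : End_T V → End_T W` with `Φ (ρV g) = ρW g`: the kernel of `T[G] → End_T V`
  kills `W`;
* `exists_equivariant_embedding` (**R2b**) : for any algebra homomorphism
  `Φ : End_T V → End_T W` with `W` finitely generated and faithful there are `r` and an injective
  `T`-linear `j : V → W^r` with `j (a v) = Φ a (j v)` componentwise;
* `exists_equivariant_embedding_of_pseudoChar` : both together, `j (ρV g v) i = ρW g (j v i)`.
-/
import Mathlib
import Fermat.Agent.S32x.RankTwo5A

set_option autoImplicit false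

namespace Fermat.Agent.S32x.RankTwo5

variable {T : Type*} [CommRing T]
variable {V W : Type*} [AddCommGroup V] [Module T V] [AddCommGroup W] [Module T W]
variable {G : Type*} [Group G]

section Pol

/-- the polarised identity from the pseudo-character relation. -/
theorem pol_of_pseudo {M : Type*} [AddCommGroup M] [Module T M] (r : G →* Module.End T M)
    (t d : G → T) (hd : ∀ g h, d (g * h) = d g * d h)
    (h : ∀ g, r g + d g • r g⁻¹ = t g • 1) (g k : G) :
    r g * r k + r k * r g - t k • r g - t g • r k + (t g * t k - t (g * k)) • 1 = 0 := by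
  have e : ∀ g, d g • r g⁻¹ = t g • 1 - r g := fun g => eq_sub_of_add_eq' (h g)
  have key : (t k • (1 : Module.End T M) - r k) * (t g • 1 - r g) = t (g * k) • 1 - r g * r k := by
    rw [← e k, ← e g, smul_mul_assoc, mul_smul_comm, smul_smul, ← map_mul, ← mul_inv_rev,
      mul_comm (d k) (d g), ← hd, e, map_mul]
  have expand : (t k • (1 : Module.End T M) - r k) * (t g • 1 - r g) =
      (t g * t k) • 1 - t k • r g - t g • r k + r k * r g := by
    simp only [sub_mul, mul_sub, smul_mul_assoc, mul_smul_comm, one_mul, mul_one, smul_smul,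
      smul_sub]
    abel
  rw [expand] at key
  have : r g * r k + r k * r g - t k • r g - t g • r k + (t g * t k - t (g * k)) • 1 =
      ((t g * t k) • 1 - t k • r g - t g • r k + r k * r g) - (t (g * k) • 1 - r g * r k) := by
    rw [sub_smul]
    abel
  rw [this, key, sub_self]

end Pol

section Group

variable (ρV : G →* Module.End T V) (ρW : G →* Module.End T W)

/-- the image of the group algebra in `End_T V × End_T W`. -/
noncomputable def grpAlg : Subalgebra T (Module.End T V × Module.End T W) :=
  (MonoidAlgebra.lift T (Module.End T V × Module.End T W) G (ρV.prod ρW)).range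

theorem rho_mem_grpAlg (g : G) : (ρV g, ρW g) ∈ grpAlg ρV ρW :=
  (AlgHom.mem_range _).2 ⟨MonoidAlgebra.of T G g, by rw [MonoidAlgebra.lift_of]; rfl⟩

variable (t d : G → T) (hd : ∀ g h, d (g * h) = d g * d h)
variable (hV : ∀ g, ρV g + d g • ρV g⁻¹ = t g • 1) (hW : ∀ g, ρW g + d g • ρW g⁻¹ = t g • 1)
variable (htr : ∀ g, LinearMap.trace T V (ρV g) = t g)

include hd hV hW htr in
/-- the polarised Cayley–Hamilton identity on the image of the group algebra. -/
theorem polCH_grpAlg : PolCH (grpAlg ρV ρW) := by
  have base : ∀ g k : G, polF ((ρV.prod ρW) g) ((ρV.prod ρW) k) = 0 := by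
    intro g k
    unfold polF
    have h1 : tr1 ((ρV.prod ρW) g) = t g := htr g
    have h2 : tr1 ((ρV.prod ρW) k) = t k := htr k
    have h3 : tr1 ((ρV.prod ρW) g * (ρV.prod ρW) k) = t (g * k) := by
      rw [← map_mul]
      exact htr (g * k)
    rw [h1, h2, h3]
    refine Prod.ext ?_ ?_
    · simpa using pol_of_pseudo ρV t d hd hV g k
    · simpa using pol_of_pseudo ρW t d hd hW g k
  intro x hx y hy
  obtain ⟨a, rfl⟩ := (AlgHom.mem_range _).1 hx
  obtain ⟨a', rfl⟩ := (AlgHom.mem_range _).1 hy
  clear hx hy
  induction a using MonoidAlgebra.induction_on with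
  | of g =>
    rw [MonoidAlgebra.lift_of]
    induction a' using MonoidAlgebra.induction_on with
    | of k => rw [MonoidAlgebra.lift_of]; exact base g k
    | add u u' hu hu' => rw [map_add, polF_add_right, hu, hu', add_zero]
    | smul s u hu => rw [map_smul, polF_smul_right, hu, smul_zero]
  | add u u' hu hu' => rw [map_add, polF_add_left, hu, hu', add_zero]
  | smul s u hu => rw [map_smul, polF_smul_left, hu, smul_zero]

variable (b : Module.Basis (Fin 2) T V)

include b in
theorem trace_one_eq_two : LinearMap.trace T V (1 : Module.End T V) = 2 := by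
  rw [LinearMap.trace_eq_matrix_trace T b, LinearMap.toMatrix_one, Matrix.trace_one,
    Fintype.card_fin]
  norm_num

include b in
theorem tr1_one : tr1 (1 : Module.End T V × Module.End T W) = 2 := by
  rw [tr1_apply, Prod.fst_one, trace_one_eq_two b]

variable [Invertible (2 : T)] (c : G) (hc : c * c = 1) (hdc : d c = -1)

include b hV hc hdc in
theorem t_c_eq_zero : t c = 0 := by
  have hinv : c⁻¹ = c := inv_eq_of_mul_eq_one_left hc
  have h := hV c
  rw [hinv, hdc, neg_smul, one_smul, add_neg_cancel] at h
  have h2 := congrArg (LinearMap.trace T V) h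
  have h1 : LinearMap.trace T V (1 : Module.End T V) = 2 := trace_one_eq_two b
  rw [map_zero, map_smul, smul_eq_mul, h1] at h2
  calc t c = t c * 2 * ⅟2 := by rw [mul_assoc, mul_invOf_self, mul_one]
    _ = 0 := by rw [← h2, zero_mul]

/-- the idempotent `(1 + c) / 2`. -/
noncomputable def idemE : Module.End T V × Module.End T W :=
  (⅟2 : T) • (1 + (ρV c, ρW c))

theorem idemE_mem : idemE ρV ρW c ∈ grpAlg ρV ρW :=
  (grpAlg ρV ρW).smul_mem ((grpAlg ρV ρW).add_mem (grpAlg ρV ρW).one_mem (rho_mem_grpAlg ρV ρW c)) _

include hc in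
theorem idemE_mul_self : idemE ρV ρW c * idemE ρV ρW c = idemE ρV ρW c := by
  have hcc : ((ρV c, ρW c) : Module.End T V × Module.End T W) * (ρV c, ρW c) = 1 := by
    rw [Prod.mk_mul_mk, ← map_mul, ← map_mul, hc, map_one, map_one]
    rfl
  unfold idemE
  rw [smul_mul_assoc, mul_smul_comm, smul_smul, add_mul, mul_add, mul_add, one_mul, mul_one,
    one_mul, hcc]
  have h2 : (1 : Module.End T V × Module.End T W) + (ρV c, ρW c) + ((ρV c, ρW c) + 1) =
      (2 : T) • (1 + (ρV c, ρW c)) := by
    rw [two_smul]
    abel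
  rw [h2, smul_smul, mul_assoc, invOf_mul_self, mul_one]

include b hV htr hc hdc in
theorem tr1_idemE : tr1 (idemE ρV ρW c) = 1 := by
  unfold idemE
  rw [map_smul, map_add, tr1_one b, tr1_apply]
  show (⅟2 : T) • ((2 : T) + LinearMap.trace T V (ρV c)) = 1
  rw [htr, t_c_eq_zero ρV t d hV b c hc hdc, add_zero, smul_eq_mul, invOf_mul_self]

variable (hspan : Submodule.span T (Set.range ρV) = ⊤)

omit [Invertible (2 : T)] in
include hspan in
theorem fst_surjective_grpAlg (a : Module.End T V) : ∃ z ∈ grpAlg ρV ρW, z.1 = a := by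
  have hle : Submodule.span T (Set.range ρV) ≤
      Submodule.map (LinearMap.fst T (Module.End T V) (Module.End T W))
        (Subalgebra.toSubmodule (grpAlg ρV ρW)) := by
    rw [Submodule.span_le]
    rintro _ ⟨g, rfl⟩
    exact ⟨(ρV g, ρW g), rho_mem_grpAlg ρV ρW g, rfl⟩
  have ha : a ∈ Submodule.span T (Set.range ρV) := by rw [hspan]; trivial
  obtain ⟨z, hz, hza⟩ := hle ha
  exact ⟨z, hz, hza⟩

include hd hV hW htr b hc hdc hspan in
/-- **R2a: the kernel of `T[G] → End_T V` kills `W`.** -/
theorem exists_algHom_of_pseudoChar :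
    ∃ Φ : Module.End T V →ₐ[T] Module.End T W, ∀ g, Φ (ρV g) = ρW g := by
  obtain ⟨Φ, hΦ⟩ := exists_algHom b (polCH_grpAlg ρV ρW t d hd hV hW htr)
    (fst_surjective_grpAlg ρV ρW hspan) (idemE_mem ρV ρW c) (idemE_mul_self ρV ρW c hc)
    (tr1_idemE ρV ρW t d hV htr b c hc hdc) (tr1_one b)
  exact ⟨Φ, fun g => hΦ _ (rho_mem_grpAlg ρV ρW g)⟩

end Group

section Embedding

variable (b : Module.Basis (Fin 2) T V) (Φ : Module.End T V →ₐ[T] Module.End T W)

/-- the endomorphism `u ↦ (first coordinate of u) • v`. -/
noncomputable def colEnd : V →ₗ[T] Module.End T V := LinearMap.smulRightₗ (b.coord 0)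

theorem colEnd_apply (v u : V) : colEnd b v u = b.coord 0 u • v := by
  unfold colEnd
  rw [LinearMap.smulRightₗ_apply, LinearMap.smulRight_apply]

theorem mul_colEnd (a : Module.End T V) (v : V) : a * colEnd b v = colEnd b (a v) := by
  ext u
  rw [Module.End.mul_apply, colEnd_apply, colEnd_apply, map_smul]

theorem colEnd_self (v : V) : colEnd b v (b 0) = v := by
  rw [colEnd_apply, Module.Basis.coord_apply, Module.Basis.repr_self, Finsupp.single_eq_same,
    one_smul]

theorem matrix_sum_single_entry (M : Matrix (Fin 2) (Fin 2) T) (l m : Fin 2) :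
    ∑ k : Fin 2, Matrix.single k l (1 : T) * M * Matrix.single m k (1 : T) =
      M l m • (1 : Matrix (Fin 2) (Fin 2) T) := by
  ext i j
  fin_cases i <;> fin_cases j <;> simp [Fin.sum_univ_two]

theorem sum_unitEnd_entry (a : Module.End T V) (l m : Fin 2) :
    ∑ k : Fin 2, unitEnd b k l * a * unitEnd b m k =
      (LinearMap.toMatrix b b a) l m • (1 : Module.End T V) := by
  apply (LinearMap.toMatrixAlgEquiv b).injective
  simp only [map_sum, map_mul, map_smul, map_one, unitEnd, AlgEquiv.apply_symm_apply]
  rw [matrix_sum_single_entry]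
  rfl

variable (hfaith : ∀ s : T, (∀ w : W, s • w = 0) → s = 0)

include b hfaith in
/-- an algebra homomorphism from `End_T V` to the endomorphisms of a faithful module is injective. -/
theorem algHom_injective : Function.Injective Φ := by
  rw [injective_iff_map_eq_zero]
  intro a ha
  have hentry : ∀ l m : Fin 2, (LinearMap.toMatrix b b a) l m = 0 := by
    intro l m
    apply hfaith
    intro w
    have h1 := congrArg Φ (sum_unitEnd_entry b a l m)
    rw [map_sum] at h1
    simp only [map_mul, ha, mul_zero, zero_mul, Finset.sum_const_zero, map_smul, map_one] at h1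
    have h2 := congrArg (fun f : Module.End T W => f w) h1
    simp only [LinearMap.zero_apply, LinearMap.smul_apply, Module.End.one_apply] at h2
    exact h2.symm
  have h0 : LinearMap.toMatrix b b a = 0 := by
    ext l m
    rw [hentry l m]
    rfl
  exact (LinearMap.toMatrix b b).injective (by rw [h0, map_zero])

include b hfaith in
/-- **R2b: the equivariant embedding `V ↪ W^r`.** -/
theorem exists_equivariant_embedding [Module.Finite T W] :
    ∃ (r : ℕ) (j : V →ₗ[T] (Fin r → W)), Function.Injective j ∧
      ∀ (a : Module.End T V) (v : V) (i : Fin r), j (a v) i = Φ a (j v i) := by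
  obtain ⟨r, x, hx⟩ := Module.Finite.exists_fin (R := T) (M := W)
  set j : V →ₗ[T] (Fin r → W) :=
    LinearMap.pi fun i => (LinearMap.applyₗ (x i)).comp (Φ.toLinearMap.comp (colEnd b)) with hj
  have hjapp : ∀ v i, j v i = Φ (colEnd b v) (x i) := fun v i => rfl
  refine ⟨r, j, ?_, ?_⟩
  · rw [injective_iff_map_eq_zero]
    intro v hv
    have h1 : Φ (colEnd b v) = 0 := by
      apply LinearMap.ext_on hx
      rintro _ ⟨i, rfl⟩
      rw [← hjapp, hv]
      rfl
    have h2 : colEnd b v = 0 := by
      apply algHom_injective b Φ hfaith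
      rw [h1, map_zero]
    rw [← colEnd_self b v, h2]
    rfl
  · intro a v i
    rw [hjapp, hjapp, ← mul_colEnd, map_mul]
    rfl

end Embedding

section Final

variable [Invertible (2 : T)] (b : Module.Basis (Fin 2) T V)
variable (ρV : G →* Module.End T V) (ρW : G →* Module.End T W)

include b in
/-- **R2 = R2a + R2b**: an equivariant embedding `V ↪ W^r` from a common pseudo-character. -/
theorem exists_equivariant_embedding_of_pseudoChar [Module.Finite T W]
    (hfaith : ∀ s : T, (∀ w : W, s • w = 0) → s = 0)
    (t d : G → T) (hd : ∀ g h, d (g * h) = d g * d h)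
    (hV : ∀ g, ρV g + d g • ρV g⁻¹ = t g • 1) (hW : ∀ g, ρW g + d g • ρW g⁻¹ = t g • 1)
    (htr : ∀ g, LinearMap.trace T V (ρV g) = t g)
    (c : G) (hc : c * c = 1) (hdc : d c = -1)
    (hspan : Submodule.span T (Set.range ρV) = ⊤) :
    ∃ (r : ℕ) (j : V →ₗ[T] (Fin r → W)), Function.Injective j ∧
      ∀ (g : G) (v : V) (i : Fin r), j (ρV g v) i = ρW g (j v i) := by
  obtain ⟨Φ, hΦ⟩ := exists_algHom_of_pseudoChar ρV ρW t d hd hV hW htr b c hc hdc hspan
  obtain ⟨r, j, hinj, hj⟩ := exists_equivariant_embedding b Φ hfaith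
  exact ⟨r, j, hinj, fun g v i => by rw [hj, hΦ]⟩

end Final

end Fermat.Agent.S32x.RankTwo5
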